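import Fermat.Agent.RT.TWPoint.Separation
import Fermat.Agent.HeckeH1.BaseTower

/-!
# Separating lifts at the levels of the base
-/

set_option autoImplicit false
set_option linter.unusedSectionVars false
set_option linter.style.haveILetI false
set_option maxHeartbeats 2000000
set_option synthInstance.maxHeartbeats 200000

noncomputable section

open IsLocalRing Matrix FA.HeckeH1 FA.Deform
open FA.JTorsion (cycP)
open scoped MatrixGroups

namespace FA.RT

local notation "Qb" => AlgebraicClosure ℚ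
local notation "GQ" => AlgebraicClosure ℚ ≃ₐ[ℚ] AlgebraicClosure ℚ
local notation "M2" => Matrix (Fin 2) (Fin 2)

variable {O : Type} [CommRing O] [IsDomain O] [IsDiscreteValuationRing O]
  [IsAdicComplete (maximalIdeal O) O] [CharZero O]

section free

variable {M : ℕ} [NeZero M] {H : Subgroup (ZMod M)ˣ} {R : Type} [CommRing R] [Algebra O R]
  {ρ : R →ₐ[O] Module.End O (Hom1 (GamH M H) O)}

/-- A frame over the ring spanned by the diamonds gives the freeness of its piece. -/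
theorem exists_free_of_frame (F : Frame ρ) (β : Module.Basis ((ZMod M)ˣ ⧸ H) O R)
    (hβ : ∀ g, ρ (β g) = diaHom M H O g) :
    ∃ (d : ℕ) (b : Fin d → Hom1 (GamH M H) O), (∀ i, F.e (b i) = b i) ∧
    (∀ c : Fin d → (ZMod M)ˣ ⧸ H → O, (∑ i, ∑ g, c i g • diaHom M H O g (b i)) ∈
      maximalIdeal O • (⊤ : Submodule O (Hom1 (GamH M H) O)) → ∀ i g, c i g ∈ maximalIdeal O) ∧
    ∀ v, ∃ c : Fin d → (ZMod M)ˣ ⧸ H → O,
      F.e v = ∑ i, ∑ g, c i g • diaHom M H O g (b i) := by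
  classical
  have hsum : ∀ c : Fin F.d → (ZMod M)ˣ ⧸ H → O,
      ∑ i, ∑ g, c i g • diaHom M H O g (F.emb (Pi.single i 1)) =
        F.emb fun i => ∑ g, c i g • β g := by
    intro c
    conv_rhs => rw [show (fun i => ∑ g, c i g • β g) =
      ∑ i, ∑ g, c i g • (β g • (Pi.single i 1 : Fin F.d → R)) from funext fun j => by
        rw [Finset.sum_apply, Finset.sum_eq_single j]
        · rw [Finset.sum_apply]
          exact Finset.sum_congr rfl fun g _ => by simp
        · intro k _ hk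
          rw [Finset.sum_apply]
          exact Finset.sum_eq_zero fun g _ => by simp [Pi.single_eq_of_ne (Ne.symm hk)]
        · exact fun hj => absurd (Finset.mem_univ j) hj]
    simp only [map_sum, map_smul, F.emb_smul, hβ]
  refine ⟨F.d, fun i => F.emb (Pi.single i 1), fun i => F.e_emb _, fun c hc i g => ?_, fun v => ?_⟩
  · rw [hsum] at hc
    have h1 := map_mem_smul_top ((β.coord g).comp ((LinearMap.proj i).comp F.coord)) hc
    rw [LinearMap.comp_apply, LinearMap.comp_apply, F.coord_emb, LinearMap.proj_apply,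
      Module.Basis.coord_apply, Module.Basis.repr_sum_self, smul_eq_mul, Ideal.mul_top] at h1
    exact h1
  · refine ⟨fun i g => β.repr (F.coord v i) g, ?_⟩
    rw [hsum, ← F.emb_coord]
    exact congrArg F.emb (funext fun i => (β.sum_repr _).symm)

end free

/-- Operators in the kernel of the residual character of a piece are nilpotent on it modulo the
maximal ideal. -/
theorem nilp_of_piece {M : ℕ} [NeZero M] {H : Subgroup (ZMod M)ˣ} {A : Type} [CommRing A]
    [Algebra O A] [Module.Finite O A] {χ : A →ₐ[O] ResidueField O} {e₀ : A} (he : IsPiece χ e₀)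
    (op : A →ₐ[O] Module.End O (Hom1 (GamH M H) O)) {e : Module.End O (Hom1 (GamH M H) O)}
    (hop : op e₀ = e) {a : pairAlg M H O} {x : A} (hax : fullOp M H O a = op x) (hx : χ x = 0) :
    Nilp e a := by
  obtain ⟨k, hk⟩ := he.pow_mul_mem hx
  refine ⟨k, fun v => ?_⟩
  have h1 := map_mem_smul_top ((LinearMap.applyₗ (R := O) v).comp op.toLinearMap) hk
  rw [map_pow, hax, ← map_pow, ← hop]
  simpa [map_mul] using h1

/-- A lift of a residual value. -/
def liftVal (c : Nat.Primes → ResidueField O) (ℓ : ℕ) : O :=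
  if h : ℓ.Prime then Function.surjInv residue_surjective (c ⟨ℓ, h⟩) else 0

theorem residue_liftVal (c : Nat.Primes → ResidueField O) (ℓ : Nat.Primes) :
    residue O (liftVal c (ℓ : ℕ)) = c ℓ := by
  rw [liftVal, dif_pos ℓ.2, Function.surjInv_eq residue_surjective]
  rfl

section base

variable {S : Setup O} {X : Type} [DecidableEq X] {emb : X → ↥S.Sig} {bad : Finset ℕ}
  (L : LevelSet (fun x => (emb x).1) bad) (c : Nat.Primes → ResidueField O)

/-- The residual system is that of the residual representation. -/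
def FrobTrace (S : Setup O) (L0 : ℕ) (T : Finset Nat.Primes) (c : Nat.Primes → ResidueField O) :
    Prop :=
  ∀ ℓ : Nat.Primes, ℓ ∉ T → (ℓ : ℕ) ≠ S.p → ¬ (ℓ : ℕ) ∣ L0 → ∀ A : ValuationSubring Qb,
    A.LiesOverPrime ℓ → ∀ σ : GQ, A.IsFrobeniusAt σ ℓ → c ℓ = (S.rb σ).trace

theorem not_dvd_lvl_p (hp : ¬ S.p ∣ L.L0) (U : Finset X) : ¬ S.p ∣ L.lvl U := fun h => by
  rcases L.prime_dvd_lvl S.hp h with h | ⟨x, -, e⟩
  · exact hp h
  · exact (S.prime_Sig _ (emb x).2).2 e.symm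

theorem sq_not_dvd_lvl (hsq : ∀ q ∈ S.Sig, ¬ q * q ∣ L.L0) (U : Finset X) {q : ℕ} (hq : q ∈ S.Sig) :
    ¬ q * q ∣ L.lvl U := by
  have hqp := (S.prime_Sig q hq).1
  by_cases hx : ∃ x ∈ U, (emb x).1 = q
  · obtain ⟨x, hx, rfl⟩ := hx
    rw [L.lvl_erase hx]
    intro h
    exact L.qn_not_dvd (Finset.notMem_erase x U) (Nat.dvd_of_mul_dvd_mul_right hqp.pos h)
  · intro h
    refine hsq q hq (Nat.Coprime.dvd_of_dvd_mul_right ?_ h)
    refine Nat.Coprime.prod_right fun x hxU => ?_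
    have hne : q ≠ (emb x).1 := fun e => hx ⟨x, hxU, e.symm⟩
    exact Nat.Coprime.mul_left ((Nat.coprime_primes hqp (L.prime x)).2 hne)
      ((Nat.coprime_primes hqp (L.prime x)).2 hne)

/-- The piece of a level of the base. -/
theorem twPiece_base (hNE : ∀ N : ℕ, N ≠ 0 → ∃ ℓ : Nat.Primes, ¬ (ℓ : ℕ) ∣ N ∧
      ((ℓ : ℕ) : ZMod N) = 1 ∧ c ℓ ≠ ((ℓ : ℕ) : ResidueField O) + 1)
    (hc : FrobTrace S L.L0 L.S c) (U : Finset X) :
    TWPiece S.p S.rb ∅ (insert S.p ((L.lvl U).primeFactors ∪ L.S.image Subtype.val)) (liftVal c)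
      (fun _ => 0) (L.frame c U).e := by
  classical
  have hsub : Subsingleton ((ZMod (L.lvl U))ˣ ⧸ (⊤ : Subgroup (ZMod (L.lvl U))ˣ)) :=
    QuotientGroup.subsingleton_quotient_top
  refine ⟨by simp, by simp, fun u _ => Subgroup.mem_top u, Subgroup.mem_top _,
    fun x => ⟨0, Subsingleton.elim _ _⟩, (L.frame c U).e_e,
    fun a v => sysIdem_comm (S := L.S) (c := c) (L.lvl U) a.2 v, L.frame_mem_Par c hNE U,
    fun ℓ hℓ h => ?_, fun ℓ hℓ hℓT A hA σ hσ => ?_, fun ℓ hℓ => ?_, fun x => ⟨1, fun v => ?_⟩,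
    fun q hq => absurd hq (Finset.notMem_empty _), ?_⟩
  · rcases h with h | rfl
    · exact Finset.mem_insert_of_mem (Finset.mem_union_left _
        (Nat.mem_primeFactors.2 ⟨hℓ, h, NeZero.ne _⟩))
    · exact Finset.mem_insert_self _ _
  · rw [residue_liftVal c ⟨ℓ, hℓ⟩]
    refine hc ⟨ℓ, hℓ⟩ (fun hS => hℓT ?_) (fun hp => hℓT (hp ▸ Finset.mem_insert_self _ _))
      (fun hd => hℓT ?_) A hA σ hσ
    · exact Finset.mem_insert_of_mem (Finset.mem_union_right _ (Finset.mem_image.2 ⟨_, hS, rfl⟩))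
    · exact Finset.mem_insert_of_mem (Finset.mem_union_left _
        (Nat.mem_primeFactors.2 ⟨hℓ, hd.trans (L.dvd_lvl U), NeZero.ne _⟩))
  · have hS : ℓ ∉ L.S := fun h => hℓ (Finset.mem_insert_of_mem (Finset.mem_union_right _
      (Finset.mem_image.2 ⟨_, h, rfl⟩)))
    by_cases h : HasSys L.S c (L.lvl U)
    swap
    · exact ⟨0, fun v => by rw [L.frame_e, sysIdem_of_not _ _ h]; simp⟩
    obtain ⟨χ, e₀, hχ, he, hee⟩ := exists_sysPiece h
    have := heckeAlg_finite (L.lvl U) ⊤ O L.S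
    refine nilp_of_piece he (heckeAlg (L.lvl U) ⊤ O L.S).val hee
      (x := Tgen (L.lvl U) ⊤ O L.S ℓ - algebraMap O _ (liftVal c ℓ)) ?_ ?_
    · rw [map_sub, map_sub, AlgHom.commutes, AlgHom.commutes]
      refine congrArg (· - _) (LinearMap.ext fun z => ?_)
      exact (Tgen_apply (L.lvl U) ⊤ O L.S hS z).symm
    · rw [map_sub, AlgHom.commutes, hχ ℓ hS, IsLocalRing.ResidueField.algebraMap_eq,
        residue_liftVal, sub_self]
  · rw [Subsingleton.elim x 1, pow_one,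
      show (⟨_, diaPair_mem (L.lvl U) ⊤ O 1⟩ : pairAlg (L.lvl U) ⊤ O) = 1 from
        Subtype.ext (Prod.ext (map_one (diaHom (L.lvl U) ⊤ O)) rfl), sub_self, map_zero,
      LinearMap.zero_apply]
    exact zero_mem _
  · haveI : Unique ((ZMod (L.lvl U))ˣ ⧸ (⊤ : Subgroup (ZMod (L.lvl U))ˣ)) := uniqueOfSubsingleton 1
    refine exists_free_of_frame (L.frame c U) (Module.Basis.singleton _ O) fun g => ?_
    rw [Module.Basis.singleton_apply, map_one, Subsingleton.elim g 1, map_one]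

variable {AtP : ∀ (B : Type) [CommRing B] [IsLocalRing B] [Algebra O B], (GQ →* M2 B) → Prop}
  [Fact S.p.Prime] [Finite (ResidueField O)]

/-- **The levels of the base have separating lifts.** -/
theorem exists_baseSeparation (hNE : ∀ N : ℕ, N ≠ 0 → ∃ ℓ : Nat.Primes, ¬ (ℓ : ℕ) ∣ N ∧
      ((ℓ : ℕ) : ZMod N) = 1 ∧ c ℓ ≠ ((ℓ : ℕ) : ResidueField O) + 1)
    (ι : ℤ_[S.p] →+* O) (hcyc : ∀ σ, S.cyc σ = ι ((cycP S.p σ : ℤ_[S.p]ˣ) : ℤ_[S.p]))
    (hspan : Submodule.span (ResidueField O) (Set.range S.rb) = ⊤)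
    (hdet : ∀ σ, (S.rb σ).det = residue O (S.cyc σ))
    (hc : FrobTrace S L.L0 L.S c) (hT : ∀ q : ℕ, q.Prime → q ∣ L.L0 → q ∈ S.T)
    (hsq : ∀ q ∈ S.Sig, ¬ q * q ∣ L.L0) (hpbad : S.p ∈ bad)
    (U : Finset X)
    (hAt : ∀ D : PiecePt ι S.rb ∅ (L.frame c U).e, AtP (pointRing O D.R) D.r) :
    Nonempty (S.Separation emb (L.baseLevels c) U (S.BaseAllowed AtP)) := by
  classical
  have h := twPiece_base L c hNE hc U
  obtain ⟨P⟩ := h.exists_pieceSep S.hp2 S.hpO ι hcyc S.rb_open hspan hdet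
    (coreAlg (L.frame c U).e L.core).val Subtype.val_injective
    (Or.inl fun a => coreAlg_le_goodAway _ (fun hp => by
      obtain ⟨x, hx⟩ := hp hpbad
      exact (S.prime_Sig _ (emb x).2).2 hx) a.2) (Good := AtP) hAt
  have hgood : ∀ q : ℕ, q.Prime → q ∉ bad ∨ (∃ x, x ∉ U ∧ q = (emb x).1) →
      ¬ q ∣ L.lvl U ∧ q ≠ S.p := fun q hq hb => by
    rcases hb with hb | ⟨x, hx, rfl⟩
    · exact ⟨L.not_dvd_of_not_bad hq hb U, fun e => hb (e ▸ hpbad)⟩
    · exact ⟨L.qn_not_dvd hx, (S.prime_Sig _ (emb x).2).2⟩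
  have hunr : ∀ j, ∀ q : ℕ, q.Prime → q ∉ S.T → ∀ A : ValuationSubring Qb, A.LiesOverPrime q →
      ∀ σ ∈ A.inertiaSubgroupIn ℚ, P.pts.r j σ = 1 := fun j q hq hqT A hA σ hσ =>
    P.unr j q hq (fun hd => by
      rcases L.prime_dvd_lvl hq hd with hd | ⟨x, -, e⟩
      · exact hqT (hT q hq hd)
      · exact hqT (e ▸ Finset.mem_insert_of_mem (emb x).2))
      (fun e => hqT (e ▸ S.p_mem_T)) A hA σ hσ
  refine ⟨{
    pts := P.pts
    ev := P.ev
    ev_injective := P.ev_injective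
    good := fun j => ⟨hunr j, fun q => ?_, P.good j⟩
    ev_T := fun ℓ hℓ hb A hA σ hσ j => ?_
    tame_old := fun x hx j => ?_ }⟩
  · obtain ⟨q, hq⟩ := q
    exact P.tame j q (S.prime_Sig q hq).1 (S.prime_Sig q hq).2 (Finset.notMem_empty q)
      (sq_not_dvd_lvl L hsq U hq) _ (S.P.liesOver _ (S.prime_Sig q hq).1) _ (S.tame_mem ⟨q, hq⟩)
  · have hp := (hgood ℓ hℓ hb).2
    have hM := (hgood ℓ hℓ hb).1
    have hcore : ℓ ∈ L.core := fun hbad =>
      hb.elim (fun hb => absurd hbad hb) fun hb => hb.imp fun x hx => hx.2.symm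
    have : Subsingleton ((ZMod (L.lvl U))ˣ ⧸ (⊤ : Subgroup (ZMod (L.lvl U))ˣ)) :=
      QuotientGroup.subsingleton_quotient_top
    have ha : (L.TB c U ℓ).1 = twT (L.frame c U).e ⟨ℓ, hℓ, hM⟩ := by
      rw [L.TB_val c U hℓ hM hcore, twT, Subsingleton.elim (_⁻¹) 1, map_one, one_mul]
    exact P.ev_twT ⟨ℓ, hℓ, hM⟩ (L.TB c U ℓ) ha hp A hA σ hσ j
  · exact P.unr j _ (L.prime x) (L.qn_not_dvd hx) (S.prime_Sig _ (emb x).2).2 _
      (S.P.liesOver _ (S.prime_Sig _ (emb x).2).1) _ (S.tame_mem (emb x))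

/-- The points at the base are flat at `p` when `p` does not divide the fixed level. -/
theorem flat_basePoint (hNE : ∀ N : ℕ, N ≠ 0 → ∃ ℓ : Nat.Primes, ¬ (ℓ : ℕ) ∣ N ∧
      ((ℓ : ℕ) : ZMod N) = 1 ∧ c ℓ ≠ ((ℓ : ℕ) : ResidueField O) + 1)
    {ι : ℤ_[S.p] →+* O} (hspan : Submodule.span (ResidueField O) (Set.range S.rb) = ⊤)
    (hc : FrobTrace S L.L0 L.S c) (hp : ¬ S.p ∣ L.L0) (U : Finset X)
    (D : PiecePt ι S.rb ∅ (L.frame c U).e) : AtFlat S.p (pointRing O D.R) D.r :=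
  D.flat (twPiece_base L c hNE hc U) S.hp2 S.hpO hspan (not_dvd_lvl_p L hp U)

end base

end FA.RT

end
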