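import Fermat.Agent.RT.TWPoint.AtStrict
import Fermat.Agent.Root.NotOld
import Fermat.Agent.Root.NotOldDepth

/-!
# Points of the quotient by the old part at `p` supply the classes for strictness

A point of a piece whose values at the Hecke elements and diamonds are those of a point of the
quotient by the old part at `p` has a class with `U_p² = η(p)²`, hence its lift is strictly
ordinary at `p`.
-/

set_option autoImplicit false
set_option linter.unusedSectionVars false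
set_option linter.style.haveILetI false
set_option maxHeartbeats 1000000
set_option synthInstance.maxHeartbeats 200000

noncomputable section

open IsLocalRing FA.HeckeH1
open scoped MatrixGroups

namespace FA.RT

/-- An eigenvalue read off after a diamond. -/
theorem act_of_dia_act {M : ℕ} [NeZero M] {H : Subgroup (ZMod M)ˣ} {A : Type} [CommRing A]
    (D : (ZMod M)ˣ ⧸ H →* A) (w : Hom1 (GamH M H) A) (hd : ∀ x, diaHom M H A x w = D x • w)
    (x : (ZMod M)ˣ ⧸ H) (y : Hom1 (GamH M H) A) (a : A)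
    (h : diaHom M H A x y = (D x * a) • w) : y = a • w := by
  have h2 := congrArg (diaHom M H A x⁻¹) h
  rw [← Module.End.mul_apply, ← map_mul, inv_mul_cancel, map_one, Module.End.one_apply,
    map_smul, hd, smul_smul] at h2
  rw [h2, show D x * a * D x⁻¹ = D x⁻¹ * D x * a by ring, ← map_mul, inv_mul_cancel, map_one,
    one_mul]

variable {O : Type} [CommRing O] [IsDomain O] [IsDiscreteValuationRing O]
  [IsAdicComplete (maximalIdeal O) O] [CharZero O]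
  {X : Type} [DecidableEq X] {qn : X → ℕ} {bad : Finset ℕ} {L : LevelSet qn bad} (P : PPart L)
  {c : Nat.Primes → ResidueField O}
  {O' : Type} [CommRing O'] [IsDomain O'] [IsDiscreteValuationRing O']
  [IsAdicComplete (maximalIdeal O') O'] [CharZero O'] [Algebra O O']
  [IsLocalHom (algebraMap O O')] [Module.IsTorsionFree O O']

/-- **The class of a point new at `p` at the base**, where the diamonds are trivial. -/
theorem exists_strictClass (hNE : ∀ N : ℕ, N ≠ 0 → ∃ ℓ : Nat.Primes, ¬ (ℓ : ℕ) ∣ N ∧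
      ((ℓ : ℕ) : ZMod N) = 1 ∧ c ℓ ≠ ((ℓ : ℕ) : ResidueField O) + 1)
    (U : Finset X) (f : FullAlg (L.frame c U).e →ₐ[O] O') (g : P.newAlg c U →ₐ[O] O')
    (hT : ∀ ℓ : Nat.Primes, ¬ (ℓ : ℕ) ∣ L.lvl U → (ℓ : ℕ) ∉ bad →
      g ((P.pLevels c).TS U ℓ) = f (fullT (L.frame c U).e ℓ))
    (η : ∀ q : ℕ, MulChar (ZMod q) O') :
    ∃ w : Hom1 (GamH (L.lvl U) ⊤) O', w ∈ Par (GamH (L.lvl U) ⊤) O' ∧ w ≠ 0 ∧
      (∀ x : (ZMod (L.lvl U))ˣ ⧸ (⊤ : Subgroup (ZMod (L.lvl U))ˣ),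
        diaHom (L.lvl U) ⊤ O' x w = f (fullD (L.frame c U).e x) • w) ∧
      (∀ ℓ : Nat.Primes, ¬ (ℓ : ℕ) ∣ L.lvl U → (ℓ : ℕ) ∉ bad →
        (Tc (L.lvl U) ⊤ (ℓ : ℕ)).act w = f (fullT (L.frame c U).e ℓ) • w) ∧
      haveI : Fact P.p.Prime := ⟨P.hp⟩
      (Tc (L.lvl U) ⊤ P.p).act ((Tc (L.lvl U) ⊤ P.p).act w) =
        (∏ q ∈ (∅ : Finset ℕ), η q (P.p : ZMod q) ^ 2) • w := by
  haveI : Fact P.p.Prime := ⟨P.hp⟩
  obtain ⟨w, hwp, hw0, hwT, -, -, hwU⟩ :=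
    P.exists_new_eigenclass c U hNE (FA.Root.pPart_hdet P c hNE U) g
  refine ⟨w, hwp, hw0, fun x => ?_, fun ℓ hℓ hb => ?_, ?_⟩
  · haveI : Subsingleton ((ZMod (L.lvl U))ˣ ⧸ (⊤ : Subgroup (ZMod (L.lvl U))ˣ)) :=
      QuotientGroup.subsingleton_quotient_top
    rw [Subsingleton.elim x 1, map_one, map_one, map_one, one_smul, Module.End.one_apply]
  · haveI : Fact (ℓ : ℕ).Prime := ⟨ℓ.2⟩
    have e := hwT ℓ hℓ (L.TB c U ℓ) fun x => L.actB_TB c U hℓ (L.core_of_not_bad hb) x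
    exact e.trans (congrArg (· • w) (hT ℓ hℓ hb))
  · rw [Finset.prod_empty, one_smul]
    exact hwU

variable {G : Type} [CommGroup G] {bad' : Finset ℕ} (T : TWPart L c G bad')
  (hneat : IsNeatOn O (GamH P.L0 ⊤)) (U : Finset X)

omit [IsAdicComplete (maximalIdeal O') O'] [CharZero O'] in
/-- The value of the diamond of a prime prime to the Taylor–Wiles primes. -/
theorem prod_neb_sq_eq {f : FullAlg (T.frame U).e →ₐ[O] O'} {Q Q' : Finset ℕ}
    {η : ∀ q : ℕ, MulChar (ZMod q) O'} (hη : IsNebSq f Q Q' η)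
    (hQ : ∀ q ∈ Q, q ∣ T.prodQ) {ℓ : ℕ} (hℓ : ℓ.Prime) (hcop : ℓ.Coprime T.prodQ) :
    f (fullD (T.frame U).e ((T.iota U).symm (T.σ ℓ ^ 2))) =
      ∏ q ∈ Q', η q (ℓ : ZMod q) ^ 2 := by
  have hdiv : T.prodQ ∣ T.lvl U := dvd_mul_left T.prodQ (L.lvl U)
  obtain ⟨u, hu⟩ := ZMod.unitsMap_surjective hdiv (ZMod.unitOfCoprime ℓ hcop)
  have e : (T.iota U).symm (T.σ ℓ ^ 2) = QuotientGroup.mk u := by
    rw [MulEquiv.symm_apply_eq, T.iota_mk, T.sq ℓ hℓ hcop]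
    exact congrArg T.κ hu.symm
  rw [e, ← hη.prod_sq]
  refine Finset.prod_congr rfl fun q hq => congrArg (fun x => η q x ^ 2) ?_
  have hq' := hQ q (hη.subset hq)
  have hd : q ∣ T.lvl U := hq'.mul_left _
  have h2 := congrArg (fun v : (ZMod T.prodQ)ˣ => ZMod.castHom hq' (ZMod q) (v : ZMod T.prodQ)) hu
  simp only [ZMod.coe_unitOfCoprime, map_natCast] at h2
  rw [← h2, ← ZMod.castHom_apply (h := hd), ZMod.unitsMap_val, ← ZMod.castHom_apply (h := hdiv)]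
  exact (RingHom.congr_fun (ZMod.castHom_comp hq' hdiv) _).symm

/-- **The class of a point new at `p` at a Taylor–Wiles level.** -/
theorem exists_strictClassD (hp2 : T.p ≠ 2)
    (f : FullAlg (T.frame U).e →ₐ[O] O') (g : P.newAlgD T hneat U →ₐ[O] O')
    (hD : ∀ x, g (P.diaNew T hneat U (T.iota U x)) = f (fullD (T.frame U).e x))
    (hT : ∀ ℓ : Nat.Primes, ¬ (ℓ : ℕ) ∣ T.lvl U → (ℓ : ℕ) ∉ bad' →
      g ((P.pLevelsD T hneat).TS U ℓ) =
        f (fullD (T.frame U).e ((T.iota U).symm (T.σ ℓ)⁻¹)) * f (fullT (T.frame U).e ℓ))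
    {Q Q' : Finset ℕ} {η : ∀ q : ℕ, MulChar (ZMod q) O'} (hη : IsNebSq f Q Q' η)
    (hQ : ∀ q ∈ Q, q ∣ T.prodQ) (hcop : P.p.Coprime T.prodQ) :
    ∃ w : Hom1 (GamH (T.lvl U) (T.H U)) O', w ∈ Par (GamH (T.lvl U) (T.H U)) O' ∧ w ≠ 0 ∧
      (∀ x : (ZMod (T.lvl U))ˣ ⧸ T.H U,
        diaHom (T.lvl U) (T.H U) O' x w = f (fullD (T.frame U).e x) • w) ∧
      (∀ ℓ : Nat.Primes, ¬ (ℓ : ℕ) ∣ T.lvl U → (ℓ : ℕ) ∉ bad' →
        (Tc (T.lvl U) (T.H U) (ℓ : ℕ)).act w = f (fullT (T.frame U).e ℓ) • w) ∧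
      haveI : Fact P.p.Prime := ⟨P.hp⟩
      (Tc (T.lvl U) (T.H U) P.p).act ((Tc (T.lvl U) (T.H U) P.p).act w) =
        (∏ q ∈ Q', η q (P.p : ZMod q) ^ 2) • w := by
  haveI : Fact P.p.Prime := ⟨P.hp⟩
  obtain ⟨w, hwp, hw0, hwd, hwT, -, -, hwU⟩ :=
    P.exists_new_eigenclassD T hneat U (FA.Root.detD P T hneat hp2 U) g
  have hdia : ∀ x : (ZMod (T.lvl U))ˣ ⧸ T.H U,
      diaHom (T.lvl U) (T.H U) O' x w = f (fullD (T.frame U).e x) • w := fun x => by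
    have h1 := hwd (T.iota U x)
    rw [MulEquiv.symm_apply_apply, hD] at h1
    exact h1
  refine ⟨w, hwp, hw0, hdia, fun ℓ hℓ hb => ?_, ?_⟩
  · haveI : Fact (ℓ : ℕ).Prime := ⟨ℓ.2⟩
    have h0 : ∀ y, T.actD U (T.TD U ℓ) y = (T.frame U).coord (T.dHomG U (T.σ ℓ)⁻¹
        ((Tc (T.lvl U) (T.H U) (ℓ : ℕ)).act ((T.frame U).emb y))) := fun y =>
      T.actD_TD U hℓ (L.core_of_not_bad fun h => hb (T.sub_bad h)) y
    have h1 := hwT ℓ hℓ (T.σ ℓ)⁻¹ (T.TD U ℓ) h0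
    have h2 := hT ℓ hℓ hb
    exact act_of_dia_act (f.toMonoidHom.comp (fullD (T.frame U).e)) w hdia
      ((T.iota U).symm (T.σ ℓ)⁻¹) _ _ (h1.trans (congrArg (fun t : O' => t • w) h2))
  · rw [hwU]
    refine congrArg (· • w) ?_
    have h1 := hD ((T.iota U).symm (T.σ P.p ^ 2))
    rw [MulEquiv.apply_symm_apply] at h1
    exact h1.trans (prod_neb_sq_eq T U hη hQ P.hp hcop)

end FA.RT

end
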