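import Fermat.Agent.RT.TWPoint.PartSepOf
import Fermat.Agent.RT.TWPoint.StrictBridge
import Fermat.Agent.Root.LiftTW

/-!
# Strictly ordinary lifts separating the quotients by the old part at `p`

Given the pieces and separating points of the quotients by the old part at `p`, lifts strictly
ordinary at `p` separate these quotients at the base and at the Taylor–Wiles levels, and satisfy
the relation with the diamonds.
-/

set_option autoImplicit false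
set_option linter.unusedSectionVars false
set_option linter.style.haveILetI false
set_option maxHeartbeats 2000000
set_option synthInstance.maxHeartbeats 200000

noncomputable section

open IsLocalRing Matrix FA.HeckeH1 FA.Deform
open FA.JTorsion (cycP cycK)
open FA.LocalDef (IsOrdType)
open scoped MatrixGroups

namespace FA.RT

local notation "Qb" => AlgebraicClosure ℚ
local notation "GQ" => AlgebraicClosure ℚ ≃ₐ[ℚ] AlgebraicClosure ℚ
local notation "M2" => Matrix (Fin 2) (Fin 2)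

/-- The twisted element where the diamonds are trivial. -/
theorem twT_of_subsingleton {O : Type} [CommRing O] [IsDomain O] [IsDiscreteValuationRing O]
    [IsAdicComplete (maximalIdeal O) O] [CharZero O] {M : ℕ} [NeZero M]
    (e : Module.End O (Hom1 (GamH M (⊤ : Subgroup (ZMod M)ˣ)) O)) (ℓ : GP M) :
    twT e ℓ = goodT e ℓ := by
  haveI : Subsingleton ((ZMod M)ˣ ⧸ (⊤ : Subgroup (ZMod M)ˣ)) :=
    QuotientGroup.subsingleton_quotient_top
  rw [twT, Subsingleton.elim ((QuotientGroup.mk (gpUnit ℓ) ^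
    halfExp ((ZMod M)ˣ ⧸ (⊤ : Subgroup (ZMod M)ˣ)))⁻¹) 1, map_one, one_mul]

theorem pow_halfExp_of_sq {G : Type} [CommGroup G] (h : Odd (Nat.card G)) {x g : G}
    (hx : x = g ^ 2) : x ^ halfExp G = g := by
  rw [hx, ← pow_mul, halfExp_two_mul h, pow_succ, pow_card_eq_one', one_mul]

/-- The value of a product of good elements. -/
theorem value_mul {O : Type} [CommRing O] [IsDomain O] [IsDiscreteValuationRing O]
    [IsAdicComplete (maximalIdeal O) O] [CharZero O] {M : ℕ} [NeZero M] {H : Subgroup (ZMod M)ˣ}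
    {e : Module.End O (Hom1 (GamH M H) O)} {B : Type} [CommRing B] [Algebra O B]
    (f : FullAlg e →ₐ[O] B) (a b : GoodAlg e) :
    f (goodToFull e (a * b)) = f (goodToFull e a) * f (goodToFull e b) := by
  rw [map_mul, map_mul]

variable {O : Type} [CommRing O] [IsDomain O] [IsDiscreteValuationRing O]
  [IsAdicComplete (maximalIdeal O) O] [CharZero O] [Finite (ResidueField O)]
  {X : Type} [DecidableEq X] {qn : X → ℕ} {bad : Finset ℕ} {L : LevelSet qn bad} (P : PPart L)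
  {c : Nat.Primes → ResidueField O} {p : ℕ} [Fact p.Prime] {ι : ℤ_[p] →+* O}
  {Q T0 : Finset ℕ} {c0 α : ℕ → O}
  (S : Setup O) (AtP : ∀ (B : Type) [CommRing B] [IsLocalRing B] [Algebra O B], (GQ →* M2 B) → Prop)

/-- A point of a piece factoring through the quotient at the base is strictly ordinary at `p`. -/
theorem atStrict_of_factors (hPp : P.p = p) (hp2 : p ≠ 2) (hpO : (p : O) ∈ maximalIdeal O)
    (hspan : Submodule.span (ResidueField O) (Set.range S.rb) = ⊤)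
    (hord : ∀ A : ValuationSubring Qb, A.LiesOverPrime p → IsOrdType A S.rb)
    (hNE : ∀ N : ℕ, N ≠ 0 → ∃ ℓ : Nat.Primes, ¬ (ℓ : ℕ) ∣ N ∧
      ((ℓ : ℕ) : ZMod N) = 1 ∧ c ℓ ≠ ((ℓ : ℕ) : ResidueField O) + 1)
    (U : Finset X) (h : TWPiece p S.rb ∅ T0 c0 α (L.frame c U).e)
    (hppM : ¬ p * p ∣ L.lvl U) (incl : L.alg c U →ₐ[O] GoodAlg (L.frame c U).e)
    (hincl : ∀ (ℓ : ℕ) (hℓ : ℓ.Prime ∧ ¬ ℓ ∣ L.lvl U), ℓ ∉ bad →
      incl (L.TB c U ℓ) = goodT (L.frame c U).e ⟨ℓ, hℓ⟩)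
    (K : PiecePoint (L.frame c U).e ι S.rb ∅)
    (hK : ∀ a : L.alg c U, ((Ideal.Quotient.mkₐ O _ : L.alg c U →ₐ[O] P.newAlg c U)) a = 0 →
      K.f (goodToFull (L.frame c U).e (incl a)) = 0) :
    AtStrict p (pointRing O K.O') K.r := by
  subst hPp
  obtain ⟨g, hg⟩ := exists_liftOfSurjective
    (Ideal.Quotient.mkₐ O _ : L.alg c U →ₐ[O] P.newAlg c U) Ideal.Quotient.mk_surjective
    (K.f.comp ((goodToFull (L.frame c U).e).comp incl)) hK
  have hQ' : K.Q' = ∅ := Finset.subset_empty.1 K.neb.subset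
  obtain ⟨w, hwp, hw0, hwd, hwT, hwU⟩ := exists_strictClass P hNE U K.f g (fun ℓ hℓ hb => by
    exact ((hg (L.TB c U ℓ)).trans
      (congrArg (fun b => K.f (goodToFull (L.frame c U).e b)) (hincl ℓ ⟨ℓ.2, hℓ⟩ hb))).trans
      (congrArg K.f (goodToFull_goodT (L.frame c U).e ⟨ℓ, ℓ.2, hℓ⟩))) K.η
  refine h.atStrict_of_new hp2 hpO (P.p_dvd U) hppM hspan hord K.pointClass K.neb K.rep K.lift
    K.cont K.det K.trace bad ⟨w, hwp, hw0, hwd, hwT, ?_⟩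
  rw [hQ']
  exact hwU

/-- **Strictly ordinary lifts separate the quotient by the old part at the base.** -/
theorem nonempty_strictSep
    (hPp : P.p = p) (hSp : S.p = p) (hp2 : p ≠ 2) (hpO : (p : O) ∈ maximalIdeal O)
    (hcyc : ∀ σ, S.cyc σ = ι ((cycP p σ : ℤ_[p]ˣ) : ℤ_[p]))
    (hspan : Submodule.span (ResidueField O) (Set.range S.rb) = ⊤)
    (hdetrb : ∀ σ, (S.rb σ).det = residue O (ι ((cycP p σ : ℤ_[p]ˣ) : ℤ_[p])))
    (hord : ∀ A : ValuationSubring Qb, A.LiesOverPrime p → IsOrdType A S.rb)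
    (hNE : ∀ N : ℕ, N ≠ 0 → ∃ ℓ : Nat.Primes, ¬ (ℓ : ℕ) ∣ N ∧
      ((ℓ : ℕ) : ZMod N) = 1 ∧ c ℓ ≠ ((ℓ : ℕ) : ResidueField O) + 1)
    (hAtP : ∀ (B : Type) [CommRing B] [IsLocalRing B] [Algebra O B] (m : GQ →* M2 B), AtP B m)
    (U : Finset X) (h : TWPiece p S.rb ∅ T0 c0 α (L.frame c U).e)
    (hlev : ∀ q : ℕ, q.Prime → q ∣ L.lvl U → q ∈ S.T) (hsq : Squarefree (L.lvl U))
    (incl : L.alg c U →ₐ[O] GoodAlg (L.frame c U).e)
    (hincl : ∀ (ℓ : ℕ) (hℓ : ℓ.Prime ∧ ¬ ℓ ∣ L.lvl U), ℓ ∉ bad →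
      incl (L.TB c U ℓ) = goodT (L.frame c U).e ⟨ℓ, hℓ⟩)
    (hpts : ∃ (J : Type) (_ : Finite J) (Ps : J → AlgPoint O (FullAlg (L.frame c U).e)),
      (∀ j a, (Ideal.Quotient.mkₐ O _ : L.alg c U →ₐ[O] P.newAlg c U) a = 0 →
        (Ps j).hom (goodToFull (L.frame c U).e (incl a)) = 0) ∧
      ∀ a, (∀ j, (Ps j).hom (goodToFull (L.frame c U).e (incl a)) = 0) →
        (Ideal.Quotient.mkₐ O _ : L.alg c U →ₐ[O] P.newAlg c U) a = 0) :
    Nonempty (S.PartSep ((P.pLevels c).TS U) bad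
      fun B _ _ _ m => S.BaseAllowed AtP B m ∧ AtStrict p B m) := by
  have hpM : p ∣ L.lvl U := hPp ▸ P.p_dvd U
  have hpb : p ∈ bad := hPp ▸ P.mem_bad
  have hnsq : ∀ q : ℕ, q.Prime → ¬ q * q ∣ L.lvl U := fun q hq hd =>
    hq.not_isUnit (hsq q hd)
  obtain ⟨d⟩ := SepData.nonempty (ι := ι) (S := S) (h := h) (incl := incl)
    (π := (Ideal.Quotient.mkₐ O _ : L.alg c U →ₐ[O] P.newAlg c U)) hp2
    Ideal.Quotient.mk_surjective hspan hdetrb hpO (fun _ hn => absurd hpM hn) hpts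
  refine ⟨d.partSep hcyc ((P.pLevels c).TS U) bad (fun ℓ hℓ hb => ⟨fun e' => hb (e' ▸ hpb),
    ⟨hℓ, L.not_dvd_of_not_bad hℓ hb U⟩, L.TB c U ℓ, rfl,
    (hincl ℓ ⟨hℓ, L.not_dvd_of_not_bad hℓ hb U⟩ hb).trans (twT_of_subsingleton _ _).symm⟩)
    _ fun K hK => ?_⟩
  obtain ⟨h1, h2⟩ := PiecePoint.allowed h K hpO hSp S.T (Finset.Subset.refl _) hlev
    (fun q hq => hnsq q (S.prime_Sig q hq).1) (fun q _ => Finset.notMem_empty q)
  exact ⟨⟨h1, h2, hAtP _ _⟩, atStrict_of_factors P S hPp hp2 hpO hspan hord hNE U h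
    (hnsq p Fact.out) incl hincl K hK⟩

variable {G : Type} [CommGroup G] {bad' : Finset ℕ} (T : TWPart L c G bad')
  (hneat : IsNeatOn O (GamH P.L0 ⊤))

/-- The half exponent of the class of a prime is the inverse image of its square root. -/
theorem mk_gpUnit_pow_halfExp (U : Finset X) (hodd : Odd (Nat.card ((ZMod (T.lvl U))ˣ ⧸ T.H U)))
    (ℓ : GP (T.lvl U)) :
    (QuotientGroup.mk (gpUnit ℓ) : (ZMod (T.lvl U))ˣ ⧸ T.H U) ^
      halfExp ((ZMod (T.lvl U))ˣ ⧸ T.H U) = (T.iota U).symm (T.σ ℓ.1) := by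
  refine pow_halfExp_of_sq hodd ?_
  rw [← map_pow, MulEquiv.eq_symm_apply, T.iota_mk]
  have hdiv : T.prodQ ∣ T.lvl U := dvd_mul_left T.prodQ (L.lvl U)
  have hcop : ℓ.1.Coprime T.prodQ :=
    ℓ.2.1.coprime_iff_not_dvd.2 fun hd => ℓ.2.2 (hd.trans hdiv)
  rw [T.sq ℓ.1 ℓ.2.1 hcop]
  show T.κ (ZMod.unitsMap hdiv (gpUnit ℓ)) = _
  refine congrArg T.κ (Units.ext ?_)
  rw [ZMod.unitsMap_val, ← ZMod.castHom_apply (h := hdiv)]
  exact map_natCast _ ℓ.1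

/-- A point of a piece factoring through the quotient at a Taylor–Wiles level is strictly ordinary
at `p`. -/
theorem atStrict_of_factorsD (hPp : P.p = p) (hp2 : p ≠ 2) (hTp : T.p ≠ 2)
    (hpO : (p : O) ∈ maximalIdeal O)
    (hspan : Submodule.span (ResidueField O) (Set.range S.rb) = ⊤)
    (hord : ∀ A : ValuationSubring Qb, A.LiesOverPrime p → IsOrdType A S.rb)
    (U : Finset X) (h : TWPiece p S.rb Q T0 c0 α (T.frame U).e)
    (hppM : ¬ p * p ∣ T.lvl U) (hQ : ∀ q ∈ Q, q ∣ T.prodQ) (hcop : p.Coprime T.prodQ)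
    (incl : T.alg U →ₐ[O] GoodAlg (T.frame U).e)
    (hincl : ∀ (ℓ : ℕ) (hℓ : ℓ.Prime ∧ ¬ ℓ ∣ T.lvl U), ℓ ∉ bad' → incl (T.TD U ℓ) =
      goodDia (T.frame U).e ((T.iota U).symm (T.σ ℓ)⁻¹) * goodT (T.frame U).e ⟨ℓ, hℓ⟩)
    (hdia : ∀ g, incl (T.dia U g) = goodDia (T.frame U).e ((T.iota U).symm g))
    (K : PiecePoint (T.frame U).e ι S.rb Q)
    (hK : ∀ a : T.alg U, (Ideal.Quotient.mkₐ O _ : T.alg U →ₐ[O] P.newAlgD T hneat U) a = 0 →
      K.f (goodToFull (T.frame U).e (incl a)) = 0) :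
    AtStrict p (pointRing O K.O') K.r := by
  subst hPp
  obtain ⟨g, hg⟩ := exists_liftOfSurjective
    (Ideal.Quotient.mkₐ O _ : T.alg U →ₐ[O] P.newAlgD T hneat U) Ideal.Quotient.mk_surjective
    (K.f.comp ((goodToFull (T.frame U).e).comp incl)) hK
  refine h.atStrict_of_new hp2 hpO ((P.p_dvd U).mul_right _) hppM hspan hord K.pointClass K.neb
    K.rep K.lift K.cont K.det K.trace bad'
    (exists_strictClassD P T hneat U hTp K.f g (fun x => ?_) (fun ℓ hℓ hb => ?_) K.neb.toIsNebSq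
      hQ hcop)
  · refine ((hg (T.dia U (T.iota U x))).trans
      (congrArg (fun b => K.f (goodToFull (T.frame U).e b)) (hdia (T.iota U x)))).trans ?_
    exact congrArg (fun y => K.f (fullD (T.frame U).e y)) ((T.iota U).symm_apply_apply x)
  · refine ((hg (T.TD U ℓ)).trans
      (congrArg (fun b => K.f (goodToFull (T.frame U).e b)) (hincl ℓ ⟨ℓ.2, hℓ⟩ hb))).trans ?_
    exact value_mul K.f _ (goodT (T.frame U).e ⟨ℓ, ℓ.2, hℓ⟩)


/-- A lift of an element of inertia at a prime to a unit of the level, with its diamond. -/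
theorem exists_tameUnit {r n : ℕ} (D : S.TWSet r n) (hinj : Function.Injective D.qv)
    (hQD : ∀ q : Nat.Primes, q ∈ T.Q ↔ ∃ i, D.qv i = (q : ℕ))
    (hQ : ∀ q : ℕ, q ∈ Q ↔ ∃ i, D.qv i = q) (U : Finset X)
    (hexact : ∀ q ∈ Q, q.Prime ∧ q ∣ T.lvl U ∧ ¬ q * q ∣ T.lvl U)
    (hodd : Odd (Nat.card ((ZMod (T.lvl U))ˣ ⧸ T.H U))) (γ : Fin r → G)
    (hκ : ∀ (i : Fin r) (u : (ZMod T.prodQ)ˣ),
      haveI : Fact (D.qv i).Prime := ⟨(D.prime i).1⟩
      (ZMod.cast (u : ZMod T.prodQ) : ZMod (D.qv i)) =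
        (cycK (D.qv i) (ZMod (D.qv i)) (D.s i) : ZMod (D.qv i)) →
      (∀ j, j ≠ i → (ZMod.cast (u : ZMod T.prodQ) : ZMod (D.qv j)) = 1) → T.κ u * γ i ^ 2 = 1)
    (i : Fin r) :
    haveI : Fact (D.qv i).Prime := ⟨(D.prime i).1⟩
    ∃ u : (ZMod (T.lvl U))ˣ,
      (ZMod.cast (u : ZMod (T.lvl U)) : ZMod (D.qv i)) =
        (cycK (D.qv i) (ZMod (D.qv i)) (D.s i) : ZMod (D.qv i)) ∧
      (∀ q' ∈ Q, q' ≠ D.qv i → (ZMod.cast (u : ZMod (T.lvl U)) : ZMod q') = 1) ∧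
      ((QuotientGroup.mk u : (ZMod (T.lvl U))ˣ ⧸ T.H U) ^
        halfExp ((ZMod (T.lvl U))ˣ ⧸ T.H U))⁻¹ = (T.iota U).symm (γ i) := by
  haveI : Fact (D.qv i).Prime := ⟨(D.prime i).1⟩
  obtain ⟨hqp, hqM, hqq⟩ := hexact _ ((hQ _).2 ⟨i, rfl⟩)
  obtain ⟨ε, hε, hε'⟩ := exists_local_lift hqp hqM hqq
  set v := cycK (D.qv i) (ZMod (D.qv i)) (D.s i) with hv
  have hdiv : T.prodQ ∣ T.lvl U := dvd_mul_left T.prodQ (L.lvl U)
  have hsub : ∀ j, D.qv j ∣ T.prodQ := fun j =>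
    Finset.dvd_prod_of_mem (fun q : Nat.Primes => (q : ℕ))
      ((hQD ⟨D.qv j, (D.prime j).1⟩).2 ⟨j, rfl⟩)
  have hcast : ∀ j, (ZMod.cast (ZMod.unitsMap hdiv (ε v) : ZMod T.prodQ) : ZMod (D.qv j)) =
      (ZMod.cast (ε v : ZMod (T.lvl U)) : ZMod (D.qv j)) := fun j => by
    rw [ZMod.unitsMap_val, ← ZMod.castHom_apply (h := hdiv), ← ZMod.castHom_apply (h := hsub j),
      ← ZMod.castHom_apply (h := (hsub j).trans hdiv)]
    exact RingHom.congr_fun (ZMod.castHom_comp (hsub j) hdiv) _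
  have hone : ∀ q' ∈ Q, q' ≠ D.qv i → (ZMod.cast (ε v : ZMod (T.lvl U)) : ZMod q') = 1 :=
    fun q' hq' hne => by
      obtain ⟨hq'p, hq'M, -⟩ := hexact q' hq'
      rw [show (ZMod.cast (ε v : ZMod (T.lvl U)) : ZMod q') =
        (ZMod.unitsMap hq'M (ε v) : ZMod q') from rfl, hε' q' hq'M hq'p hne, Units.val_one]
  have hself : (ZMod.cast (ε v : ZMod (T.lvl U)) : ZMod (D.qv i)) = (v : ZMod (D.qv i)) :=
    congrArg Units.val (hε v)
  refine ⟨ε v, hself, hone, ?_⟩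
  have h1 := hκ i (ZMod.unitsMap hdiv (ε v)) ((hcast i).trans hself) fun j hj =>
    (hcast j).trans (hone _ ((hQ _).2 ⟨j, rfl⟩) fun e => hj (hinj e))
  have hx : (QuotientGroup.mk (ε v) : (ZMod (T.lvl U))ˣ ⧸ T.H U) =
      (((T.iota U).symm (γ i))⁻¹) ^ 2 := by
    rw [← map_inv, ← map_pow, MulEquiv.eq_symm_apply, T.iota_mk, inv_pow]
    exact eq_inv_of_mul_eq_one_left h1
  refine Eq.trans (congrArg Inv.inv (pow_halfExp_of_sq hodd hx)) ?_
  exact inv_inv ((T.iota U).symm (γ i))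

/-- **Strictly ordinary lifts separate the quotient by the old part at a Taylor–Wiles level**, and
satisfy the relation with the diamonds. -/
theorem exists_strictSepD {r n : ℕ} (D : S.TWSet r n)
    (hinj : Function.Injective D.qv) (hDT : ∀ i, D.qv i ∉ S.T)
    (hQD : ∀ q : Nat.Primes, q ∈ T.Q ↔ ∃ i, D.qv i = (q : ℕ))
    (ab : Fin r → ResidueField O) (hα : ∀ i, residue O (α (D.qv i)) = ab i)
    (hab : ∀ i, ab i * ab i - (S.rb (D.φ i)).trace * ab i + (S.rb (D.φ i)).det = 0)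
    (γ : Fin r → G)
    (hκ : ∀ (i : Fin r) (u : (ZMod T.prodQ)ˣ),
      haveI : Fact (D.qv i).Prime := ⟨(D.prime i).1⟩
      (ZMod.cast (u : ZMod T.prodQ) : ZMod (D.qv i)) =
        (cycK (D.qv i) (ZMod (D.qv i)) (D.s i) : ZMod (D.qv i)) →
      (∀ j, j ≠ i → (ZMod.cast (u : ZMod T.prodQ) : ZMod (D.qv j)) = 1) → T.κ u * γ i ^ 2 = 1)
    (hPp : P.p = p) (hSp : S.p = p) (hp2 : p ≠ 2) (hTp : T.p ≠ 2)
    (hpO : (p : O) ∈ maximalIdeal O)
    (hcyc : ∀ σ, S.cyc σ = ι ((cycP p σ : ℤ_[p]ˣ) : ℤ_[p]))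
    (hspan : Submodule.span (ResidueField O) (Set.range S.rb) = ⊤)
    (hdetrb : ∀ σ, (S.rb σ).det = residue O (ι ((cycP p σ : ℤ_[p]ˣ) : ℤ_[p])))
    (hord : ∀ A : ValuationSubring Qb, A.LiesOverPrime p → IsOrdType A S.rb)
    (hAtP : ∀ (B : Type) [CommRing B] [IsLocalRing B] [Algebra O B] (m : GQ →* M2 B), AtP B m)
    (hQ : ∀ q : ℕ, q ∈ Q ↔ ∃ i, D.qv i = q)
    (U : Finset X) (h : TWPiece p S.rb Q T0 c0 α (T.frame U).e)
    (hlev : ∀ q : ℕ, q.Prime → q ∣ L.lvl U → q ∈ S.T) (hsq : Squarefree (L.lvl U))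
    (incl : T.alg U →ₐ[O] GoodAlg (T.frame U).e)
    (hincl : ∀ (ℓ : ℕ) (hℓ : ℓ.Prime ∧ ¬ ℓ ∣ T.lvl U), ℓ ∉ bad' →
      incl (T.TD U ℓ) =
        goodDia (T.frame U).e ((T.iota U).symm (T.σ ℓ)⁻¹) * goodT (T.frame U).e ⟨ℓ, hℓ⟩)
    (hdia : ∀ g, incl (T.dia U g) = goodDia (T.frame U).e ((T.iota U).symm g))
    (hpts : ∃ (J : Type) (_ : Finite J) (Ps : J → AlgPoint O (FullAlg (T.frame U).e)),
      (∀ j a, (Ideal.Quotient.mkₐ O _ : T.alg U →ₐ[O] P.newAlgD T hneat U) a = 0 →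
        (Ps j).hom (goodToFull (T.frame U).e (incl a)) = 0) ∧
      ∀ a, (∀ j, (Ps j).hom (goodToFull (T.frame U).e (incl a)) = 0) →
        (Ideal.Quotient.mkₐ O _ : T.alg U →ₐ[O] P.newAlgD T hneat U) a = 0) :
    ∃ sep : S.PartSep ((P.pLevelsD T hneat).TS U) bad'
        fun B _ _ _ m => D.Allowed AtP B m ∧ AtStrict p B m,
      Setup.DiaRel D ab sep.pts fun i => sep.ev (P.diaNew T hneat U (γ i)) := by
  have hsub : ∀ j, D.qv j ∣ T.prodQ := fun j =>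
    Finset.dvd_prod_of_mem (fun q : Nat.Primes => (q : ℕ))
      ((hQD ⟨D.qv j, (D.prime j).1⟩).2 ⟨j, rfl⟩)
  have hpQ : ∀ q : ℕ, q.Prime → q ∣ T.prodQ → q ∈ Finset.univ.image D.qv := fun q hq hd => by
    obtain ⟨s, hs, hd⟩ := (Prime.dvd_finsetProd_iff hq.prime _).1 hd
    obtain ⟨i, hi⟩ := (hQD s).1 hs
    exact Finset.mem_image.2
      ⟨i, Finset.mem_univ _, hi.trans ((Nat.prime_dvd_prime_iff_eq hq s.2).1 hd).symm⟩
  have hcop : ∀ q ∈ S.T, q.Prime → q.Coprime T.prodQ := fun q hq hqp =>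
    hqp.coprime_iff_not_dvd.2 fun hd => by
      obtain ⟨i, -, hi⟩ := Finset.mem_image.1 (hpQ q hqp hd)
      exact hDT i (hi ▸ hq)
  have hpT : p ∈ S.T := hSp ▸ S.p_mem_T
  have hnsq : ∀ q ∈ S.T, q.Prime → ¬ q * q ∣ T.lvl U := fun q hq hqp hd =>
    hqp.not_isUnit (hsq q (Nat.Coprime.dvd_of_dvd_mul_right
      (Nat.Coprime.mul_left (hcop q hq hqp) (hcop q hq hqp)) hd))
  have hpM : p ∣ T.lvl U := (hPp ▸ P.p_dvd U).mul_right _
  have hpb : p ∈ bad := hPp ▸ P.mem_bad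
  obtain ⟨d⟩ := SepData.nonempty (ι := ι) (S := S) (h := h) (incl := incl)
    (π := (Ideal.Quotient.mkₐ O _ : T.alg U →ₐ[O] P.newAlgD T hneat U)) hp2
    Ideal.Quotient.mk_surjective hspan hdetrb hpO (fun _ hn => absurd hpM hn) hpts
  have hT : ∀ ℓ : ℕ, ℓ.Prime → ℓ ∉ bad' → ℓ ≠ p ∧
      ∃ (hℓ : ℓ.Prime ∧ ¬ ℓ ∣ T.lvl U) (a : T.alg U),
        (Ideal.Quotient.mkₐ O _ : T.alg U →ₐ[O] P.newAlgD T hneat U) a =
          (P.pLevelsD T hneat).TS U ℓ ∧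
        incl a = twT (T.frame U).e ⟨ℓ, hℓ⟩ := fun ℓ hℓ hb => by
    refine ⟨fun e' => hb (T.sub_bad (e' ▸ hpb)),
      ⟨hℓ, T.not_dvd_of_not_bad hℓ hb U⟩, T.TD U ℓ, rfl, ?_⟩
    rw [hincl ℓ ⟨hℓ, T.not_dvd_of_not_bad hℓ hb U⟩ hb, twT,
      mk_gpUnit_pow_halfExp T U (h.odd_card hp2), map_inv]
  refine ⟨d.partSep hcyc _ _ hT _ fun K hK => ?_, ?_⟩
  · obtain ⟨h1, h2⟩ := PiecePoint.allowed h K hpO hSp (S.T ∪ Finset.univ.image D.qv)
      Finset.subset_union_left (fun q hq hd => ((Nat.Prime.dvd_mul hq).1 hd).elim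
        (fun h1 => Finset.mem_union_left _ (hlev q hq h1))
        fun h1 => Finset.mem_union_right _ (hpQ q hq h1))
      (fun q hq => hnsq q (Finset.mem_insert_of_mem hq) (S.prime_Sig q hq).1)
      fun q hq hqQ => by
        obtain ⟨i, hi⟩ := (hQ q).1 hqQ
        exact hDT i (hi ▸ Finset.mem_insert_of_mem hq)
    exact ⟨⟨h1, h2, hAtP _ _⟩, atStrict_of_factorsD P S T hneat hPp hp2 hTp hpO hspan hord U h
      (hnsq p hpT Fact.out) (fun q hq => by obtain ⟨i, rfl⟩ := (hQ q).1 hq; exact hsub i)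
      (hcop p hpT Fact.out) incl hincl hdia K hK⟩
  · refine d.diaRel hpO hcyc hspan hdetrb _ _ hT _ _ D ab _ (fun i => (hQ _).2 ⟨i, rfl⟩) hα hab
      fun i => ?_
    obtain ⟨u, hu, hu', hu''⟩ := exists_tameUnit S T D hinj hQD hQ U
      (fun q hq => h.exact q hq) (h.odd_card hp2) γ hκ i
    exact ⟨u, T.dia U (γ i), hu, hu', rfl, by rw [hdia, hu'']⟩

end FA.RT

end
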