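import Fermat.Agent.RT.TWPoint.Point
import Fermat.Agent.NebLocal.InertiaTrace

/-!
# The trace of inertia at primes exactly dividing the level of a piece
-/

set_option autoImplicit false
set_option linter.unusedSectionVars false
set_option linter.style.haveILetI false
set_option maxHeartbeats 2000000
set_option synthInstance.maxHeartbeats 200000

noncomputable section

open IsLocalRing Matrix FA.HeckeH1 FA.Deform
open FA.Twist (galChar galCharAt twistMat)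
open FA.JTorsion (cycP)
open scoped MatrixGroups

namespace FA.RT

local notation "Qb" => AlgebraicClosure ℚ
local notation "GQ" => AlgebraicClosure ℚ ≃ₐ[ℚ] AlgebraicClosure ℚ
local notation "M2" => Matrix (Fin 2) (Fin 2)

theorem natCast_mem_maximalIdeal {O O' : Type} [CommRing O] [IsLocalRing O] [CommRing O']
    [IsLocalRing O'] [Algebra O O'] [IsLocalHom (algebraMap O O')] {p : ℕ}
    (hpO : (p : O) ∈ maximalIdeal O) : (p : O') ∈ maximalIdeal O' := by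
  have hle : (maximalIdeal O).map (algebraMap O O') ≤ maximalIdeal O' :=
    ((local_hom_TFAE (algebraMap O O')).out 0 2).mp (inferInstance : IsLocalHom (algebraMap O O'))
  have := hle (Ideal.mem_map_of_mem _ hpO)
  rwa [map_natCast] at this

/-- **Inertia at a prime exactly dividing the level of an eigenclass has trace `2`.** -/
theorem trace_inertia_of_eigenclass {O' : Type} [CommRing O'] [IsDomain O']
    [IsDiscreteValuationRing O'] [IsAdicComplete (maximalIdeal O') O'] [CharZero O']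
    {p : ℕ} [Fact p.Prime] (hpO' : (p : O') ∈ maximalIdeal O') (N : ℕ) [NeZero N] {q : ℕ}
    (hq : q.Prime) (hqp : q ≠ p) (hqd : q ∣ N) (hqN : ¬ q * q ∣ N)
    {A : ValuationSubring Qb} (hA : A.LiesOverPrime q) {σ : GQ}
    (hσ : σ ∈ A.inertiaSubgroupIn ℚ) (S : Finset ℕ) (hpS : p ∈ S)
    (hS : ∀ r : ℕ, r.Prime → r ∣ N → r ∈ S) (c : ℕ → O') (m : GQ →* M2 O') (hm : IsContRep m)
    (hfrob : ∀ ℓ : ℕ, ℓ.Prime → ℓ ∉ S → ∀ B : ValuationSubring Qb, B.LiesOverPrime ℓ →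
      ∀ τ : GQ, B.IsFrobeniusAt τ ℓ → (m τ).trace = c ℓ ∧ (m τ).det = (ℓ : O'))
    (hdet : (m σ).det = 1) (z' : Hom1 (GamH N ⊤) O') (hz'P : z' ∈ Par (GamH N ⊤) O')
    (hz'0 : z' ≠ 0)
    (hz'e : ∀ ℓ : ℕ, [Fact ℓ.Prime] → ℓ ∉ S → (Tc N ⊤ ℓ).act z' = c ℓ • z') :
    (m σ).trace = 2 := by
  obtain ⟨alg⟩ := FA.JTorsion.exists_algebra_qbar
  letI := alg
  let w : Hom1 (FA.Level.lvlGamma0 N).grp O' := (Corr.res (FA.NebLocal.gamH_top_eq N).ge).act z'
  have hw : w ∈ Par (FA.Level.lvlGamma0 N).grp O' := Par_act _ hz'P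
  obtain ⟨t, ht⟩ := (FA.NebLocal.parEquiv O' (FA.Level.lvlGamma0 N)).surjective ⟨w, hw⟩
  have hback : (Corr.res (FA.NebLocal.gamH_top_eq N).le).act w = z' := AddMonoidHom.ext fun x => by
    show hv _ x.toMul = hv _ x.toMul
    rw [Corr.res_act, Corr.res_act]
  have hcN : ∀ ℓ : ℕ, [Fact ℓ.Prime] → ℓ ∉ S →
      FA.NebLocal.tensC O' (FA.NebLocal.tcZero N ℓ) t =
        c ℓ • t := fun ℓ _ hℓ =>
    (FA.NebLocal.parEquiv O' (FA.Level.lvlGamma0 N)).injective (Subtype.ext (by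
      rw [FA.NebLocal.parEquiv_tensC, map_smul, ht]
      show (FA.NebLocal.tcZero N ℓ).act w = _ • w
      rw [FA.NebLocal.tcZero, Corr.comp_act, Corr.comp_act, hback, hz'e ℓ hℓ, Corr.act_smul]))
  have ht0 : t ≠ 0 := fun h0 => hz'0 <| by
    rw [← hback, show w = 0 by rw [h0, map_zero] at ht; exact (congrArg Subtype.val ht).symm,
      map_zero]
  exact FA.NebLocal.trace_inertia_zero hpO' N hq hqp
    (FA.NebLocal.semistableTors_exact N q hq hqd hqN) hA hσ S hpS hS c m hm hfrob hdet ht0 hcN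

variable {O : Type} [CommRing O] [IsDomain O] [IsDiscreteValuationRing O]
  [IsAdicComplete (maximalIdeal O) O] [CharZero O]
  {M : ℕ} [NeZero M] {H : Subgroup (ZMod M)ˣ}
  {p : ℕ} [Fact p.Prime] {rb : GQ →* M2 (ResidueField O)} {Q T0 : Finset ℕ} {c0 α : ℕ → O}
  {e : Module.End O (Hom1 (GamH M H) O)}
  {O' : Type} [CommRing O'] [IsDomain O'] [IsDiscreteValuationRing O']
  [IsAdicComplete (maximalIdeal O') O'] [CharZero O'] [Algebra O O']
  [IsLocalHom (algebraMap O O')] [Module.IsTorsionFree O O']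
  {f : FullAlg e →ₐ[O] O'} {z : Hom1 (GamH M H) O'} {Q' : Finset ℕ}
  {η : ∀ q : ℕ, MulChar (ZMod q) O'} {ι : ℤ_[p] →+* O} {m : GQ →* M2 O'}

/-- **Inertia at a prime exactly dividing the level has trace `2`**, for a square root
of the nebentypus. -/
theorem TWPiece.trace_tame_sq (h : TWPiece p rb Q T0 c0 α e) (hpO : (p : O) ∈ maximalIdeal O)
    (hz : IsPointClass e f z) (hη : IsNebSq f Q Q' η) (hm : PointRep ι f Q' η m)
    {q : ℕ} (hq : q.Prime) (hqp : q ≠ p) (hqQ : q ∉ Q) (hqM : ¬ q * q ∣ M)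
    {A : ValuationSubring Qb} (hA : A.LiesOverPrime q) {σ : GQ}
    (hσ : σ ∈ A.inertiaSubgroupIn ℚ) : (m σ).trace = 2 := by
  classical
  by_cases hqd : q ∣ M
  swap
  · rw [hm.unr q hq hqd hqp A hA σ hσ, Matrix.trace_one, Fintype.card_fin]
    norm_num
  have hpO' : (p : O') ∈ maximalIdeal O' := natCast_mem_maximalIdeal hpO
  let S : Finset ℕ := insert p M.primeFactors
  have hS : ∀ r : ℕ, r.Prime → r ∣ M → r ∈ S := fun r hr hrM =>
    Finset.mem_insert_of_mem (Nat.mem_primeFactors.2 ⟨hr, hrM, NeZero.ne M⟩)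
  have hSnot : ∀ ℓ : ℕ, ℓ.Prime → ℓ ∉ S → ¬ ℓ ∣ M ∧ ℓ ≠ p := fun ℓ hℓ hℓS =>
    ⟨fun hd => hℓS (hS ℓ hℓ hd), fun hd => hℓS (hd ▸ Finset.mem_insert_self _ _)⟩
  let c : ℕ → O' := fun ℓ => if hℓ : ℓ.Prime then f (fullT e ⟨ℓ, hℓ⟩) else 0
  obtain ⟨z', hz'P, hz'0, hz'e⟩ := FA.Twist.exists_twisted η S Q' M H hS
    (fun r hr => ⟨(h.exact r (hη.subset hr)).1, (h.exact r (hη.subset hr)).2.1,
      (h.exact r (hη.subset hr)).2.2, hη.sq_ne r hr⟩)
    z (hz.mem_Par h.par) (fun h0 => hz.1 (by rw [h0]; exact zero_mem _))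
    (fun g => by
      rw [← diaHom_mk, hz.dia_act, ← fullD_apply]
      exact congrArg (· • z) (hη.prod_sq (ulHom M g)).symm) c
    (fun ℓ hℓ hℓS => by
      rw [show c ℓ = f (fullT e ⟨ℓ, hℓ.out⟩) from dif_pos hℓ.out]
      exact hz.Tc_act ⟨ℓ, hℓ.out⟩)
  haveI hne : NeZero (M * ∏ r ∈ Q', r) :=
    ⟨mul_ne_zero (NeZero.ne M) (Finset.prod_ne_zero_iff.2 fun r hr => (h.exact r (hη.subset hr)).1.ne_zero)⟩
  let N := M * ∏ r ∈ Q', r
  haveI : NeZero N := hne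
  have hdvd : ∀ ℓ : ℕ, ℓ.Prime → ℓ ∣ N → ℓ ∣ M := fun ℓ hℓ hd => by
    rcases (Nat.Prime.dvd_mul hℓ).1 hd with hd | hd
    · exact hd
    · obtain ⟨r, hr, hd⟩ := (Prime.dvd_finsetProd_iff hℓ.prime _).1 hd
      rw [(Nat.prime_dvd_prime_iff_eq hℓ (h.exact r (hη.subset hr)).1).1 hd]
      exact (h.exact r (hη.subset hr)).2.1
  have hqN : ¬ q * q ∣ N := fun hd => hqM <| by
    refine Nat.Coprime.dvd_of_dvd_mul_right ?_ hd
    refine Nat.Coprime.prod_right fun r hr => ?_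
    have hne : q ≠ r := fun e => hqQ (e ▸ hη.subset hr)
    exact Nat.Coprime.mul_left ((Nat.coprime_primes hq (h.exact r (hη.subset hr)).1).2 hne)
      ((Nat.coprime_primes hq (h.exact r (hη.subset hr)).1).2 hne)
  refine trace_inertia_of_eigenclass hpO' N hq hqp (hqd.mul_right _) hqN hA hσ S
    (Finset.mem_insert_self _ _) (fun r hr hrN => hS r hr (hdvd r hr hrN))
    (fun ℓ => (∏ r ∈ Q', (η r)⁻¹ (ℓ : ZMod r)) * c ℓ) m hm.cont (fun ℓ hℓ hℓS B hB τ hτ => ?_)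
    ?_ z' hz'P hz'0 hz'e
  · obtain ⟨hℓM, hℓp⟩ := hSnot ℓ hℓ hℓS
    refine ⟨?_, ?_⟩
    · rw [(hm.frob ⟨ℓ, hℓ⟩ hℓM hℓp B hB τ hτ).1]
      show _ = _ * c ℓ
      rw [show c ℓ = f (fullT e ⟨ℓ, hℓ⟩) from dif_pos hℓ]
    · rw [hm.det, FA.JTorsion.cycP_frobenius p hℓ hℓp hB hτ, map_natCast, map_natCast]
  · rw [hm.det, FA.JTorsion.cycP_inertia p hq hqp hA hσ, Units.val_one, map_one, map_one]

/-- **Inertia at a prime exactly dividing the level has trace `2`.** -/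
theorem TWPiece.trace_tame (h : TWPiece p rb Q T0 c0 α e) (hpO : (p : O) ∈ maximalIdeal O)
    (hz : IsPointClass e f z) (hη : IsNeb f Q Q' η) (hm : PointRep ι f Q' η m)
    {q : ℕ} (hq : q.Prime) (hqp : q ≠ p) (hqQ : q ∉ Q) (hqM : ¬ q * q ∣ M)
    {A : ValuationSubring Qb} (hA : A.LiesOverPrime q) {σ : GQ}
    (hσ : σ ∈ A.inertiaSubgroupIn ℚ) : (m σ).trace = 2 :=
  h.trace_tame_sq hpO hz hη.toIsNebSq hm hq hqp hqQ hqM hA hσ

end FA.RT
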