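import Fermat.Agent.RT.TWPoint.Point
import Fermat.Agent.RT.TWPoint.Tame
import Fermat.Agent.RT.Diamond
import Fermat.Agent.LocalDef.Graded
import Fermat.Agent.RT.LevelBuild
import Fermat.Agent.NebLocal.NormResidual
import Fermat.Agent.NebLocal.OldResidual
import Fermat.Agent.NebLocal.RootAt
import Fermat.Agent.NebLocal.Nebentypus

/-!
# The line at a Taylor–Wiles prime

At a Taylor–Wiles prime of the level the eigenvalue of `U_q` is, after twisting, a Frobenius
eigenvalue of the lift, and inertia acts on its line by the inverse of the nebentypus.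
-/

set_option autoImplicit false
set_option linter.unusedSectionVars false
set_option linter.style.haveILetI false
set_option maxHeartbeats 4000000
set_option synthInstance.maxHeartbeats 200000

noncomputable section

open IsLocalRing Matrix FA.HeckeH1 FA.Deform
open FA.Twist (galChar galCharAt twistMat)
open FA.JTorsion (cycP cycK)
open scoped MatrixGroups

namespace FA.RT

local notation "Qb" => AlgebraicClosure ℚ
local notation "GQ" => AlgebraicClosure ℚ ≃ₐ[ℚ] AlgebraicClosure ℚ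
local notation "M2" => Matrix (Fin 2) (Fin 2)

/-- Frobenius times inertia is Frobenius. -/
theorem isFrobeniusAt_mul {A : ValuationSubring Qb} {q : ℕ} {F g : GQ} (hF : A.IsFrobeniusAt F q)
    (hg : g ∈ A.inertiaSubgroupIn ℚ) : A.IsFrobeniusAt (F * g) q :=
  ⟨mul_mem hF.mem_decompositionSubgroup (FA.LocalDef.inertia_le_decomposition hg), fun x => by
    rw [show (⟨F * g, mul_mem hF.mem_decompositionSubgroup
          (FA.LocalDef.inertia_le_decomposition hg)⟩ : A.decompositionSubgroup ℚ) =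
        ⟨F, hF.mem_decompositionSubgroup⟩ * ⟨g, FA.LocalDef.inertia_le_decomposition hg⟩ from rfl,
      mul_smul, FA.LocalDef.smul_inertia_res hg]
    exact hF.smul_residue_eq x⟩

theorem eval_charpoly_of_mul {R : Type} [CommRing R] {X e : M2 R} {c : R} (h : X * e = c • e)
    (hte : e.trace = 1) : c * c - X.trace * c + X.det = 0 := by
  have hCH : X * X - X.trace • X + X.det • (1 : M2 R) = 0 := by
    refine Matrix.ext fun i j => ?_
    fin_cases i <;> fin_cases j <;>
      simp [Matrix.mul_apply, Fin.sum_univ_two, Matrix.trace_fin_two, Matrix.det_fin_two] <;> ring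
  have h' := congrArg (fun N => Matrix.trace (N * e)) hCH
  simp only [add_mul, sub_mul, smul_mul_assoc, one_mul, zero_mul, mul_assoc, h, mul_smul_comm,
    smul_smul, Matrix.trace_add, Matrix.trace_sub, Matrix.trace_smul, Matrix.trace_zero, hte,
    smul_eq_mul, mul_one] at h'
  linear_combination h'

variable {O : Type} [CommRing O] [IsDomain O] [IsDiscreteValuationRing O]
  [IsAdicComplete (maximalIdeal O) O] [CharZero O]
  {O' : Type} [CommRing O'] [IsDomain O'] [IsDiscreteValuationRing O']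
  [IsAdicComplete (maximalIdeal O') O'] [CharZero O'] [Algebra O O']
  [IsLocalHom (algebraMap O O')] [Module.IsTorsionFree O O']

/-- A representation over the point ring is continuous over the extension. -/
theorem isContRep_map_val [Module.Finite O O'] [Module.Free O O']
    {r : GQ →* M2 (pointRing O O')} (hr : IsContRep r) :
    IsContRep (mapRep (pointRing O O').val.toRingHom r) := fun n => by
  obtain ⟨L, hL, h⟩ := hr n
  refine ⟨L, hL, fun σ hσ i j => ?_⟩
  have hle : (maximalIdeal (pointRing O O')).map (pointRing O O').val.toRingHom ≤ maximalIdeal O' :=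
    Ideal.map_le_iff_le_comap.2 fun x hx => Ideal.mem_comap.2 <| by_contra fun hn =>
      (IsLocalRing.mem_maximalIdeal _).1 hx (isUnit_pointRing hn)
  have h1 := Ideal.mem_map_of_mem (pointRing O O').val.toRingHom (h σ hσ i j)
  rw [Ideal.map_pow] at h1
  convert Ideal.pow_right_mono hle n h1 using 1
  rcases eq_or_ne i j with rfl | hne <;> simp [mapRep, *]

variable {M : ℕ} [NeZero M] {H : Subgroup (ZMod M)ˣ}
  {p : ℕ} [Fact p.Prime] {rb : GQ →* M2 (ResidueField O)} {Q T0 : Finset ℕ} {c0 α : ℕ → O}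
  {e : Module.End O (Hom1 (GamH M H) O)}
  {f : FullAlg e →ₐ[O] O'} {z : Hom1 (GamH M H) O'} {Q' : Finset ℕ}
  {η : ∀ q : ℕ, MulChar (ZMod q) O'} {ι : ℤ_[p] →+* O} {m : GQ →* M2 O'}
  [Finite (ResidueField O)] [Module.Finite O O'] [Module.Free O O']
  [Finite (GamH M ⊤ ⧸ (GamH M H).subgroupOf (GamH M ⊤))]

/-- The eigenvalue of `U_q` is a root at every Frobenius with the residual value of `α`,
for a square root of the nebentypus. -/
theorem TWPiece.root_sq (h : TWPiece p rb Q T0 c0 α e)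
    (hpO : (p : O) ∈ maximalIdeal O) (hspan : Submodule.span (ResidueField O) (Set.range rb) = ⊤)
    (hdetrb : ∀ σ, (rb σ).det = residue O (ι ((cycP p σ : ℤ_[p]ˣ) : ℤ_[p])))
    (hz : IsPointClass e f z) (hη : IsNebSq f Q Q' η) (hm : PointRep ι f Q' η m)
    {r : GQ →* M2 (pointRing O O')} (hr : mapRep (pointRes O O') r = rb) (hrc : IsContRep r)
    (hrt : ∀ σ, ((r σ).trace).1 = (m σ).trace)
    (hrd : ∀ σ, (r σ).det = algebraMap O _ (ι ((cycP p σ : ℤ_[p]ˣ) : ℤ_[p])))
    (q : Nat.Primes) (hqQ : (q : ℕ) ∈ Q) {A : ValuationSubring Qb} (hA : A.LiesOverPrime q)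
    {τ : GQ} (hτ : A.IsFrobeniusAt τ q)
    (hα : residue O (α q) ^ 2 - (rb τ).trace * residue O (α q) + (rb τ).det = 0)
    (hreg : (rb τ).trace ^ 2 ≠ 4 * (rb τ).det) :
    f (fullT e q) * f (fullT e q) -
      (galChar Q' η τ : O') * (m τ).trace * f (fullT e q) +
        (galChar Q' η τ : O') ^ 2 * (m τ).det = 0 := by
  classical
  obtain ⟨q, hq⟩ := q
  haveI : Fact q.Prime := ⟨hq⟩
  obtain ⟨-, hqM, hqq⟩ := h.exact q hqQ
  obtain ⟨M', rfl⟩ : ∃ M', M = M' * q := ⟨M / q, (Nat.div_mul_cancel hqM).symm⟩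
  haveI : NeZero M' := ⟨fun h0 => NeZero.ne (M' * q) (by rw [h0, zero_mul])⟩
  haveI : Fact (1 < M' * q) :=
    ⟨hq.one_lt.trans_le (Nat.le_mul_of_pos_left q (Nat.pos_of_ne_zero (NeZero.ne M')))⟩
  have hqM' : ¬ q ∣ M' := fun hd => hqq (mul_dvd_mul_right hd q)
  obtain ⟨alg⟩ := FA.JTorsion.exists_algebra_qbar
  letI := alg
  have hpO' : (p : O') ∈ maximalIdeal O' := natCast_mem_maximalIdeal hpO
  have hpq : p ∣ q - 1 := h.dvd_sub q hqQ
  have hqp : q ≠ p := fun h0 => by
    subst h0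
    have h2 := hq.two_le
    exact absurd (Nat.le_of_dvd (by omega) hpq) (by omega)
  have hq1 : residue O (q : O) = 1 := by
    obtain ⟨k, hk⟩ := hpq
    rw [show q = p * k + 1 by have := hq.one_le; omega, Nat.cast_add, Nat.cast_mul, Nat.cast_one,
      map_add, map_mul, (residue_eq_zero_iff _).2 hpO, zero_mul, zero_add, map_one]
  -- the twisted lift
  let r' := mapRep (pointRing O O').val.toRingHom r
  let θ := galChar Q' η
  let rθ := twistMat θ r'
  have hr't : ∀ σ, (r' σ).trace = (m σ).trace := fun σ => by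
    rw [← hrt σ]
    exact (AddMonoidHom.map_trace (pointRing O O').val.toRingHom.toAddMonoidHom (r σ)).symm
  have hr'd : ∀ σ, (r' σ).det = (m σ).det := fun σ => by
    rw [hm.det]
    refine (RingHom.map_det (pointRing O O').val.toRingHom (r σ)).symm.trans ?_
    rw [hrd]
    rfl
  have hr'res : ∀ σ, (r' σ).map (residue O') =
      (rb σ).map (ResidueField.map (algebraMap O O')) := fun σ => Matrix.ext fun i j => by
    show residue O' ((r σ i j).1) = _
    rw [← map_pointRes]
    exact congrArg _ (congrFun (congrFun (DFunLike.congr_fun hr σ) i) j)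
  have hθc : ∃ L : IntermediateField ℚ Qb, FiniteDimensional ℚ L ∧
      ∀ σ : GQ, (∀ a ∈ L, σ a = a) → θ σ = 1 := FA.Twist.exists_field_galChar Q' η
  have hrθc : IsContRep rθ := FA.Twist.isContRep_twistMat (isContRep_map_val hrc) hθc
  have hrθt : ∀ σ, (rθ σ).trace = (twistMat θ m σ).trace := fun σ => by
    simp only [rθ, FA.Twist.twistMat_apply, Matrix.trace_smul, hr't]
  have hrθd : ∀ σ, (rθ σ).det = (twistMat θ m σ).det := fun σ => by
    simp only [rθ, FA.Twist.twistMat_apply, Matrix.det_smul, hr'd]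
  have hrθres : ∀ σ, (rθ σ).map (residue O') =
      (rb σ).map (ResidueField.map (algebraMap O O')) := fun σ => by
    rw [← hr'res]
    refine Matrix.ext fun i j => ?_
    simp [rθ, θ, FA.Twist.twistMat_apply, hη.residual_galChar σ]
  have hspan' : Submodule.span (ResidueField O')
      (Set.range fun g => (rθ g).map (residue O')) = ⊤ := by
    simp only [hrθres]
    exact span_map_eq_top _ _ hspan
  -- the residual quantities
  set u := f (fullT e ⟨q, hq⟩) with hu_def
  have hu : residue O' u = ResidueField.map (algebraMap O O') (residue O (α q)) := by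
    rw [ResidueField.map_residue, ← sub_eq_zero, ← map_sub, residue_eq_zero_iff]
    exact sub_mem_of_nilp hz (h.nilU ⟨q, hq⟩ hqQ)
  have htθ : residue O' (rθ τ).trace = ResidueField.map (algebraMap O O') (rb τ).trace := by
    rw [AddMonoidHom.map_trace (residue O'), hrθres, ← AddMonoidHom.map_trace]
  have hdθ : residue O' (rθ τ).det = ResidueField.map (algebraMap O O') (rb τ).det := by
    rw [RingHom.map_det, RingHom.mapMatrix_apply, hrθres, RingHom.map_det, RingHom.mapMatrix_apply]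
  have hd1 : (rb τ).det = 1 := by
    rw [hdetrb, FA.JTorsion.cycP_frobenius p hq hqp hA hτ, map_natCast, hq1]
  have hα1 : residue O (α q) ^ 2 ≠ 1 := fun h1 => hreg <| by
    rw [hd1] at hα ⊢
    have h2 : (rb τ).trace * residue O (α q) = 2 := by linear_combination h1 - hα
    linear_combination ((rb τ).trace * residue O (α q) + 2) * h2 -
      (rb τ).trace ^ 2 * h1
  -- the class
  have hzPar : z ∈ Par (GamH (M' * q) H) O' := hz.mem_Par h.par
  let S : Finset ℕ := insert p (M' * q).primeFactors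
  have hS : ∀ s : ℕ, s.Prime → s ∣ M' * q → s ∈ S := fun s hs hsM =>
    Finset.mem_insert_of_mem (Nat.mem_primeFactors.2 ⟨hs, hsM, NeZero.ne (M' * q)⟩)
  have hSnot : ∀ ℓ : ℕ, ℓ.Prime → ℓ ∉ S → ¬ ℓ ∣ M' * q ∧ ℓ ≠ p := fun ℓ hℓ hℓS =>
    ⟨fun hd => hℓS (hS ℓ hℓ hd), fun hd => hℓS (hd ▸ Finset.mem_insert_self _ _)⟩
  let c : ℕ → O' := fun ℓ => if hℓ : ℓ.Prime then f (fullT e ⟨ℓ, hℓ⟩) else 0
  have hrel := FA.NebLocal.parR_relation hpO' η S (Finset.mem_insert_self _ _) Q' (M' * q) H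
    h.neg_one hS (fun s hs => ⟨(h.exact s (hη.subset hs)).1, (h.exact s (hη.subset hs)).2.1,
      (h.exact s (hη.subset hs)).2.2, hη.sq_ne s hs⟩) c rθ hrθc (fun ℓ hℓ hℓS B hB σ hσ => by
      obtain ⟨hℓM, hℓp⟩ := hSnot ℓ hℓ hℓS
      rw [hrθt, hrθd, show c ℓ = f (fullT e ⟨ℓ, hℓ⟩) from dif_pos hℓ]
      exact ⟨(hm.frob ⟨ℓ, hℓ⟩ hℓM hℓp B hB σ hσ).2.1, (hm.frob ⟨ℓ, hℓ⟩ hℓM hℓp B hB σ hσ).2.2⟩)
    ⟨z, hzPar⟩ (fun g => by
      show dia (M' * q) H O' g z = _ • z
      rw [← diaHom_mk, hz.dia_act, ← fullD_apply]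
      exact congrArg (· • z) (hη.prod_sq (ulHom (M' * q) g)).symm)
    (fun ℓ hℓ hℓS => by
      show (Tc (M' * q) H ℓ).act z = c ℓ • z
      rw [show c ℓ = f (fullT e ⟨ℓ, hℓ.out⟩) from dif_pos hℓ.out]
      exact hz.Tc_act ⟨ℓ, hℓ.out⟩)
  -- the residual restriction
  obtain ⟨d, b, hb, hind, hgen⟩ := h.free
  have hzP := hz
  obtain ⟨hz0, n, b', w, hb', hzsum, -⟩ := hzP
  have hspanz : ∃ cz : Fin d → (ZMod (M' * q))ˣ ⧸ H → O', z =
      ∑ i, ∑ g, cz i g • diaHom (M' * q) H O' g (FA.NebLocal.coefExt O' (b i)) := by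
    choose cg hcg using fun j => hgen (b' j)
    refine ⟨fun i g => ∑ j, w j * algebraMap O O' (cg j i g), ?_⟩
    rw [hzsum]
    refine AddMonoidHom.ext fun γ => ?_
    simp only [FA.NebLocal.diaHom_coefExt, AddMonoidHom.finsetSum_apply, AddMonoidHom.smul_apply,
      smul_eq_mul, Finset.sum_mul]
    rw [Finset.sum_congr rfl fun i _ => Finset.sum_comm, Finset.sum_comm]
    refine Finset.sum_congr rfl fun j _ => ?_
    show w j * algebraMap O O' (b' j γ) = _
    rw [← hb' j, hcg j]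
    simp [AddMonoidHom.finsetSum_apply, map_sum, Finset.mul_sum, mul_assoc]
  obtain ⟨y, hy, hzy, hUy⟩ := FA.NebLocal.exists_top_of_invariant (O' := O') (ℓ := q) b
    (fun i => hb i ▸ h.par (b i)) hind (fun j => by
      obtain ⟨a, ha⟩ := hgen ((Tc (M' * q) H q).act (b j))
      refine ⟨a, ?_⟩
      rw [← ha]
      have h1 := h.comm ⟨_, Tpair_mem (M' * q) H O ⟨q, hq⟩⟩ (b j)
      rw [hb j] at h1
      exact h1)
    hspanz (h.dia_sub_mem hz) (hz.Tc_act ⟨q, hq⟩)
  obtain ⟨bz, hbz⟩ := FA.NebLocal.exists_old_of_residual hqM' H h.neg_one (u := u) (by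
      intro hmem
      refine hα1 ((ResidueField.map (algebraMap O O')).injective ?_)
      rw [map_pow, ← hu, map_one, ← map_pow, ← sub_eq_zero, ← map_one (residue O'), ← map_sub,
        residue_eq_zero_iff, pow_two]
      exact hmem)
    ⟨z, hzPar⟩ hy (fun γ => by
      have h1 := values_of_mem_smul_top hzy γ
      rw [show hv (z - (Corr.res GamH_le_top).act y) γ = hv z γ -
        hv ((Corr.res GamH_le_top).act y) γ from rfl, Corr.res_act] at h1
      exact h1) hUy
  have hroot := FA.NebLocal.root_of_residually_old hpO' H h.neg_one hqM' hpq hA hτ rθ hspan'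
    ⟨z, hzPar⟩ (u := u) (fun hmem => hz0 (map_mem_smul_top (Par (GamH (M' * q) H) O').subtype hmem))
    (Subtype.ext (hz.Tc_act ⟨q, hq⟩)) hrel (by
      rw [← residue_eq_zero_iff, map_add, map_sub, map_mul, map_mul, hu, htθ, hdθ,
        ← pow_two, ← map_pow (ResidueField.map (algebraMap O O')),
        ← map_mul (ResidueField.map (algebraMap O O')), ← map_sub, ← map_add, hα, map_zero])
    (by
      intro hmem
      refine hreg ?_
      have h1 : 2 * residue O (α q) - (rb τ).trace = 0 :=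
        (ResidueField.map (algebraMap O O')).injective (by
          rw [map_zero, map_sub, map_mul, map_ofNat, ← hu, ← htθ, ← map_ofNat (residue O'),
            ← map_mul, ← map_sub, residue_eq_zero_iff]
          exact hmem)
      linear_combination (2 * residue O (α q) - (rb τ).trace) * h1 - 4 * hα)
    (by rw [← residue_eq_zero_iff, map_sub, map_one, hdθ, hd1, map_one, sub_self])
    ⟨bz, hbz⟩
  rw [hrθt, hrθd, FA.Twist.twistMat_apply, Matrix.trace_smul, Matrix.det_smul, Fintype.card_fin,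
    smul_eq_mul] at hroot
  exact hroot

/-- The eigenvalue of `U_q` is a root at every Frobenius with the residual value of `α`. -/
theorem TWPiece.root (h : TWPiece p rb Q T0 c0 α e)
    (hpO : (p : O) ∈ maximalIdeal O) (hspan : Submodule.span (ResidueField O) (Set.range rb) = ⊤)
    (hdetrb : ∀ σ, (rb σ).det = residue O (ι ((cycP p σ : ℤ_[p]ˣ) : ℤ_[p])))
    (hz : IsPointClass e f z) (hη : IsNeb f Q Q' η) (hm : PointRep ι f Q' η m)
    {r : GQ →* M2 (pointRing O O')} (hr : mapRep (pointRes O O') r = rb) (hrc : IsContRep r)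
    (hrt : ∀ σ, ((r σ).trace).1 = (m σ).trace)
    (hrd : ∀ σ, (r σ).det = algebraMap O _ (ι ((cycP p σ : ℤ_[p]ˣ) : ℤ_[p])))
    (q : Nat.Primes) (hqQ : (q : ℕ) ∈ Q) {A : ValuationSubring Qb} (hA : A.LiesOverPrime q)
    {τ : GQ} (hτ : A.IsFrobeniusAt τ q)
    (hα : residue O (α q) ^ 2 - (rb τ).trace * residue O (α q) + (rb τ).det = 0)
    (hreg : (rb τ).trace ^ 2 ≠ 4 * (rb τ).det) :
    f (fullT e q) * f (fullT e q) -
      (galChar Q' η τ : O') * (m τ).trace * f (fullT e q) +
        (galChar Q' η τ : O') ^ 2 * (m τ).det = 0 :=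
  h.root_sq hpO hspan hdetrb hz hη.toIsNebSq hm hr hrc hrt hrd q hqQ hA hτ hα hreg

/-- **The line at a Taylor–Wiles prime**, with the inverse of a square root of the nebentypus. -/
theorem TWPiece.exists_line_sq (h : TWPiece p rb Q T0 c0 α e)
    (hpO : (p : O) ∈ maximalIdeal O) (hspan : Submodule.span (ResidueField O) (Set.range rb) = ⊤)
    (hdetrb : ∀ σ, (rb σ).det = residue O (ι ((cycP p σ : ℤ_[p]ˣ) : ℤ_[p])))
    (hz : IsPointClass e f z) (hη : IsNebSq f Q Q' η) (hm : PointRep ι f Q' η m)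
    {r : GQ →* M2 (pointRing O O')} (hr : mapRep (pointRes O O') r = rb) (hrc : IsContRep r)
    (hrt : ∀ σ, ((r σ).trace).1 = (m σ).trace)
    (hrd : ∀ σ, (r σ).det = algebraMap O _ (ι ((cycP p σ : ℤ_[p]ˣ) : ℤ_[p])))
    {q : ℕ} [hq : Fact q.Prime] (hqQ : q ∈ Q) {A : ValuationSubring Qb} (hA : A.LiesOverPrime q)
    {φ : GQ} (hφ : A.IsFrobeniusAt φ q) {s : GQ} (hs : s ∈ A.inertiaSubgroupIn ℚ)
    (hunr : ∀ σ ∈ A.inertiaSubgroupIn ℚ, rb σ = 1)
    (hα : residue O (α q) ^ 2 - (rb φ).trace * residue O (α q) + (rb φ).det = 0)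
    (hreg : (rb φ).trace ^ 2 ≠ 4 * (rb φ).det) :
    ∃ a : pointRing O O', pointRes O O' a = residue O (α q) ∧
      a * a - (r φ).trace * a + (r φ).det = 0 ∧
      (2 * a.1 - ((r φ).trace).1) * ((galChar Q' η s)⁻¹ : O'ˣ).1 =
        ((r φ * r s).trace).1 - (((r φ).trace).1 - a.1) * ((r s).trace).1 := by
  classical
  let r' := mapRep (pointRing O O').val.toRingHom r
  let θ := galChar Q' η
  set u₀ := f (fullT e ⟨q, hq.out⟩) with hu₀
  have hr't : ∀ σ, (r' σ).trace = ((r σ).trace).1 := fun σ =>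
    (AddMonoidHom.map_trace (pointRing O O').val.toRingHom.toAddMonoidHom (r σ)).symm
  have hr'd : ∀ σ, (r' σ).det = (m σ).det := fun σ => by
    rw [hm.det]
    refine (RingHom.map_det (pointRing O O').val.toRingHom (r σ)).symm.trans ?_
    rw [hrd]
    rfl
  have hr'res : ∀ σ, (r' σ).map (residue O') =
      (rb σ).map (ResidueField.map (algebraMap O O')) := fun σ => Matrix.ext fun i j => by
    show residue O' ((r σ i j).1) = _
    rw [← map_pointRes]
    exact congrArg _ (congrFun (congrFun (DFunLike.congr_fun hr σ) i) j)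
  -- roots of both Frobenius elements
  let a : GQ → O' := fun τ => ((θ τ)⁻¹ : O'ˣ) * u₀
  have ha : ∀ τ, A.IsFrobeniusAt τ q → rb τ = rb φ →
      a τ * a τ - (r' τ).trace * a τ + (r' τ).det = 0 ∧
        residue O' (a τ) = ResidueField.map (algebraMap O O') (residue O (α q)) := by
    intro τ hτ hτφ
    have h0 := h.root_sq hpO hspan hdetrb hz hη hm hr hrc hrt hrd ⟨q, hq.out⟩ hqQ hA hτ
      (by rw [hτφ]; exact hα) (by rw [hτφ]; exact hreg)
    refine ⟨?_, ?_⟩
    · have hti : ((θ τ)⁻¹ : O'ˣ).1 * (θ τ : O') = 1 := Units.inv_mul _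
      rw [hr't, hrt, hr'd]
      simp only [a]
      linear_combination (((θ τ)⁻¹ : O'ˣ).1) ^ 2 * h0 +
        (((θ τ)⁻¹ : O'ˣ).1 * (m τ).trace * u₀ -
          (m τ).det * (((θ τ)⁻¹ : O'ˣ).1 * (θ τ : O') + 1)) * hti
    · simp only [a, map_mul, map_units_inv, θ, hη.residual_galChar τ, inv_one, one_mul]
      rw [ResidueField.map_residue, ← sub_eq_zero, ← map_sub, residue_eq_zero_iff]
      exact sub_mem_of_nilp hz (h.nilU ⟨q, hq.out⟩ hqQ)
  obtain ⟨ha1, ha2⟩ := ha φ hφ rfl
  have hsφ : rb (φ * s) = rb φ := by rw [map_mul, hunr s hs, mul_one]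
  obtain ⟨hb1, hb2⟩ := ha (φ * s) (isFrobeniusAt_mul hφ hs) hsφ
  have hamem : a φ ∈ pointRing O O' := ⟨residue O (α q), ha2⟩
  -- the line
  have hpO' : (p : O') ∈ maximalIdeal O' := natCast_mem_maximalIdeal hpO
  have hpq : p ∣ q - 1 := h.dvd_sub q hqQ
  have hqp : p ≠ q := fun h0 => by
    subst h0
    have h2 := hq.out.two_le
    exact absurd (Nat.le_of_dvd (by omega) hpq) (by omega)
  have hunit : ∀ τ, rb τ = rb φ →
      2 * residue O' (a φ) - residue O' (r' τ).trace ≠ 0 := fun τ hτ h0 => hreg <| by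
    rw [ha2, AddMonoidHom.map_trace (residue O'), hr'res, hτ, ← AddMonoidHom.map_trace,
      ← map_ofNat (ResidueField.map (algebraMap O O')), ← map_mul, ← map_sub] at h0
    have h1 : 2 * residue O (α q) - (rb φ).trace = 0 :=
      (ResidueField.map (algebraMap O O')).injective (by rw [h0, map_zero])
    linear_combination (2 * residue O (α q) - (rb φ).trace) * h1 - 4 * hα
  have hab : IsUnit (a φ - ((r' φ).trace - a φ)) :=
    IsLocalRing.notMem_maximalIdeal.1 fun hmem => hunit φ rfl <| by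
      rw [← map_ofNat (residue O'), ← map_mul, ← map_sub, residue_eq_zero_iff,
        show 2 * a φ - (r' φ).trace = a φ - ((r' φ).trace - a φ) by ring]
      exact hmem
  obtain ⟨L, hL⟩ := exists_twLine r' (isContRep_map_val hrc) hpO' (A := A) (fun σ hσ i j => by
      have h1 := congrFun (congrFun (hr'res σ) i) j
      rw [hunr σ hσ, Matrix.map_apply, Matrix.map_apply] at h1
      rw [← residue_eq_zero_iff, Matrix.sub_apply, map_sub, h1]
      rcases eq_or_ne i j with rfl | hne <;> simp [*])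
    (Fact.out : p.Prime) hq.out hqp hA hpq hφ hab (add_sub_cancel _ _).symm
    (by linear_combination ha1)
  -- the character on the line
  have hLs : r' (φ * s) * L.e = (L.α * L.ξ ⟨s, hs⟩) • L.e := by
    rw [map_mul, mul_assoc, L.inertia ⟨s, hs⟩, mul_smul_comm, L.frob, smul_smul, mul_comm]
  have hc1 := eval_charpoly_of_mul hLs L.trace_e
  have hξ1 : residue O' (L.ξ ⟨s, hs⟩) = 1 := by
    rw [← sub_eq_zero, ← map_one (residue O'), ← map_sub, residue_eq_zero_iff]
    exact L.sub_one_mem _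
  have heq : a (φ * s) = L.α * L.ξ ⟨s, hs⟩ := by
    have hu2 : IsUnit (a (φ * s) + L.α * L.ξ ⟨s, hs⟩ - (r' (φ * s)).trace) :=
      IsLocalRing.notMem_maximalIdeal.1 fun hmem => hunit (φ * s) hsφ <| by
        rw [← residue_eq_zero_iff, map_sub, map_add, map_mul _ L.α, hξ1, mul_one, hb2, ← ha2, hL,
          ← two_mul] at hmem
        exact hmem
    refine sub_eq_zero.1 (hu2.mul_left_eq_zero.1 ?_)
    linear_combination hb1 - hc1
  have hξ : L.ξ ⟨s, hs⟩ = ((θ s)⁻¹ : O'ˣ).1 := by
    have hau : IsUnit (a φ) := IsLocalRing.notMem_maximalIdeal.1 fun hmem => hreg <| by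
      rw [← residue_eq_zero_iff, ha2, map_eq_zero_iff _ (ResidueField.map _).injective] at hmem
      rw [hmem, zero_pow two_ne_zero, mul_zero, sub_zero, zero_add] at hα
      rw [hdetrb, FA.JTorsion.cycP_frobenius p hq.out hqp.symm hA hφ, map_natCast] at hα
      obtain ⟨k, hk⟩ := hpq
      rw [show q = p * k + 1 by have := hq.out.one_le; omega, Nat.cast_add, Nat.cast_mul,
        Nat.cast_one, map_add, map_mul, (residue_eq_zero_iff _).2 hpO, zero_mul, zero_add,
        map_one] at hα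
      exact absurd hα one_ne_zero
    have h1 : a φ * L.ξ ⟨s, hs⟩ = a φ * ((θ s)⁻¹ : O'ˣ).1 := by
      rw [← hL, ← heq, hL]
      simp only [a, map_mul, _root_.mul_inv_rev, Units.val_mul]
      ring
    exact hau.mul_left_cancel h1
  refine ⟨⟨a φ, hamem⟩, ?_, Subtype.ext ?_, ?_⟩
  · exact (ResidueField.map (algebraMap O O')).injective ((map_pointRes _).trans ha2)
  · show a φ * a φ - ((r φ).trace).1 * a φ + ((r φ).det).1 = 0
    rw [← hr't, show ((r φ).det).1 = (r' φ).det from
      RingHom.map_det (pointRing O O').val.toRingHom (r φ)]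
    exact ha1
  · have h2 := L.trace_mul ⟨s, hs⟩
    rw [hL, hξ] at h2
    rw [← hr't φ, ← hr't s, ← map_mul r, ← hr't (φ * s), map_mul r']
    rw [show (r' φ * r' (⟨s, hs⟩ : A.inertiaSubgroupIn ℚ).1).trace = (r' φ * r' s).trace from rfl] at h2
    linear_combination -h2

/-- **The line at a Taylor–Wiles prime.** -/
theorem TWPiece.exists_line (h : TWPiece p rb Q T0 c0 α e)
    (hpO : (p : O) ∈ maximalIdeal O) (hspan : Submodule.span (ResidueField O) (Set.range rb) = ⊤)
    (hdetrb : ∀ σ, (rb σ).det = residue O (ι ((cycP p σ : ℤ_[p]ˣ) : ℤ_[p])))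
    (hz : IsPointClass e f z) (hη : IsNeb f Q Q' η) (hm : PointRep ι f Q' η m)
    {r : GQ →* M2 (pointRing O O')} (hr : mapRep (pointRes O O') r = rb) (hrc : IsContRep r)
    (hrt : ∀ σ, ((r σ).trace).1 = (m σ).trace)
    (hrd : ∀ σ, (r σ).det = algebraMap O _ (ι ((cycP p σ : ℤ_[p]ˣ) : ℤ_[p])))
    {q : ℕ} [hq : Fact q.Prime] (hqQ : q ∈ Q) {A : ValuationSubring Qb} (hA : A.LiesOverPrime q)
    {φ : GQ} (hφ : A.IsFrobeniusAt φ q) {s : GQ} (hs : s ∈ A.inertiaSubgroupIn ℚ)
    (hunr : ∀ σ ∈ A.inertiaSubgroupIn ℚ, rb σ = 1)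
    (hα : residue O (α q) ^ 2 - (rb φ).trace * residue O (α q) + (rb φ).det = 0)
    (hreg : (rb φ).trace ^ 2 ≠ 4 * (rb φ).det) {u : (ZMod M)ˣ}
    (huq : (ZMod.cast (u : ZMod M) : ZMod q) = (cycK q (ZMod q) s : ZMod q))
    (hu' : ∀ q' ∈ Q, q' ≠ q → (ZMod.cast (u : ZMod M) : ZMod q') = 1) :
    ∃ a : pointRing O O', pointRes O O' a = residue O (α q) ∧
      a * a - (r φ).trace * a + (r φ).det = 0 ∧
      (2 * a.1 - ((r φ).trace).1) *
          f (fullD e ((QuotientGroup.mk u ^ halfExp ((ZMod M)ˣ ⧸ H))⁻¹)) =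
        ((r φ * r s).trace).1 - (((r φ).trace).1 - a.1) * ((r s).trace).1 := by
  obtain ⟨a, ha1, ha2, ha3⟩ := h.exists_line_sq hpO hspan hdetrb hz hη.toIsNebSq hm hr hrc hrt hrd
    hqQ hA hφ hs hunr hα hreg
  refine ⟨a, ha1, ha2, ?_⟩
  refine Eq.trans (congrArg (fun x => (2 * a.1 - ((r φ).trace).1) * x) ?_) ha3
  refine (Units.inv_eq_of_mul_eq_one_left ?_).symm
  have hθs : (galChar Q' η s : O') =
      f (fullD e (QuotientGroup.mk u ^ halfExp ((ZMod M)ˣ ⧸ H))) := by
    rw [← hη.prod u]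
    simp only [galChar, MonoidHom.finsetProd_apply, Units.coe_prod]
    refine Finset.prod_congr rfl fun q' hq' => ?_
    by_cases hqq : q' = q
    · subst hqq
      rw [galCharAt, dif_pos hq.out, MonoidHom.comp_apply, MulChar.coe_toUnitHom, huq]
    · rw [hu' q' (hη.subset hq') hqq, map_one,
        FA.Twist.galCharAt_inertia _ hq.out (Ne.symm hqq) hA hs, Units.val_one]
  rw [hθs, ← map_mul, ← map_mul, inv_mul_cancel, map_one, map_one]

end FA.RT
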