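import Fermat.Agent.RT.TWPoint.Point
import Fermat.Agent.RT.FlatPoint
import Fermat.Agent.RT.LiftSetting

/-!
# Points of pieces at levels prime to `p` are flat at `p`

The traces of the lift of a point are the twisted values of the good operators, an eigen system on
`Γ₀(M ∏ q)`, a level prime to `p`.
-/

set_option autoImplicit false
set_option linter.unusedSectionVars false
set_option linter.style.haveILetI false
set_option maxHeartbeats 2000000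
set_option synthInstance.maxHeartbeats 200000

noncomputable section

open IsLocalRing Matrix FA.HeckeH1 FA.Deform
open FA.JTorsion (cycP cycP_frobenius)
open scoped MatrixGroups

namespace FA.RT

local notation "Qb" => AlgebraicClosure ℚ
local notation "GQ" => AlgebraicClosure ℚ ≃ₐ[ℚ] AlgebraicClosure ℚ
local notation "M2" => Matrix (Fin 2) (Fin 2)

variable {O : Type} [CommRing O] [IsDomain O] [IsDiscreteValuationRing O]
  [IsAdicComplete (maximalIdeal O) O] [CharZero O] [Finite (ResidueField O)]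
  {M : ℕ} [NeZero M] {H : Subgroup (ZMod M)ˣ}
  {p : ℕ} [Fact p.Prime] {rb : GQ →* M2 (ResidueField O)} {Q T0 : Finset ℕ} {c0 α : ℕ → O}
  {e : Module.End O (Hom1 (GamH M H) O)}
  {O' : Type} [CommRing O'] [IsDomain O'] [IsDiscreteValuationRing O']
  [IsAdicComplete (maximalIdeal O') O'] [CharZero O'] [Algebra O O']
  [IsLocalHom (algebraMap O O')] [Module.IsTorsionFree O O'] [Module.Finite O O']
  [Module.Free O O']
  {ι : ℤ_[p] →+* O} {f : FullAlg e →ₐ[O] O'} {z : Hom1 (GamH M H) O'} {Q' : Finset ℕ}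
  {η : ∀ q : ℕ, MulChar (ZMod q) O'} {m : GQ →* M2 O'}

/-- **The lift of a point at a level prime to `p` is flat at `p`.** -/
theorem TWPiece.atFlat (h : TWPiece p rb Q T0 c0 α e) (hp2 : p ≠ 2)
    (hpO : (p : O) ∈ maximalIdeal O) (hpM : ¬ p ∣ M)
    (hspan : Submodule.span (ResidueField O) (Set.range rb) = ⊤)
    (hz : IsPointClass e f z) (hη : IsNeb f Q Q' η) (hm : PointRep ι f Q' η m)
    {r : GQ →* M2 (pointRing O O')} (hr : mapRep (pointRes O O') r = rb) (hcont : IsContRep r)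
    (hdet : ∀ σ, (r σ).det = algebraMap O _ (ι ((cycP p σ : ℤ_[p]ˣ) : ℤ_[p])))
    (htr : ∀ σ, ((r σ).trace).1 = (m σ).trace) :
    AtFlat p (pointRing O O') r := by
  classical
  have hp : p.Prime := Fact.out
  let S : Finset ℕ := insert p M.primeFactors
  have hS : ∀ q : ℕ, q.Prime → q ∣ M → q ∈ S := fun q hq hqM =>
    Finset.mem_insert_of_mem (Nat.mem_primeFactors.2 ⟨hq, hqM, NeZero.ne M⟩)
  have hnotS : ∀ ℓ : ℕ, ℓ.Prime → ℓ ∉ S → ¬ ℓ ∣ M ∧ ℓ ≠ p := fun ℓ hℓ hℓS =>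
    ⟨fun hd => hℓS (hS ℓ hℓ hd), fun e => hℓS (Finset.mem_insert.2 (Or.inl e))⟩
  have hQ : ∀ q ∈ Q', q.Prime ∧ q ∣ M ∧ ¬ q * q ∣ M ∧ η q ^ 2 ≠ 1 := fun q hq =>
    ⟨(h.exact q (hη.subset hq)).1, (h.exact q (hη.subset hq)).2.1,
      (h.exact q (hη.subset hq)).2.2, hη.sq_ne q hq⟩
  let c : ℕ → O' := fun ℓ => if hℓ : ℓ.Prime then f (fullT e ⟨ℓ, hℓ⟩) else 0
  obtain ⟨z', hz'p, hz'0, hz'e⟩ := FA.Twist.exists_twisted η S Q' M H hS hQ z (hz.mem_Par h.par)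
    (fun h0 => hz.1 (by rw [h0]; exact zero_mem _))
    (fun g => by
      rw [← diaHom_mk, hz.dia_act, ← fullD_apply]
      exact congrArg (· • z) (hη.prod_sq (ulHom M g)).symm) c
    (fun ℓ hℓ _ => by
      rw [show c ℓ = f (fullT e ⟨ℓ, hℓ.out⟩) from dif_pos hℓ.out]
      exact hz.Tc_act ⟨ℓ, hℓ.out⟩)
  haveI : NeZero (M * ∏ q ∈ Q', q) :=
    ⟨mul_ne_zero (NeZero.ne M) (Finset.prod_ne_zero_iff.2 fun q hq => (hQ q hq).1.ne_zero)⟩
  have hdvd : ∀ ℓ : ℕ, ℓ.Prime → ℓ ∣ M * ∏ q ∈ Q', q → ℓ ∣ M := fun ℓ hℓ h => by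
    rcases (Nat.Prime.dvd_mul hℓ).1 h with h | h
    · exact h
    · obtain ⟨q, hq, hd⟩ := (Prime.dvd_finsetProd_iff hℓ.prime _).1 h
      rw [(Nat.prime_dvd_prime_iff_eq hℓ (hQ q hq).1).1 hd]
      exact (hQ q hq).2.1
  have hS' : ∀ q : ℕ, q.Prime → q ∣ M * ∏ q ∈ Q', q → q ∈ S :=
    fun q hq h => hS q hq (hdvd q hq h)
  obtain ⟨χ, hχ⟩ := FA.Twist.exists_point (M * ∏ q ∈ Q', q) S hS' hz'p hz'0
    (fun ℓ => (∏ q ∈ Q', (η q)⁻¹ (ℓ : ZMod q)) * c ℓ) hz'e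
  have hfr : ∀ (ℓ : ℕ) (hℓ : ℓ.Prime) (hℓN : ¬ ℓ ∣ M * ∏ q ∈ Q', q)
      (hℓS : ℓ ∉ (↑S : Set ℕ)), ∀ A : ValuationSubring Qb, A.LiesOverPrime ℓ →
      ∀ τ : GQ, A.IsFrobeniusAt τ ℓ →
        ((r τ).trace).1 = χ (CuspForm.heckeAlgebra.T (k := 2) hℓ hℓN hℓS) := by
    intro ℓ hℓ hℓN hℓS A hA τ hτ
    obtain ⟨hℓM, hℓp⟩ := hnotS ℓ hℓ (by simpa using hℓS)
    rw [htr, hχ, (hm.frob ⟨ℓ, hℓ⟩ hℓM hℓp A hA τ hτ).1]
    simp only [c, dif_pos hℓ]
  have hmem : ∀ t, χ t ∈ pointRing O O' := by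
    rintro ⟨t, ht⟩
    induction ht using Algebra.adjoin_induction with
    | mem x hx =>
      rcases hx with ⟨ℓ, hℓ, hℓN, hℓS, rfl⟩ | ⟨q, hqM, hq, hqS, rfl⟩
      · obtain ⟨A, hA⟩ := exists_liesOverPrime hℓ
        obtain ⟨τ, hτ⟩ := exists_isFrobeniusAt hℓ hA
        have h1 := ((r τ).trace).2
        rw [hfr ℓ hℓ hℓN hℓS A hA τ hτ] at h1
        exact h1
      · exact absurd (hS' q hq hqM) (by simpa using hqS)
    | algebraMap n =>
      have e : χ ⟨algebraMap ℤ _ n, Subalgebra.algebraMap_mem _ n⟩ = (n : O') := map_intCast χ n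
      rw [e]
      exact intCast_mem _ n
    | add x y hx hy ihx ihy => exact (map_add χ ⟨x, hx⟩ ⟨y, hy⟩).symm ▸ add_mem ihx ihy
    | mul x y hx hy ihx ihy => exact (map_mul χ ⟨x, hx⟩ ⟨y, hy⟩).symm ▸ mul_mem ihx ihy
  have hpB : (p : pointRing O O') ∈ maximalIdeal (pointRing O O') := by
    refine (IsLocalRing.mem_maximalIdeal _).mpr fun hu => not_isUnit_zero (M₀ := ResidueField O) ?_
    rw [← (residue_eq_zero_iff _).mpr hpO, map_natCast, ← map_natCast (pointRes O O')]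
    exact hu.map _
  refine ⟨hcont, FA.FlatModel.isFlatAt_of_hecke (N := M * ∏ q ∈ Q', q) (S := S) hp hp2
    (fun hd => hpM (hdvd p hp hd)) hS' hpB
    (FA.FlatModel.natCast_mem_nonZeroDivisors (O := O) hp)
    (FA.FlatModel.finite_quotient_prime_pow (O := O) hp) (χ.codRestrict (pointRing O O') hmem)
    (ofMatrix r hcont) (Pi.basisFun _ (Fin 2))
    (by rw [matrixOf_ofMatrix]
        exact span_eq_top_of_lift (pointRes O O') pointRes_algebraMap hspan hr) ∅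
    fun ℓ hℓ hℓN hℓS _ A hA τ hτ => ?_⟩
  rw [matrixOf_ofMatrix]
  refine ⟨Subtype.ext (hfr ℓ hℓ hℓN hℓS A hA τ hτ), ?_⟩
  rw [hdet, cycP_frobenius p hℓ (hnotS ℓ hℓ (by simpa using hℓS)).2 hA hτ, map_natCast, map_natCast]

end FA.RT

end
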