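import Fermat.Agent.Twist.Point
import Fermat.Agent.ModField.Semistable.NoCoincide

/-!
# Eigenclasses of good operators and of one `U_q` give points of the full Hecke algebra

A class on `Γ₀(N)` with eigenvalues for `T_ℓ`, `ℓ ∉ S`, and for the operator of a prime `q ∣ N`
gives a character of the full Hecke algebra of cusp forms to an algebraically closed field with
these values.
-/

set_option autoImplicit false
set_option linter.unusedSectionVars false
set_option maxHeartbeats 800000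

noncomputable section

namespace FA.Twist

open FA.HeckeH1 CongruenceSubgroup
open FA.JTorsion (FormPair heckeForm)
open FA.ModField (HFull exists_extend_closed)
open scoped MatrixGroups

section Relation

variable (N : ℕ) [NeZero N] {A : Type} [CommRing A]

/-- An element of the Hecke algebra of forms acts as `X` on integral classes and as `Y` on classes
with values in `A`, and `z` is an eigenclass of `Y`. -/
def fullRel (z : Hom1 (GamH N (⊤ : Subgroup (ZMod N)ˣ)) A) : Set (HFull N ×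
    Module.End ℤ (Hom1 (GamH N (⊤ : Subgroup (ZMod N)ˣ)) ℤ) ×
    Module.End A (Hom1 (GamH N (⊤ : Subgroup (ZMod N)ˣ)) A)) :=
  {w | (∀ (x : Hom1 (GamH N (⊤ : Subgroup (ZMod N)ˣ)) ℤ) (p : FormPair N),
      perP N ⊤ p = (Int.castAddHom ℂ).comp x →
      perP N ⊤ ((w.1 : Module.End ℂ (CuspForm (Gamma0 N) 2)) p.1,
        (w.1 : Module.End ℂ (CuspForm (Gamma0 N) 2)) p.2) = (Int.castAddHom ℂ).comp (w.2.1 x)) ∧
    (∀ x, w.2.2 ((Int.castAddHom A).comp x) = (Int.castAddHom A).comp (w.2.1 x)) ∧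
    ∃ a : A, w.2.2 z = a • z}

theorem fullRel_one (z : Hom1 (GamH N (⊤ : Subgroup (ZMod N)ˣ)) A) : 1 ∈ fullRel N z :=
  ⟨fun _ _ h => h, fun _ => rfl, 1, (one_smul A z).symm⟩

theorem fullRel_mul {z : Hom1 (GamH N (⊤ : Subgroup (ZMod N)ˣ)) A} {v w}
    (hv : v ∈ fullRel N z) (hw : w ∈ fullRel N z) : v * w ∈ fullRel N z := by
  obtain ⟨h1, h2, a, ha⟩ := hv
  obtain ⟨h1', h2', b, hb⟩ := hw
  refine ⟨fun x p hxp => h1 _ _ (h1' x p hxp), fun x => ?_, b * a, ?_⟩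
  · show v.2.2 (w.2.2 _) = _
    rw [h2', h2]
    rfl
  · show v.2.2 (w.2.2 z) = _
    rw [hb, map_smul, ha, smul_smul]

theorem fullRel_add {z : Hom1 (GamH N (⊤ : Subgroup (ZMod N)ˣ)) A} {v w}
    (hv : v ∈ fullRel N z) (hw : w ∈ fullRel N z) : v + w ∈ fullRel N z := by
  obtain ⟨h1, h2, a, ha⟩ := hv
  obtain ⟨h1', h2', b, hb⟩ := hw
  refine ⟨fun x p hxp => ?_, fun x => ?_, a + b, ?_⟩
  · refine Eq.trans ?_ ((congrArg₂ (· + ·) (h1 x p hxp) (h1' x p hxp)).trans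
      (AddMonoidHom.comp_add _ _ _).symm)
    exact map_add (perP N ⊤)
      ((v.1 : Module.End ℂ (CuspForm (Gamma0 N) 2)) p.1,
        (v.1 : Module.End ℂ (CuspForm (Gamma0 N) 2)) p.2)
      ((w.1 : Module.End ℂ (CuspForm (Gamma0 N) 2)) p.1,
        (w.1 : Module.End ℂ (CuspForm (Gamma0 N) 2)) p.2)
  · show v.2.2 _ + w.2.2 _ = _
    rw [h2, h2']
    exact (AddMonoidHom.comp_add _ _ _).symm
  · show v.2.2 z + w.2.2 z = _
    rw [ha, hb, add_smul]

theorem fullRel_zero (z : Hom1 (GamH N (⊤ : Subgroup (ZMod N)ˣ)) A) : 0 ∈ fullRel N z :=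
  ⟨fun x _ _ => (map_zero (perP N ⊤)).trans (AddMonoidHom.comp_zero _).symm,
    fun _ => (AddMonoidHom.comp_zero _).symm, 0, (zero_smul A z).symm⟩

theorem fullRel_neg {z : Hom1 (GamH N (⊤ : Subgroup (ZMod N)ˣ)) A} {v}
    (hv : v ∈ fullRel N z) : -v ∈ fullRel N z := by
  obtain ⟨h1, h2, a, ha⟩ := hv
  refine ⟨fun x p hxp => ?_, fun x => ?_, -a, ?_⟩
  · refine Eq.trans ?_ ((congrArg (- ·) (h1 x p hxp)).trans ?_)
    · exact map_neg (perP N ⊤)
        ((v.1 : Module.End ℂ (CuspForm (Gamma0 N) 2)) p.1,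
          (v.1 : Module.End ℂ (CuspForm (Gamma0 N) 2)) p.2)
    · exact (AddMonoidHom.comp_neg _ _).symm
  · show -(v.2.2 _) = _
    rw [h2]
    exact (AddMonoidHom.comp_neg _ _).symm
  · show -(v.2.2 z) = _
    rw [ha, neg_smul]

/-- The triples acting compatibly. -/
def fullRelRing (z : Hom1 (GamH N (⊤ : Subgroup (ZMod N)ˣ)) A) : Subring (HFull N ×
    Module.End ℤ (Hom1 (GamH N (⊤ : Subgroup (ZMod N)ˣ)) ℤ) ×
    Module.End A (Hom1 (GamH N (⊤ : Subgroup (ZMod N)ˣ)) A)) where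
  carrier := fullRel N z
  one_mem' := fullRel_one N z
  mul_mem' := fullRel_mul N
  add_mem' := fullRel_add N
  zero_mem' := fullRel_zero N z
  neg_mem' := fullRel_neg N

variable (A) in
/-- The Hecke correspondence as an endomorphism over the coefficients. -/
def tcLin (ℓ : ℕ) [Fact ℓ.Prime] :
    Module.End A (Hom1 (GamH N (⊤ : Subgroup (ZMod N)ˣ)) A) where
  toFun z := (Tc N ⊤ ℓ).act z
  map_add' := map_add (Tc N ⊤ ℓ).act
  map_smul' r x := Corr.act_smul (Tc N ⊤ ℓ) r x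

/-- An element whose action on forms is that of the correspondence is in the relation. -/
theorem tc_mem_fullRel {z : Hom1 (GamH N (⊤ : Subgroup (ZMod N)ˣ)) A} {ℓ : ℕ} [hℓ : Fact ℓ.Prime]
    [NeZero ℓ] {t : HFull N}
    (ht : (t : Module.End ℂ (CuspForm (Gamma0 N) 2)) = heckeForm N ℓ hℓ.out) {a : A}
    (hz : (Tc N ⊤ ℓ).act z = a • z) :
    ((t, ((Tc N ⊤ ℓ).act (A := ℤ)).toIntLinearMap, tcLin N A ℓ) : HFull N ×
      Module.End ℤ (Hom1 (GamH N (⊤ : Subgroup (ZMod N)ˣ)) ℤ) ×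
      Module.End A (Hom1 (GamH N (⊤ : Subgroup (ZMod N)ˣ)) A)) ∈ fullRel N z := by
  refine ⟨fun x p hxp => ?_, fun x => Corr.act_comp_hom (Tc N ⊤ ℓ) (Int.castAddHom A) x, a, hz⟩
  show perP N ⊤ ((t : Module.End ℂ _) p.1, (t : Module.End ℂ _) p.2) = _
  rw [ht, ← perP_Tc (fun h => coprime_mem_top hℓ.out h) p, hxp]
  exact Corr.act_comp_hom _ _ _

theorem fullRel_fst_eq_zero {z : Hom1 (GamH N (⊤ : Subgroup (ZMod N)ˣ)) A} [IsAddTorsionFree A]
    (hz : z ∈ Par (GamH N ⊤) A) {w} (hw : w ∈ fullRel N z) (h0 : w.1 = 0) : w.2.2 z = 0 := by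
  obtain ⟨n, co, zk, hsum⟩ := exists_par_coord z hz
  rw [hsum, map_sum]
  refine Finset.sum_eq_zero fun k _ => ?_
  rw [map_smul, hw.2.1, smul_eq_zero_of_right]
  obtain ⟨p, hp⟩ := exists_perP_eq (M := N) (H := ⊤) rfl
    (z := (Int.castAddHom ℂ).comp (zk k).1) (Par_comp _ (zk k).2)
  have h1 := hw.1 _ p hp
  rw [h0, show perP N ⊤ (((0 : HFull N) : Module.End ℂ (CuspForm (Gamma0 N) 2)) p.1,
    ((0 : HFull N) : Module.End ℂ (CuspForm (Gamma0 N) 2)) p.2) = 0 from map_zero (perP N ⊤)] at h1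
  have h2 : w.2.1 (zk k).1 = 0 := AddMonoidHom.ext fun γ =>
    Int.cast_injective (α := ℂ) ((DFunLike.congr_fun h1 γ).symm.trans Int.cast_zero.symm)
  rw [h2, AddMonoidHom.comp_zero]

end Relation

/-- **An eigenclass of good operators and of `U_q` gives a point of the full algebra.** -/
theorem exists_point_full {A L : Type} [CommRing A] [IsDomain A] [CharZero A] [Field L]
    [IsAlgClosed L] (j : A →+* L) (N : ℕ) [NeZero N] (S : Finset ℕ)
    (hS : ∀ r : ℕ, r.Prime → r ∣ N → r ∈ S) {q : ℕ} [hq : Fact q.Prime] (hqN : q ∣ N)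
    {z : Hom1 (GamH N (⊤ : Subgroup (ZMod N)ˣ)) A} (hz : z ∈ Par (GamH N ⊤) A) (hz0 : z ≠ 0)
    (c : ℕ → A) (heig : ∀ ℓ : ℕ, [Fact ℓ.Prime] → ℓ ∉ S → (Tc N ⊤ ℓ).act z = c ℓ • z)
    (u : A) (hu : (Tc N ⊤ q).act z = u • z) :
    ∃ ψ : HFull N →+* L,
      (∀ (ℓ : ℕ) (hℓ : ℓ.Prime) (hℓN : ¬ ℓ ∣ N), ℓ ∉ S →
        ψ (CuspForm.heckeAlgebra.T (k := 2) hℓ hℓN (Set.notMem_empty _)) = j (c ℓ)) ∧
      ψ (CuspForm.heckeAlgebra.U (k := 2) hq.out hqN (Set.notMem_empty _)) = j u := by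
  classical
  let D := fullRelRing N z
  let D₀ : Subring (HFull N) := D.map (RingHom.fst _ _)
  choose g hg hgfst using fun t : D₀ => Subring.mem_map.1 t.2
  choose a ha using fun t : D₀ => (hg t).2.2
  have huniq : ∀ (t : D₀) (w) (b : A), w ∈ D → w.1 = (t : HFull N) → w.2.2 z = b • z → a t = b :=
    fun t w b hw hwt hb => by
    have h1 := fullRel_fst_eq_zero N hz (sub_mem (hg t) hw : g t - w ∈ D)
      ((congrArg₂ (· - ·) (hgfst t) hwt).trans (sub_self _))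
    have h2 : (a t - b) • z = 0 := by
      rw [sub_smul, ← ha, ← hb]
      exact h1
    by_contra hne
    refine hz0 (AddMonoidHom.ext fun γ => ?_)
    exact (mul_eq_zero.1 (DFunLike.congr_fun h2 γ)).resolve_left (sub_ne_zero.2 hne)
  let φ : D₀ →+* A :=
    { toFun := a
      map_one' := huniq 1 1 1 D.one_mem rfl (one_smul A z).symm
      map_mul' := fun s t => huniq (s * t) (g s * g t) (a s * a t) (D.mul_mem (hg s) (hg t))
        (congrArg₂ (· * ·) (hgfst s) (hgfst t)) (by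
          show (g s).2.2 ((g t).2.2 z) = _
          rw [ha, map_smul, ha, smul_smul, mul_comm])
      map_zero' := huniq 0 0 0 D.zero_mem rfl (zero_smul A z).symm
      map_add' := fun s t => huniq (s + t) (g s + g t) (a s + a t) (D.add_mem (hg s) (hg t))
        (congrArg₂ (· + ·) (hgfst s) (hgfst t)) (by
          show (g s).2.2 z + (g t).2.2 z = _
          rw [ha, ha, add_smul]) }
  haveI : Module.Finite ℤ (HFull N) := FA.Period.moduleFinite_heckeAlgebra N 2 _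
  have hint : D₀.subtype.IsIntegral := fun x => by
    obtain ⟨P, hP, hPx⟩ := IsIntegral.of_finite ℤ x
    refine ⟨P.map (Int.castRingHom D₀), hP.map _, ?_⟩
    rw [Polynomial.eval₂_map, RingHom.ext_int (D₀.subtype.comp (Int.castRingHom D₀))
      (algebraMap ℤ (HFull N))]
    exact hPx
  obtain ⟨ψ, hψ⟩ := exists_extend_closed D₀.subtype Subtype.val_injective hint (j.comp φ)
  have hval : ∀ (ℓ : ℕ) [Fact ℓ.Prime] [NeZero ℓ] (t : HFull N) (b : A),
      (t : Module.End ℂ (CuspForm (Gamma0 N) 2)) = heckeForm N ℓ (Fact.out : ℓ.Prime) →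
      (Tc N ⊤ ℓ).act z = b • z → ψ t = j b := fun ℓ _ _ t b ht hb => by
    have hmem := tc_mem_fullRel N ht hb
    have htD : t ∈ D₀ := Subring.mem_map.2 ⟨_, hmem, rfl⟩
    exact (RingHom.congr_fun hψ ⟨t, htD⟩).trans
      (congrArg j (huniq ⟨t, htD⟩ _ b hmem rfl hb))
  refine ⟨ψ, fun ℓ hℓ hℓN hℓS => ?_, ?_⟩
  · haveI : Fact ℓ.Prime := ⟨hℓ⟩
    haveI : NeZero ℓ := ⟨hℓ.ne_zero⟩
    refine hval ℓ _ _ ?_ (heig ℓ hℓS)
    rw [CuspForm.heckeAlgebra.coe_T, heckeForm, dif_neg hℓN]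
  · haveI : NeZero q := ⟨hq.out.ne_zero⟩
    refine hval q _ _ ?_ hu
    rw [CuspForm.heckeAlgebra.coe_U, heckeForm, dif_pos hqN]

end FA.Twist

end
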