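import Fermat.Agent.RT.OrdinaryPoint
import Fermat.Agent.ModField.Semistable.HasFibre

/-!
# Lifts with traces of an eigen system new at `p` are strictly ordinary at `p`

The coefficient ring is a local domain finite free over a discrete valuation ring, and the eigen
system of level `Mp` takes its values there.
-/

set_option autoImplicit false
set_option linter.unusedSectionVars false
set_option linter.style.haveILetI false
set_option synthInstance.maxHeartbeats 200000
set_option maxHeartbeats 800000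

noncomputable section

open IsLocalRing Matrix FA.Deform FA.LocalDef

namespace FA.RT

local notation "Qb" => AlgebraicClosure ℚ
local notation "GQ" => AlgebraicClosure ℚ ≃ₐ[ℚ] AlgebraicClosure ℚ

variable {O : Type} [CommRing O] [IsDomain O] [IsDiscreteValuationRing O]
  {B : Type} [CommRing B] [IsDomain B] [Algebra O B] [Module.Finite O B]

/-- A power of a non unit of a discrete valuation ring lies in every nonzero principal ideal of a
finite domain over it. -/
theorem exists_pow_mem_span_of_finite {π : O} (hπ : π ∈ maximalIdeal O) {x : B} (hx : x ≠ 0) :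
    ∃ c, (algebraMap O B π) ^ c ∈ Ideal.span {x} := by
  have hne : (Ideal.span {x}).comap (algebraMap O B) ≠ ⊥ :=
    Ideal.comap_ne_bot_of_integral_mem hx (Ideal.mem_span_singleton_self x)
      (Algebra.IsIntegral.isIntegral x)
  obtain ⟨a, ha, ha0⟩ := Submodule.exists_mem_ne_zero_of_ne_bot hne
  obtain ⟨ϖ, hϖ⟩ := IsDiscreteValuationRing.exists_irreducible O
  obtain ⟨k, u, hu⟩ := IsDiscreteValuationRing.eq_unit_mul_pow_irreducible ha0 hϖ
  obtain ⟨d, hd⟩ : ϖ ∣ π := by
    rw [← Ideal.mem_span_singleton, ← hϖ.maximalIdeal_eq]; exact hπ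
  refine ⟨k, ?_⟩
  have e : π ^ k = (d ^ k * ↑u⁻¹) * a := by
    rw [hu, hd, mul_pow]
    calc ϖ ^ k * d ^ k = (↑u⁻¹ * ↑u) * (ϖ ^ k * d ^ k) := by rw [Units.inv_mul, one_mul]
      _ = d ^ k * ↑u⁻¹ * (↑u * ϖ ^ k) := by ring
  rw [← map_pow, e, map_mul]
  exact Ideal.mul_mem_left _ _ ha

variable [CharZero O] [Finite (ResidueField O)] [IsLocalRing B] [Module.Free O B]

open FA.ModField FA.JTorsion in
/-- **Lifts of eigen systems new at `p` of level `Mp` are strictly ordinary at `p`.** -/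
theorem isStrictOrdinaryAt_of_hecke {p M : ℕ} [NeZero M] [NeZero (M * p)] (hp : p.Prime) (hp2 : p ≠ 2)
    (hpO : (p : O) ∈ maximalIdeal O) (hpM : ¬ p ∣ M) {S : Finset ℕ}
    (hNS : ∀ q : ℕ, q.Prime → q ∣ M * p → q ∈ S)
    (ε : B →+* ResidueField O) (hε : ∀ c, ε (algebraMap O B c) = residue O c)
    {rb : GQ →* Matrix (Fin 2) (Fin 2) (ResidueField O)}
    (hspan : Submodule.span (ResidueField O) (Set.range rb) = ⊤)
    {r : GQ →* Matrix (Fin 2) (Fin 2) B} (hcont : IsContRep r) (hr : mapRep ε r = rb)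
    (χ : CuspForm.heckeAlgebra (M * p) 2 (↑S : Set ℕ) →+* B) (bad : Finset ℕ)
    (hfrob : ∀ (ℓ : ℕ) (hℓ : ℓ.Prime) (hℓN : ¬ ℓ ∣ M * p) (hℓS : ℓ ∉ (↑S : Set ℕ)), ℓ ∉ bad →
      ∀ P : ValuationSubring Qb, P.LiesOverPrime ℓ → ∀ τ : GQ, P.IsFrobeniusAt τ ℓ →
        (r τ).trace = χ (CuspForm.heckeAlgebra.T (k := 2) hℓ hℓN hℓS) ∧ (r τ).det = (ℓ : B))
    (hord : ∀ A : ValuationSubring Qb, A.LiesOverPrime p → IsOrdType A rb)
    (hnew : ∀ χ' : CuspForm.heckeAlgebra M 2 (↑S : Set ℕ) →+* B,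
      ∃ (ℓ : ℕ) (hℓ : ℓ.Prime) (hℓN : ¬ ℓ ∣ M * p) (hℓS : ℓ ∉ (↑S : Set ℕ)),
        χ' (CuspForm.heckeAlgebra.T (k := 2) hℓ (fun h => hℓN (h.mul_right p)) hℓS) ≠
          χ (CuspForm.heckeAlgebra.T (k := 2) hℓ hℓN hℓS)) :
    (ofMatrix r hcont).IsStrictOrdinaryAt p := by
  classical
  obtain ⟨alg⟩ := FA.JTorsion.exists_algebra_qbar
  letI := alg
  haveI : Fact p.Prime := ⟨hp⟩
  obtain ⟨t, ht, ht2, h, hh, hχ⟩ := exists_killer_of_not_lower (dvd_mul_right M p) hNS χ hnew
  have hεs : Function.Surjective ε := fun y => by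
    obtain ⟨c, rfl⟩ := residue_surjective y
    exact ⟨algebraMap O B c, hε c⟩
  have hpB : (p : B) ∈ maximalIdeal B := by
    refine (IsLocalRing.mem_maximalIdeal _).mpr fun hu => not_isUnit_zero (M₀ := ResidueField O) ?_
    rw [← (residue_eq_zero_iff _).mpr hpO, map_natCast, ← map_natCast ε]
    exact hu.map ε
  haveI : IsNoetherianRing B := isNoetherian_of_tower O inferInstance
  have hfin := fun n => FA.FlatModel.finite_quotient_prime_pow (O := O) (R := B) hp n
  haveI : Finite (ResidueField B) := FA.FlatModel.finite_residueField hp hpB hfin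
  obtain ⟨c, hc⟩ := exists_pow_mem_span_of_finite (B := B) hpO hχ
  rw [map_natCast] at hc
  have hspanB : Submodule.span B (Set.range r) = ⊤ := span_eq_top_of_lift ε hε hspan hr
  have hres : (GaloisRepAdic.ofResidualGaloisRep (ofMatrix r hcont).residual).IsOrdinaryAt p :=
    residual_ordinary_of_ordType ε hεs (ofMatrix r hcont) (Pi.basisFun B (Fin 2))
      (by rw [matrixOf_ofMatrix, hr]) hord
  have hdet : ∀ ℓ : ℕ, ℓ.Prime → ℓ ∉ bad ∪ S ∪ (M * p).primeFactors →
      ∀ P : ValuationSubring Qb, P.LiesOverPrime ℓ → ∀ τ : GQ, P.IsFrobeniusAt τ ℓ →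
        LinearMap.det ((ofMatrix r hcont).ρ τ) = (ℓ : B) := fun ℓ hℓ hℓb P hP τ hτ => by
    simp only [Finset.mem_union, Nat.mem_primeFactors, not_or] at hℓb
    have hℓN : ¬ ℓ ∣ M * p := fun h => hℓb.2 ⟨hℓ, h, NeZero.ne _⟩
    refine (LinearMap.det_toMatrix (Pi.basisFun B (Fin 2)) ((ofMatrix r hcont).ρ τ)).symm.trans ?_
    show (matrixOf (ofMatrix r hcont) (Pi.basisFun B (Fin 2)) τ).det = _
    rw [matrixOf_ofMatrix]
    exact (hfrob ℓ hℓ hℓN (by simpa using hℓb.1.2) hℓb.1.1 P hP τ hτ).2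
  refine isStrictOrdinaryAt_of_part (ofMatrix r hcont) hp2 hpB hres _ hdet
    (detIsCyclotomic_of_frobenius (ofMatrix r hcont) hpB
      (fun n => by rw [Nat.cast_pow]; exact hfin n) _ hdet) fun A hA t' inst => ?_
  haveI : Finite (B ⧸ maximalIdeal B ^ t') := by
    haveI : Finite (B ⧸ maximalIdeal B) := ‹Finite (ResidueField B)›
    exact Ideal.finite_quotient_pow (IsNoetherian.noetherian _) t'
  refine FA.FlatModel.transfer_of_hecke_image hp2 hNS hpB
    (FA.FlatModel.natCast_mem_nonZeroDivisors (O := O) hp) hfin χ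
    (ofMatrix r hcont) (Pi.basisFun B (Fin 2)) (by rw [matrixOf_ofMatrix]; exact hspanB) bad
    (fun ℓ hℓ hℓN hℓS hbad P hP τ hτ => by
      rw [matrixOf_ofMatrix]; exact hfrob ℓ hℓ hℓN hℓS hbad P hP τ hτ)
    (isTransfer_hasPart strictSet_subset) h hc (fun n _ _ => ?_) _
  haveI : Algebra.IsAlgebraic ℚ Qb := AlgebraicClosure.isAlgebraic ℚ
  haveI : IsAlgClosed (ResidueField A) := FA.Frob.residueField_isAlgClosed A
  haveI : CharP (ResidueField A) p := residueAt_charP hA
  haveI : NeZero p := ⟨hp.ne_zero⟩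
  obtain ⟨D⟩ := FA.ModField.hasFibreData M p hpM A residueAt_eq_zero
    (fun x hx => FA.ModField.exists_pow_lt_valuation hp hA x hx) hA
  exact D.hasStrictPart (hNS p hp (dvd_mul_left p M)) ht ht2 hh hA n

end FA.RT

end
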