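import Fermat.Agent.RT.TWPoint.AtFlat
import Fermat.Agent.RT.TWPoint.StrictOfHecke
import Fermat.Agent.RT.TWPoint.PointFull

/-!
# Points of pieces at levels exactly divisible by `p` are strictly ordinary at `p`

The traces of the lift of a point are an eigen system on `Γ₀(M ∏ q)`, a level exactly divisible by
`p`. If the point has no flat lift, or if it has a class with `U_p² = η(p)²`, this eigen system
does not occur at the level without `p`, and the lift is strictly ordinary at `p`.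
-/

set_option autoImplicit false
set_option linter.unusedSectionVars false
set_option linter.style.haveILetI false
set_option maxHeartbeats 2000000
set_option synthInstance.maxHeartbeats 200000

noncomputable section

open IsLocalRing Matrix FA.HeckeH1 FA.Deform
open FA.JTorsion (cycP cycP_frobenius)
open FA.LocalDef (IsOrdType)
open scoped MatrixGroups

namespace FA.RT

local notation "Qb" => AlgebraicClosure ℚ
local notation "GQ" => AlgebraicClosure ℚ ≃ₐ[ℚ] AlgebraicClosure ℚ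
local notation "M2" => Matrix (Fin 2) (Fin 2)

variable {O : Type} [CommRing O] [IsDomain O] [IsDiscreteValuationRing O]
  [IsAdicComplete (maximalIdeal O) O] [CharZero O] [Finite (ResidueField O)]
  {M : ℕ} [NeZero M] {H : Subgroup (ZMod M)ˣ}
  {p : ℕ} [Fact p.Prime] {rb : GQ →* M2 (ResidueField O)} {Q T0 : Finset ℕ} {c0 α : ℕ → O}
  {e : Module.End O (Hom1 (GamH M H) O)}
  {O' : Type} [CommRing O'] [IsDomain O'] [IsDiscreteValuationRing O']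
  [IsAdicComplete (maximalIdeal O') O'] [CharZero O'] [Algebra O O']
  [IsLocalHom (algebraMap O O')] [Module.IsTorsionFree O O'] [Module.Finite O O']
  [Module.Free O O']
  {ι : ℤ_[p] →+* O} {f : FullAlg e →ₐ[O] O'} {z : Hom1 (GamH M H) O'} {Q' : Finset ℕ}
  {η : ∀ q : ℕ, MulChar (ZMod q) O'} {m : GQ →* M2 O'}

theorem TWPiece.neb_cond (h : TWPiece p rb Q T0 c0 α e) (hη : IsNeb f Q Q' η) (q : ℕ)
    (hq : q ∈ Q') : q.Prime ∧ q ∣ M ∧ ¬ q * q ∣ M ∧ η q ^ 2 ≠ 1 :=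
  ⟨(h.exact q (hη.subset hq)).1, (h.exact q (hη.subset hq)).2.1,
    (h.exact q (hη.subset hq)).2.2, hη.sq_ne q hq⟩

theorem TWPiece.ne_p (h : TWPiece p rb Q T0 c0 α e) {q : ℕ} (hq : q ∈ Q) : q ≠ p := fun e' => by
  have h1 := (h.exact q hq).1
  have h2 := Nat.le_of_dvd (by have := h1.two_le; omega) (h.dvd_sub q hq)
  subst e'
  have := h1.two_le
  omega

theorem TWPiece.dvd_twistLevel (h : TWPiece p rb Q T0 c0 α e) (hη : IsNeb f Q Q' η) {ℓ : ℕ}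
    (hℓ : ℓ.Prime) (hd : ℓ ∣ M * ∏ q ∈ Q', q) : ℓ ∣ M := by
  rcases (Nat.Prime.dvd_mul hℓ).1 hd with h1 | h1
  · exact h1
  · obtain ⟨q, hq, hd⟩ := (Prime.dvd_finsetProd_iff hℓ.prime _).1 h1
    rw [(Nat.prime_dvd_prime_iff_eq hℓ (h.neb_cond hη q hq).1).1 hd]
    exact (h.neb_cond hη q hq).2.1

theorem TWPiece.twistLevel_ne_zero (h : TWPiece p rb Q T0 c0 α e) (hη : IsNeb f Q Q' η) :
    M * ∏ q ∈ Q', q ≠ 0 :=
  mul_ne_zero (NeZero.ne M) (Finset.prod_ne_zero_iff.2 fun q hq => (h.neb_cond hη q hq).1.ne_zero)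

/-- **The twisted level without `p`.** -/
theorem TWPiece.exists_twistLevel (h : TWPiece p rb Q T0 c0 α e) (hη : IsNeb f Q Q' η)
    (hpM : p ∣ M) (hppM : ¬ p * p ∣ M) :
    ∃ N₀ : ℕ, N₀ ≠ 0 ∧ ¬ p ∣ N₀ ∧ M * ∏ q ∈ Q', q = N₀ * p := by
  have hp : p.Prime := Fact.out
  obtain ⟨M₀, rfl⟩ := hpM
  refine ⟨M₀ * ∏ q ∈ Q', q, ?_, fun hd => ?_, by ring⟩
  · intro h0
    exact h.twistLevel_ne_zero hη (by rw [mul_assoc, h0, mul_zero])
  · rcases (Nat.Prime.dvd_mul hp).1 hd with h1 | h1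
    · exact hppM (mul_dvd_mul_left p h1)
    · obtain ⟨q, hq, hd⟩ := (Prime.dvd_finsetProd_iff hp.prime _).1 h1
      exact h.ne_p (hη.subset hq) ((Nat.prime_dvd_prime_iff_eq hp (h.neb_cond hη q hq).1).1 hd).symm

theorem TWPiece.dia_eq (h : TWPiece p rb Q T0 c0 α e) (hη : IsNeb f Q Q' η)
    {w : Hom1 (GamH M H) O'}
    (hw : ∀ x : (ZMod M)ˣ ⧸ H, diaHom M H O' x w = f (fullD e x) • w) (g : GamH M ⊤) :
    dia M H O' g w = (∏ q ∈ Q', η q (ZMod.cast (ulHom M g : ZMod M)) ^ 2) • w := by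
  rw [← diaHom_mk, hw]
  exact congrArg (· • w) (hη.prod_sq (ulHom M g)).symm

/-- **The twisted eigen system of a point, with its values in the point ring.** -/
theorem TWPiece.exists_twisted_char (h : TWPiece p rb Q T0 c0 α e)
    (hz : IsPointClass e f z) (hη : IsNeb f Q Q' η) (hm : PointRep ι f Q' η m)
    {r : GQ →* M2 (pointRing O O')}
    (hdet : ∀ σ, (r σ).det = algebraMap O _ (ι ((cycP p σ : ℤ_[p]ˣ) : ℤ_[p])))
    (htr : ∀ σ, ((r σ).trace).1 = (m σ).trace)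
    (N : ℕ) [NeZero N] (hN : M * ∏ q ∈ Q', q = N) :
    ∃ χ : CuspForm.heckeAlgebra N 2 (↑(insert p M.primeFactors) : Set ℕ) →+* pointRing O O',
      ∀ (ℓ : ℕ) (hℓ : ℓ.Prime) (hℓN : ¬ ℓ ∣ N)
        (hℓS : ℓ ∉ (↑(insert p M.primeFactors) : Set ℕ)),
        (χ (CuspForm.heckeAlgebra.T (k := 2) hℓ hℓN hℓS) : O') =
            (∏ q ∈ Q', (η q)⁻¹ (ℓ : ZMod q)) * f (fullT e ⟨ℓ, hℓ⟩) ∧
        ∀ A : ValuationSubring Qb, A.LiesOverPrime ℓ → ∀ τ : GQ, A.IsFrobeniusAt τ ℓ →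
          (r τ).trace = χ (CuspForm.heckeAlgebra.T (k := 2) hℓ hℓN hℓS) ∧
            (r τ).det = (ℓ : pointRing O O') := by
  classical
  subst hN
  let S : Finset ℕ := insert p M.primeFactors
  have hS : ∀ q : ℕ, q.Prime → q ∣ M → q ∈ S := fun q hq hqM =>
    Finset.mem_insert_of_mem (Nat.mem_primeFactors.2 ⟨hq, hqM, NeZero.ne M⟩)
  have hnotS : ∀ ℓ : ℕ, ℓ.Prime → ℓ ∉ S → ¬ ℓ ∣ M ∧ ℓ ≠ p := fun ℓ hℓ hℓS =>
    ⟨fun hd => hℓS (hS ℓ hℓ hd), fun e => hℓS (Finset.mem_insert.2 (Or.inl e))⟩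
  let c : ℕ → O' := fun ℓ => if hℓ : ℓ.Prime then f (fullT e ⟨ℓ, hℓ⟩) else 0
  obtain ⟨z', hz'p, hz'0, hz'e⟩ := FA.Twist.exists_twisted η S Q' M H hS (h.neb_cond hη) z
    (hz.mem_Par h.par) (fun h0 => hz.1 (by rw [h0]; exact zero_mem _))
    (h.dia_eq hη fun x => (hz.dia_act x).trans (by rw [← fullD_apply])) c
    (fun ℓ hℓ _ => by
      rw [show c ℓ = f (fullT e ⟨ℓ, hℓ.out⟩) from dif_pos hℓ.out]
      exact hz.Tc_act ⟨ℓ, hℓ.out⟩)
  have hS' : ∀ q : ℕ, q.Prime → q ∣ M * ∏ q ∈ Q', q → q ∈ S :=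
    fun q hq hd => hS q hq (h.dvd_twistLevel hη hq hd)
  obtain ⟨χ, hχ⟩ := FA.Twist.exists_point (M * ∏ q ∈ Q', q) S hS' hz'p hz'0
    (fun ℓ => (∏ q ∈ Q', (η q)⁻¹ (ℓ : ZMod q)) * c ℓ) hz'e
  have hfr : ∀ (ℓ : ℕ) (hℓ : ℓ.Prime) (hℓN : ¬ ℓ ∣ M * ∏ q ∈ Q', q)
      (hℓS : ℓ ∉ (↑S : Set ℕ)), ∀ A : ValuationSubring Qb, A.LiesOverPrime ℓ →
      ∀ τ : GQ, A.IsFrobeniusAt τ ℓ →
        ((r τ).trace).1 = χ (CuspForm.heckeAlgebra.T (k := 2) hℓ hℓN hℓS) := by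
    intro ℓ hℓ hℓN hℓS A hA τ hτ
    obtain ⟨hℓM, hℓp⟩ := hnotS ℓ hℓ (by simpa using hℓS)
    rw [htr, hχ, (hm.frob ⟨ℓ, hℓ⟩ hℓM hℓp A hA τ hτ).1]
    simp only [c, dif_pos hℓ]
  have hmem : ∀ t, χ t ∈ pointRing O O' := by
    rintro ⟨t, ht⟩
    induction ht using Algebra.adjoin_induction with
    | mem x hx =>
      rcases hx with ⟨ℓ, hℓ, hℓN, hℓS, rfl⟩ | ⟨q, hqM, hq, hqS, rfl⟩
      · obtain ⟨A, hA⟩ := exists_liesOverPrime hℓ
        obtain ⟨τ, hτ⟩ := exists_isFrobeniusAt hℓ hA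
        have h1 := ((r τ).trace).2
        rw [hfr ℓ hℓ hℓN hℓS A hA τ hτ] at h1
        exact h1
      · exact absurd (hS' q hq hqM) (by simpa using hqS)
    | algebraMap n =>
      have e : χ ⟨algebraMap ℤ _ n, Subalgebra.algebraMap_mem _ n⟩ = (n : O') := map_intCast χ n
      rw [e]
      exact intCast_mem _ n
    | add x y hx hy ihx ihy => exact (map_add χ ⟨x, hx⟩ ⟨y, hy⟩).symm ▸ add_mem ihx ihy
    | mul x y hx hy ihx ihy => exact (map_mul χ ⟨x, hx⟩ ⟨y, hy⟩).symm ▸ mul_mem ihx ihy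
  refine ⟨χ.codRestrict (pointRing O O') hmem, fun ℓ hℓ hℓN hℓS => ⟨?_, fun A hA τ hτ => ⟨?_, ?_⟩⟩⟩
  · show χ _ = _
    rw [hχ]
    simp only [c, dif_pos hℓ]
  · exact Subtype.ext (hfr ℓ hℓ hℓN hℓS A hA τ hτ)
  · rw [hdet, cycP_frobenius p hℓ (hnotS ℓ hℓ (fun hd => hℓS (Finset.mem_coe.2 hd))).2 hA hτ, map_natCast,
      map_natCast]

theorem natCast_mem_maximalIdeal_pointRing (hpO : (p : O) ∈ maximalIdeal O) :
    (p : pointRing O O') ∈ maximalIdeal (pointRing O O') := by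
  refine (IsLocalRing.mem_maximalIdeal _).mpr fun hu => not_isUnit_zero (M₀ := ResidueField O) ?_
  rw [← (residue_eq_zero_iff _).mpr hpO, map_natCast, ← map_natCast (pointRes O O')]
  exact hu.map _

/-- **A point without flat lift is strictly ordinary at `p`.** -/
theorem TWPiece.atStrict_of_not_flat (h : TWPiece p rb Q T0 c0 α e) (hp2 : p ≠ 2)
    (hpO : (p : O) ∈ maximalIdeal O) (hpM : p ∣ M) (hppM : ¬ p * p ∣ M)
    (hspan : Submodule.span (ResidueField O) (Set.range rb) = ⊤)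
    (hord : ∀ A : ValuationSubring Qb, A.LiesOverPrime p → IsOrdType A rb)
    (hz : IsPointClass e f z) (hη : IsNeb f Q Q' η) (hm : PointRep ι f Q' η m)
    {r : GQ →* M2 (pointRing O O')} (hr : mapRep (pointRes O O') r = rb) (hcont : IsContRep r)
    (hdet : ∀ σ, (r σ).det = algebraMap O _ (ι ((cycP p σ : ℤ_[p]ˣ) : ℤ_[p])))
    (htr : ∀ σ, ((r σ).trace).1 = (m σ).trace)
    (hnf : ¬ AtFlat p (pointRing O O') r) :
    AtStrict p (pointRing O O') r := by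
  classical
  have hp : p.Prime := Fact.out
  obtain ⟨N₀, hN0, hpN₀, hN⟩ := h.exists_twistLevel hη hpM hppM
  haveI : NeZero N₀ := ⟨hN0⟩
  haveI : NeZero (N₀ * p) := ⟨mul_ne_zero hN0 hp.ne_zero⟩
  obtain ⟨χ, hχ⟩ := h.exists_twisted_char hz hη hm hdet htr (N₀ * p) hN
  have hNS : ∀ q : ℕ, q.Prime → q ∣ N₀ * p → q ∈ insert p M.primeFactors := fun q hq hd =>
    Finset.mem_insert_of_mem (Nat.mem_primeFactors.2
      ⟨hq, h.dvd_twistLevel hη hq (hN ▸ hd), NeZero.ne M⟩)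
  refine ⟨hcont, isStrictOrdinaryAt_of_hecke hp hp2 hpO hpN₀ hNS (pointRes O O')
    pointRes_algebraMap hspan hcont hr χ ∅
    (fun ℓ hℓ hℓN hℓS _ A hA τ hτ => (hχ ℓ hℓ hℓN hℓS).2 A hA τ hτ) hord fun χ' => ?_⟩
  by_contra hcon
  push Not at hcon
  refine hnf ⟨hcont, FA.FlatModel.isFlatAt_of_hecke (N := N₀) (S := insert p M.primeFactors) hp hp2
    hpN₀ (fun q hq hd => hNS q hq (hd.mul_right p)) (natCast_mem_maximalIdeal_pointRing hpO)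
    (FA.FlatModel.natCast_mem_nonZeroDivisors (O := O) hp)
    (FA.FlatModel.finite_quotient_prime_pow (O := O) hp) χ'
    (ofMatrix r hcont) (Pi.basisFun _ (Fin 2))
    (by rw [matrixOf_ofMatrix]
        exact span_eq_top_of_lift (pointRes O O') pointRes_algebraMap hspan hr) ∅
    fun ℓ hℓ hℓN₀ hℓS _ A hA τ hτ => ?_⟩
  have hℓN : ¬ ℓ ∣ N₀ * p := fun hd => hℓS (Finset.mem_coe.2 (hNS ℓ hℓ hd))
  rw [matrixOf_ofMatrix, hcon ℓ hℓ hℓN hℓS]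
  exact (hχ ℓ hℓ hℓN hℓS).2 A hA τ hτ

theorem prod_inv_neb_mul_prod (h : TWPiece p rb Q T0 c0 α e) (hη : IsNeb f Q Q' η) :
    (∏ q ∈ Q', (η q)⁻¹ (p : ZMod q)) * ∏ q ∈ Q', η q (p : ZMod q) = 1 := by
  rw [← Finset.prod_mul_distrib]
  refine Finset.prod_eq_one fun q hq => ?_
  rw [← MulChar.mul_apply, inv_mul_cancel, MulChar.one_apply]
  exact (ZMod.isUnit_iff_coprime p q).2
    ((Nat.coprime_primes Fact.out (h.neb_cond hη q hq).1).2 (h.ne_p (hη.subset hq)).symm)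

/-- From a class with `U_p² = η(p)²`, one with `U_p = ± η(p)`. -/
theorem exists_Up_eigen {w : Hom1 (GamH M H) O'} (hwp : w ∈ Par (GamH M H) O') (hw0 : w ≠ 0)
    {g : FullAlg e →ₐ[O] O'}
    (hwd : ∀ x : (ZMod M)ˣ ⧸ H, diaHom M H O' x w = g (fullD e x) • w)
    (bad : Finset ℕ) (hwT : ∀ ℓ : Nat.Primes, ¬ (ℓ : ℕ) ∣ M → (ℓ : ℕ) ∉ bad →
      (Tc M H (ℓ : ℕ)).act w = g (fullT e ℓ) • w)
    (u : O') (hwU : (Tc M H p).act ((Tc M H p).act w) = u ^ 2 • w) :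
    ∃ (ε : O') (w₁ : Hom1 (GamH M H) O'), ε ^ 2 = 1 ∧ w₁ ∈ Par (GamH M H) O' ∧ w₁ ≠ 0 ∧
      (∀ x : (ZMod M)ˣ ⧸ H, diaHom M H O' x w₁ = g (fullD e x) • w₁) ∧
      (∀ ℓ : Nat.Primes, ¬ (ℓ : ℕ) ∣ M → (ℓ : ℕ) ∉ bad →
        (Tc M H (ℓ : ℕ)).act w₁ = g (fullT e ℓ) • w₁) ∧
      (Tc M H p).act w₁ = (ε * u) • w₁ := by
  by_cases h0 : (Tc M H p).act w + u • w = 0
  · refine ⟨-1, w, by ring, hwp, hw0, hwd, hwT, ?_⟩
    rw [neg_one_mul, neg_smul]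
    exact eq_neg_of_add_eq_zero_left h0
  · refine ⟨1, (Tc M H p).act w + u • w, one_pow 2,
      add_mem (Par_act _ hwp) (Submodule.smul_mem _ u hwp), h0, fun x => ?_, fun ℓ hℓ hb => ?_, ?_⟩
    · have e1 : diaHom M H O' x ((Tc M H p).act w) = (Tc M H p).act (diaHom M H O' x w) :=
        (Tc_diaHom M H O' ⟨p, Fact.out⟩ x w).symm
      rw [map_add, map_smul, e1, hwd x, Corr.act_smul, smul_add, smul_comm u]
    · have e1 : (Tc M H (ℓ : ℕ)).act ((Tc M H p).act w) =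
          (Tc M H p).act ((Tc M H (ℓ : ℕ)).act w) := Tc_act_comm M H ℓ ⟨p, Fact.out⟩ w
      rw [map_add, Corr.act_smul, e1, hwT ℓ hℓ hb, Corr.act_smul, smul_add, smul_comm u]
    · rw [map_add, hwU, Corr.act_smul, one_mul, smul_add, smul_smul, ← pow_two, add_comm]

/-- **A character of the full algebra at the twisted level with `U_p² = 1`.** -/
theorem TWPiece.exists_twisted_full (h : TWPiece p rb Q T0 c0 α e) (hη : IsNeb f Q Q' η)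
    {L : Type} [Field L] [IsAlgClosed L] (j : O' →+* L) (bad : Finset ℕ)
    (hw : ∃ w : Hom1 (GamH M H) O', w ∈ Par (GamH M H) O' ∧ w ≠ 0 ∧
      (∀ x : (ZMod M)ˣ ⧸ H, diaHom M H O' x w = f (fullD e x) • w) ∧
      (∀ ℓ : Nat.Primes, ¬ (ℓ : ℕ) ∣ M → (ℓ : ℕ) ∉ bad →
        (Tc M H (ℓ : ℕ)).act w = f (fullT e ℓ) • w) ∧
      (Tc M H p).act ((Tc M H p).act w) = (∏ q ∈ Q', η q (p : ZMod q) ^ 2) • w)
    (hpM : p ∣ M) (N : ℕ) [NeZero N] (hN : M * ∏ q ∈ Q', q = N) (hpN : p ∣ N) :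
    ∃ ψ : FA.ModField.HFull N →+* L,
      (∀ (ℓ : ℕ) (hℓ : ℓ.Prime) (hℓN : ¬ ℓ ∣ N), ℓ ∉ insert p M.primeFactors → ℓ ∉ bad →
        ψ (CuspForm.heckeAlgebra.T (k := 2) hℓ hℓN (Set.notMem_empty _)) =
          j ((∏ q ∈ Q', (η q)⁻¹ (ℓ : ZMod q)) * f (fullT e ⟨ℓ, hℓ⟩))) ∧
      ψ (CuspForm.heckeAlgebra.U (k := 2) (Fact.out : p.Prime) hpN (Set.notMem_empty _)) ^ 2 = 1 := by
  classical
  subst hN
  obtain ⟨w, hwp, hw0, hwd, hwT, hwU⟩ := hw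
  obtain ⟨ε, w₁, hε, hw₁p, hw₁0, hw₁d, hw₁T, hw₁U⟩ := exists_Up_eigen hwp hw0 hwd bad hwT
    (∏ q ∈ Q', η q (p : ZMod q)) (by rw [← Finset.prod_pow]; exact hwU)
  let S₀ : Finset ℕ := (M.primeFactors ∪ bad).erase p
  let c : ℕ → O' := fun ℓ => if ℓ = p then ε * ∏ q ∈ Q', η q (p : ZMod q)
    else if hℓ : ℓ.Prime then f (fullT e ⟨ℓ, hℓ⟩) else 0
  have hQS : ∀ q ∈ Q', q ∈ S₀ := fun q hq => Finset.mem_erase.2
    ⟨h.ne_p (hη.subset hq), Finset.mem_union_left _ (Nat.mem_primeFactors.2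
      ⟨(h.neb_cond hη q hq).1, (h.neb_cond hη q hq).2.1, NeZero.ne M⟩)⟩
  obtain ⟨z', hz'p, hz'0, hz'e⟩ := FA.Twist.exists_twisted' η S₀ Q' M H hQS (h.neb_cond hη) w₁
    hw₁p hw₁0 (h.dia_eq hη hw₁d) c (fun ℓ hℓ hℓS => by
      by_cases hℓp : ℓ = p
      · subst hℓp
        rw [show c ℓ = ε * ∏ q ∈ Q', η q (ℓ : ZMod q) from if_pos rfl]
        exact hw₁U
      · rw [show c ℓ = f (fullT e ⟨ℓ, hℓ.out⟩) from (if_neg hℓp).trans (dif_pos hℓ.out)]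
        exact hw₁T ⟨ℓ, hℓ.out⟩ (fun hd => hℓS (Finset.mem_erase.2
          ⟨hℓp, Finset.mem_union_left _ (Nat.mem_primeFactors.2 ⟨hℓ.out, hd, NeZero.ne M⟩)⟩))
          fun hb => hℓS (Finset.mem_erase.2 ⟨hℓp, Finset.mem_union_right _ hb⟩))
  let S : Finset ℕ := insert p M.primeFactors ∪ bad
  have hSS : ∀ ℓ : ℕ, ℓ ∉ S → ℓ ∉ S₀ := fun ℓ hℓ hd => hℓ (by
    rcases Finset.mem_union.1 (Finset.mem_of_mem_erase hd) with h1 | h1
    · exact Finset.mem_union_left _ (Finset.mem_insert_of_mem h1)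
    · exact Finset.mem_union_right _ h1)
  have hpS₀ : p ∉ S₀ := Finset.notMem_erase p _
  have hS' : ∀ r : ℕ, r.Prime → r ∣ M * ∏ q ∈ Q', q → r ∈ S := fun r hr hd =>
    Finset.mem_union_left _ (Finset.mem_insert_of_mem (Nat.mem_primeFactors.2
      ⟨hr, h.dvd_twistLevel hη hr hd, NeZero.ne M⟩))
  obtain ⟨ψ, hψT, hψU⟩ := FA.Twist.exists_point_full j (M * ∏ q ∈ Q', q) S hS' hpN hz'p hz'0
    (fun ℓ => (∏ q ∈ Q', (η q)⁻¹ (ℓ : ZMod q)) * c ℓ)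
    (fun ℓ _ hℓS => hz'e ℓ (hSS ℓ hℓS))
    ((∏ q ∈ Q', (η q)⁻¹ (p : ZMod q)) * c p) (hz'e p hpS₀)
  refine ⟨ψ, fun ℓ hℓ hℓN hℓS hℓb => ?_, ?_⟩
  · have hℓp : ℓ ≠ p := fun e' => hℓS (Finset.mem_insert.2 (Or.inl e'))
    rw [hψT ℓ hℓ hℓN (Finset.notMem_union.2 ⟨hℓS, hℓb⟩), show c ℓ = f (fullT e ⟨ℓ, hℓ⟩) from (if_neg hℓp).trans (dif_pos hℓ)]
  · rw [hψU, show c p = ε * ∏ q ∈ Q', η q (p : ZMod q) from if_pos rfl, mul_left_comm,
      prod_inv_neb_mul_prod h hη, mul_one, ← map_pow, hε, map_one]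

/-- **A point new at `p` is strictly ordinary at `p`.** The class may be that of
`exists_new_eigenclass` at the base or `exists_new_eigenclassD` at depth. -/
theorem TWPiece.atStrict_of_new (h : TWPiece p rb Q T0 c0 α e) (hp2 : p ≠ 2)
    (hpO : (p : O) ∈ maximalIdeal O) (hpM : p ∣ M) (hppM : ¬ p * p ∣ M)
    (hspan : Submodule.span (ResidueField O) (Set.range rb) = ⊤)
    (hord : ∀ A : ValuationSubring Qb, A.LiesOverPrime p → IsOrdType A rb)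
    (hz : IsPointClass e f z) (hη : IsNeb f Q Q' η) (hm : PointRep ι f Q' η m)
    {r : GQ →* M2 (pointRing O O')} (hr : mapRep (pointRes O O') r = rb) (hcont : IsContRep r)
    (hdet : ∀ σ, (r σ).det = algebraMap O _ (ι ((cycP p σ : ℤ_[p]ˣ) : ℤ_[p])))
    (htr : ∀ σ, ((r σ).trace).1 = (m σ).trace)
    (bad : Finset ℕ)
    (hw : ∃ w : Hom1 (GamH M H) O', w ∈ Par (GamH M H) O' ∧ w ≠ 0 ∧
      (∀ x : (ZMod M)ˣ ⧸ H, diaHom M H O' x w = f (fullD e x) • w) ∧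
      (∀ ℓ : Nat.Primes, ¬ (ℓ : ℕ) ∣ M → (ℓ : ℕ) ∉ bad →
        (Tc M H (ℓ : ℕ)).act w = f (fullT e ℓ) • w) ∧
      (Tc M H p).act ((Tc M H p).act w) = (∏ q ∈ Q', η q (p : ZMod q) ^ 2) • w) :
    AtStrict p (pointRing O O') r := by
  classical
  have hp : p.Prime := Fact.out
  haveI : NeZero p := ⟨hp.ne_zero⟩
  obtain ⟨N₀, hN0, hpN₀, hN⟩ := h.exists_twistLevel hη hpM hppM
  haveI : NeZero N₀ := ⟨hN0⟩
  haveI : NeZero (N₀ * p) := ⟨mul_ne_zero hN0 hp.ne_zero⟩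
  obtain ⟨χ, hχ⟩ := h.exists_twisted_char hz hη hm hdet htr (N₀ * p) hN
  have hNS : ∀ q : ℕ, q.Prime → q ∣ N₀ * p → q ∈ insert p M.primeFactors := fun q hq hd =>
    Finset.mem_insert_of_mem (Nat.mem_primeFactors.2
      ⟨hq, h.dvd_twistLevel hη hq (hN ▸ hd), NeZero.ne M⟩)
  let L := AlgebraicClosure (FractionRing O')
  let j : O' →+* L := (algebraMap (FractionRing O') L).comp (algebraMap O' (FractionRing O'))
  haveI : CharZero L := charZero_of_injective_algebraMap (R := FractionRing O')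
    (algebraMap (FractionRing O') L).injective
  obtain ⟨ψ, hψT, hψU⟩ :=
    h.exists_twisted_full hη j bad hw hpM (N₀ * p) hN (dvd_mul_left p N₀)
  refine ⟨hcont, isStrictOrdinaryAt_of_hecke hp hp2 hpO hpN₀ hNS (pointRes O O')
    pointRes_algebraMap hspan hcont hr χ ∅
    (fun ℓ hℓ hℓN hℓS _ A hA τ hτ => (hχ ℓ hℓ hℓN hℓS).2 A hA τ hτ) hord fun χ' => ?_⟩
  refine FA.ModField.exists_T_ne_of_unit_square FA.ModField.hasFibreData hpN₀
    (j.comp (pointRing O O').val.toRingHom) χ ψ ?_ bad (fun ℓ hℓ hℓN hℓS hℓb => ?_) χ'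
  · rw [FA.ModField.uQ]
    exact hψU
  · rw [hψT ℓ hℓ hℓN (by simpa using hℓS) hℓb, ← (hχ ℓ hℓ hℓN hℓS).1]
    rfl

end FA.RT

end
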