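import Fermat.Agent.HeckeH1.PieceAlg
import Fermat.Agent.HeckeH1.TWGroup
import Fermat.Agent.RT.PointLemmas
import Fermat.Agent.Twist.Rep

/-!
# Pieces at Taylor–Wiles levels

The conditions on an idempotent at a level `Γ_H(M)` under which the eigenclasses of its points
give lifts of the residual representation; residual values of points and their nebentypus.
-/

set_option autoImplicit false
set_option linter.unusedSectionVars false
set_option linter.style.haveILetI false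
set_option maxHeartbeats 1000000
set_option synthInstance.maxHeartbeats 200000

noncomputable section

open IsLocalRing Matrix FA.HeckeH1
open scoped MatrixGroups

namespace FA.RT

local notation "Qb" => AlgebraicClosure ℚ
local notation "GQ" => AlgebraicClosure ℚ ≃ₐ[ℚ] AlgebraicClosure ℚ
local notation "M2" => Matrix (Fin 2) (Fin 2)

variable {O : Type} [CommRing O] [IsDomain O] [IsDiscreteValuationRing O]
  [IsAdicComplete (maximalIdeal O) O] [CharZero O]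
  {M : ℕ} [NeZero M] {H : Subgroup (ZMod M)ˣ}

/-- An operator is nilpotent modulo the maximal ideal on the image of `e`. -/
def Nilp (e : Module.End O (Hom1 (GamH M H) O)) (a : pairAlg M H O) : Prop :=
  ∃ k : ℕ, ∀ v, fullOp M H O (a ^ k) (e v) ∈ maximalIdeal O • (⊤ : Submodule O (Hom1 (GamH M H) O))

/-- A Hecke operator on the image of `e`. -/
def fullT (e : Module.End O (Hom1 (GamH M H) O)) (ℓ : Nat.Primes) : FullAlg e :=
  Ideal.Quotient.mk _ ⟨_, Tpair_mem M H O ℓ⟩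

/-- The diamonds on the image of `e`. -/
def fullD (e : Module.End O (Hom1 (GamH M H) O)) : (ZMod M)ˣ ⧸ H →* FullAlg e :=
  (goodToFull e : GoodAlg e →ₐ[O] FullAlg e).toMonoidHom.comp (goodDia e)

theorem fullD_apply (e : Module.End O (Hom1 (GamH M H) O)) (x : (ZMod M)ˣ ⧸ H) :
    fullD e x = Ideal.Quotient.mk _ ⟨_, diaPair_mem M H O x⟩ := rfl

theorem goodToFull_goodT (e : Module.End O (Hom1 (GamH M H) O)) (ℓ : GP M) :
    goodToFull e (goodT e ℓ) = fullT e ⟨ℓ.1, ℓ.2.1⟩ := rfl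

variable (p : ℕ) (rb : GQ →* M2 (ResidueField O)) (Q T0 : Finset ℕ) (c0 α : ℕ → O)

/-- **A piece at a Taylor–Wiles level.** -/
structure TWPiece (e : Module.End O (Hom1 (GamH M H) O)) : Prop where
  exact : ∀ q ∈ Q, q.Prime ∧ q ∣ M ∧ ¬ q * q ∣ M
  dvd_sub : ∀ q ∈ Q, p ∣ q - 1
  mem_H : ∀ u : (ZMod M)ˣ, (∀ q ∈ Q, (ZMod.cast (u : ZMod M) : ZMod q) = 1) → u ∈ H
  neg_one : (-1 : (ZMod M)ˣ) ∈ H
  pgroup : IsPGroup p ((ZMod M)ˣ ⧸ H)
  idem : ∀ v, e (e v) = e v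
  comm : ∀ a v, fullOp M H O a (e v) = e (fullOp M H O a v)
  par : ∀ v, e v ∈ Par (GamH M H) O
  mem_T0 : ∀ ℓ : ℕ, ℓ.Prime → ℓ ∣ M ∨ ℓ = p → ℓ ∈ T0
  frob : ∀ ℓ : ℕ, ℓ.Prime → ℓ ∉ T0 → ∀ A : ValuationSubring Qb, A.LiesOverPrime ℓ →
    ∀ σ : GQ, A.IsFrobeniusAt σ ℓ → residue O (c0 ℓ) = (rb σ).trace
  nilT : ∀ ℓ : Nat.Primes, (ℓ : ℕ) ∉ T0 →
    Nilp e (⟨_, Tpair_mem M H O ℓ⟩ - algebraMap O (pairAlg M H O) (c0 ℓ))
  nilD : ∀ x, Nilp e (⟨_, diaPair_mem M H O x⟩ - 1)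
  nilU : ∀ q : Nat.Primes, (q : ℕ) ∈ Q →
    Nilp e (⟨_, Tpair_mem M H O q⟩ - algebraMap O (pairAlg M H O) (α q))
  free : ∃ (d : ℕ) (b : Fin d → Hom1 (GamH M H) O), (∀ i, e (b i) = b i) ∧
    (∀ c : Fin d → (ZMod M)ˣ ⧸ H → O, (∑ i, ∑ g, c i g • diaHom M H O g (b i)) ∈
      maximalIdeal O • (⊤ : Submodule O (Hom1 (GamH M H) O)) → ∀ i g, c i g ∈ maximalIdeal O) ∧
    ∀ v, ∃ c : Fin d → (ZMod M)ˣ ⧸ H → O, e v = ∑ i, ∑ g, c i g • diaHom M H O g (b i)

variable {p rb Q T0 c0 α} {e : Module.End O (Hom1 (GamH M H) O)}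
  {O' : Type} [CommRing O'] [IsDomain O'] [IsDiscreteValuationRing O']
  [IsAdicComplete (maximalIdeal O') O'] [CharZero O'] [Algebra O O']
  [IsLocalHom (algebraMap O O')] [Module.IsTorsionFree O O']

/-- A value congruent to a constant. -/
theorem sub_mem_of_nilp {f : FullAlg e →ₐ[O] O'} {z : Hom1 (GamH M H) O'}
    (hz : IsPointClass e f z) {a : pairAlg M H O} {c : O}
    (h : Nilp e (a - algebraMap O (pairAlg M H O) c)) :
    f (Ideal.Quotient.mk _ a) - algebraMap O O' c ∈ maximalIdeal O' := by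
  have h1 := hz.mem_of_nilpotent _ h
  rw [map_sub, map_sub] at h1
  rwa [show Ideal.Quotient.mk (annFull e) (algebraMap O (pairAlg M H O) c) =
    algebraMap O (FullAlg e) c from rfl, f.commutes] at h1

/-- A square root of the nebentypus of a point. -/
structure IsNebSq (f : FullAlg e →ₐ[O] O') (Q Q' : Finset ℕ) (η : ∀ q : ℕ, MulChar (ZMod q) O') :
    Prop where
  subset : Q' ⊆ Q
  sq_ne : ∀ q ∈ Q', η q ^ 2 ≠ 1
  prod_sq : ∀ u : (ZMod M)ˣ, ∏ q ∈ Q', η q (ZMod.cast (u : ZMod M)) ^ 2 =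
    f (fullD e (QuotientGroup.mk u))
  residual : ∀ q ∈ Q', ∀ v : (ZMod q)ˣ, η q v - 1 ∈ maximalIdeal O'

/-- The nebentypus of a point, for a diamond group of odd order. -/
structure IsNeb (f : FullAlg e →ₐ[O] O') (Q Q' : Finset ℕ) (η : ∀ q : ℕ, MulChar (ZMod q) O') :
    Prop extends IsNebSq f Q Q' η where
  prod : ∀ u : (ZMod M)ˣ, ∏ q ∈ Q', η q (ZMod.cast (u : ZMod M)) =
    f (fullD e (QuotientGroup.mk u ^ halfExp ((ZMod M)ˣ ⧸ H)))

variable (h : TWPiece p rb Q T0 c0 α e)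

include h

theorem TWPiece.odd_card [hp : Fact p.Prime] (hp2 : p ≠ 2) :
    Odd (Nat.card ((ZMod M)ˣ ⧸ H)) := by
  obtain ⟨n, hn⟩ := IsPGroup.iff_card.1 h.pgroup
  rw [hn]
  exact (hp.out.odd_of_ne_two hp2).pow

/-- Diamonds are residually trivial at points. -/
theorem TWPiece.fullD_sub_one_mem {f : FullAlg e →ₐ[O] O'} {z : Hom1 (GamH M H) O'}
    (hz : IsPointClass e f z) (x : (ZMod M)ˣ ⧸ H) : f (fullD e x) - 1 ∈ maximalIdeal O' := by
  have := sub_mem_of_nilp hz (c := 1) (by rw [map_one]; exact h.nilD x)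
  rwa [map_one] at this

/-- A class of a point is invariant modulo the maximal ideal. -/
theorem TWPiece.dia_sub_mem {f : FullAlg e →ₐ[O] O'} {z : Hom1 (GamH M H) O'}
    (hz : IsPointClass e f z) (x : (ZMod M)ˣ ⧸ H) :
    diaHom M H O' x z - z ∈ maximalIdeal O' • (⊤ : Submodule O' (Hom1 (GamH M H) O')) := by
  rw [hz.dia_act x, ← fullD_apply]
  nth_rw 2 [← one_smul O' z]
  rw [← sub_smul]
  exact Submodule.smul_mem_smul (h.fullD_sub_one_mem hz x) Submodule.mem_top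

/-- **The nebentypus exists.** -/
theorem TWPiece.exists_neb [Fact p.Prime] (hp2 : p ≠ 2) {f : FullAlg e →ₐ[O] O'}
    {z : Hom1 (GamH M H) O'} (hz : IsPointClass e f z) :
    ∃ (Q' : Finset ℕ) (η : ∀ q : ℕ, MulChar (ZMod q) O'), IsNeb f Q Q' η := by
  classical
  obtain ⟨η, h1, h2, h3⟩ := exists_nebentypus (QuotientGroup.mk' H) Q h.exact
    (fun u hu => (QuotientGroup.eq_one_iff u).2 (h.mem_H u hu)) (h.odd_card hp2)
    (f.toMonoidHom.comp (fullD e))
  have hone : ∀ q ∈ Q, η q = 1 → ∀ u : (ZMod M)ˣ, η q (ZMod.cast (u : ZMod M)) = 1 :=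
    fun q hq hη u => by
      rw [hη, show (ZMod.cast (u : ZMod M) : ZMod q) = (ZMod.unitsMap (h.exact q hq).2.1 u : ZMod q)
        from rfl, MulChar.one_apply_coe]
  refine ⟨Q.filter fun q => η q ≠ 1, η,
    ⟨Finset.filter_subset _ _, fun q hq h4 => ?_, fun u => ?_, fun q hq v => ?_⟩, fun u => ?_⟩
  · obtain ⟨hqQ, hne⟩ := Finset.mem_filter.1 hq
    exact hne (h3 q hqQ h4)
  · refine Eq.trans (Finset.prod_filter_of_ne (p := fun q => η q ≠ 1) fun q hq hne hη =>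
      hne (by rw [hone q hq hη u, one_pow])) (h2 u)
  · obtain ⟨hqQ, -⟩ := Finset.mem_filter.1 hq
    obtain ⟨hqp, hqM, hqq⟩ := h.exact q hqQ
    obtain ⟨ε, hε, hε'⟩ := exists_local_lift hqp hqM hqq
    have h5 := h1 (ε v)
    rw [Finset.prod_eq_single q (fun r hr hrq => by
      rw [show (ZMod.cast (ε v : ZMod M) : ZMod r) =
        (ZMod.unitsMap (h.exact r hr).2.1 (ε v) : ZMod r) from rfl,
        hε' r (h.exact r hr).2.1 (h.exact r hr).1 hrq, Units.val_one, map_one]) fun hn => absurd hqQ hn,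
      show (ZMod.cast (ε v : ZMod M) : ZMod q) = (ZMod.unitsMap hqM (ε v) : ZMod q) from rfl, hε] at h5
    rw [h5]
    exact h.fullD_sub_one_mem hz _
  · refine Eq.trans (Finset.prod_filter_of_ne (p := fun q => η q ≠ 1) fun q hq hne hη =>
      hne (hone q hq hη u)) (h1 u)

end FA.RT
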