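import Fermat.Agent.RT.TWPoint.PiecePoint
import Fermat.Agent.RT.Tower.PDefs

/-!
# Separating lifts of a quotient of the good algebra of a piece

Points of a piece which factor through an algebra and separate it give lifts separating this
algebra, with the values of its twisted Hecke elements at the traces; at a Taylor–Wiles prime
they give the relation between the diamond and the lift.
-/

set_option autoImplicit false
set_option linter.unusedSectionVars false
set_option linter.style.haveILetI false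
set_option maxHeartbeats 1000000
set_option synthInstance.maxHeartbeats 200000

noncomputable section

open IsLocalRing Matrix FA.HeckeH1 FA.Deform
open FA.JTorsion (cycP cycK)
open scoped MatrixGroups

namespace FA.RT

local notation "Qb" => AlgebraicClosure ℚ
local notation "GQ" => AlgebraicClosure ℚ ≃ₐ[ℚ] AlgebraicClosure ℚ
local notation "M2" => Matrix (Fin 2) (Fin 2)

variable {O : Type} [CommRing O] [IsDomain O] [IsDiscreteValuationRing O]
  [IsAdicComplete (maximalIdeal O) O] [CharZero O] [Finite (ResidueField O)]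
  {M : ℕ} [NeZero M] {H : Subgroup (ZMod M)ˣ}
  {p : ℕ} [Fact p.Prime] {e : Module.End O (Hom1 (GamH M H) O)} {ι : ℤ_[p] →+* O}
  {Q : Finset ℕ} {C A : Type} [CommRing C] [Algebra O C] [CommRing A] [Algebra O A]

/-- A point factors through the algebra. -/
def PiecePoint.Factors {rb : GQ →* M2 (ResidueField O)} (L : PiecePoint e ι rb Q)
    (incl : C →ₐ[O] GoodAlg e) (π : C →ₐ[O] A) : Prop :=
  ∀ a, π a = 0 → L.f (goodToFull e (incl a)) = 0

/-- The value on a quotient of an algebra homomorphism killing its kernel. -/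
theorem exists_liftOfSurjective {B : Type} [CommRing B] [Algebra O B] (π : C →ₐ[O] A)
    (hπ : Function.Surjective π) (v : C →ₐ[O] B) (h : ∀ a, π a = 0 → v a = 0) :
    ∃ g : A →ₐ[O] B, ∀ a, g (π a) = v a := by
  classical
  have hwd : ∀ a b, π a = π b → v a = v b := fun a b hab => by
    rw [← sub_eq_zero, ← map_sub]
    exact h _ (by rw [map_sub, hab, sub_self])
  choose s hs using hπ
  refine ⟨
    { toFun := fun x => v (s x)
      map_one' := by rw [hwd (s 1) 1 (by rw [hs, map_one]), map_one]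
      map_mul' := fun x y => by rw [hwd (s (x * y)) (s x * s y) (by rw [map_mul, hs, hs, hs]), map_mul]
      map_zero' := by rw [hwd (s 0) 0 (by rw [hs, map_zero]), map_zero]
      map_add' := fun x y => by rw [hwd (s (x + y)) (s x + s y) (by rw [map_add, hs, hs, hs]), map_add]
      commutes' := fun c => by
        rw [hwd (s (algebraMap O A c)) (algebraMap O C c) (by rw [hs, π.commutes]), v.commutes] },
    fun a => hwd _ _ (hs _)⟩

variable (S : Setup O) {T0 : Finset ℕ} {c0 α : ℕ → O}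

/-- The data of separating lifts of an algebra from points of a piece. -/
structure SepData (h : TWPiece p S.rb Q T0 c0 α e) (incl : C →ₐ[O] GoodAlg e) (π : C →ₐ[O] A)
    where
  /-- the index -/
  J : Type
  [finite : Finite J]
  /-- the points -/
  L : J → PiecePoint e ι S.rb Q
  /-- the values -/
  g : ∀ j, A →ₐ[O] pointRing O (L j).O'
  factors : ∀ j, (L j).Factors incl π
  g_spec : ∀ j a, ((g j (π a) : pointRing O (L j).O') : (L j).O') =
    (L j).f (goodToFull e (incl a))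
  separates : ∀ x, (∀ j, g j x = 0) → x = 0

attribute [instance] SepData.finite

variable {S} {incl : C →ₐ[O] GoodAlg e} {π : C →ₐ[O] A} {h : TWPiece p S.rb Q T0 c0 α e}

/-- **Separating data exist**, from separating points of the full algebra. -/
theorem SepData.nonempty (hp2 : p ≠ 2) (hπ : Function.Surjective π)
    (hspan : Submodule.span (ResidueField O) (Set.range S.rb) = ⊤)
    (hdetrb : ∀ σ, (S.rb σ).det = residue O (ι ((cycP p σ : ℤ_[p]ˣ) : ℤ_[p])))
    (hpO : (p : O) ∈ maximalIdeal O)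
    (hnilP : ∀ hp : p.Prime, ¬ p ∣ M → ∃ cp : O,
      Nilp e (⟨_, Tpair_mem M H O ⟨p, hp⟩⟩ - algebraMap O (pairAlg M H O) cp))
    (hpts : ∃ (J : Type) (_ : Finite J) (P : J → AlgPoint O (FullAlg e)),
      (∀ j a, π a = 0 → (P j).hom (goodToFull e (incl a)) = 0) ∧
      ∀ a, (∀ j, (P j).hom (goodToFull e (incl a)) = 0) → π a = 0) :
    Nonempty (SepData (ι := ι) S h incl π) := by
  classical
  obtain ⟨J, hJ, P, hker, hsep⟩ := hpts
  choose L hL using fun j => h.exists_piecePoint (ι := ι) hp2 hpO S.rb_open hspan hdetrb (P j)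
  have hfac : ∀ j, (L j).Factors incl π := fun j a ha => (hL j _).2 (hker j a ha)
  have hv : ∀ j, ∃ g : A →ₐ[O] pointRing O (L j).O', ∀ a,
      ((g (π a) : pointRing O (L j).O') : (L j).O') = (L j).f (goodToFull e (incl a)) := fun j => by
    obtain ⟨g, hg⟩ := exists_liftOfSurjective π hπ
      (((L j).val h hspan S.rb_open hdetrb hnilP).comp incl)
      fun a ha => Subtype.ext (hfac j a ha)
    exact ⟨g, fun a => congrArg Subtype.val (hg a)⟩
  choose g hg using hv
  refine ⟨{ J := J, L := L, g := g, factors := hfac, g_spec := hg, separates := fun x hx => ?_ }⟩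
  obtain ⟨a, rfl⟩ := hπ x
  refine hsep a fun j => (hL j _).1 ?_
  rw [← hg j a, hx j]
  rfl

variable (d : SepData (ι := ι) S h incl π)

/-- The lifts. -/
@[reducible] def SepData.pts (hcyc : ∀ σ, S.cyc σ = ι ((cycP p σ : ℤ_[p]ˣ) : ℤ_[p])) :
    PointSet S.rb S.cyc where
  J := d.J
  B j := pointRing O (d.L j).O'
  r j := (d.L j).r
  ε j := pointRes O (d.L j).O'
  ε_algebraMap j c := pointRes_algebraMap c
  lift j := (d.L j).lift
  cont j := (d.L j).cont
  det j σ := by rw [(d.L j).det σ, hcyc]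

/-- **The separating lifts.** -/
def SepData.partSep (hcyc : ∀ σ, S.cyc σ = ι ((cycP p σ : ℤ_[p]ˣ) : ℤ_[p]))
    (T : ℕ → A) (bad : Finset ℕ)
    (hT : ∀ ℓ : ℕ, ℓ.Prime → ℓ ∉ bad → ℓ ≠ p ∧
      ∃ (hℓ : ℓ.Prime ∧ ¬ ℓ ∣ M) (a : C), π a = T ℓ ∧ incl a = twT e ⟨ℓ, hℓ⟩)
    (Good : ∀ (B : Type) [CommRing B] [IsLocalRing B] [Algebra O B], (GQ →* M2 B) → Prop)
    (hgood : ∀ L : PiecePoint e ι S.rb Q, L.Factors incl π → Good (pointRing O L.O') L.r) :
    S.PartSep T bad Good where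
  pts := d.pts hcyc
  ev := Pi.algHom O (fun j => pointRing O (d.L j).O') d.g
  ev_injective := (injective_iff_map_eq_zero _).2 fun x hx =>
    d.separates x fun j => congrFun hx j
  good j := hgood (d.L j) (d.factors j)
  ev_T ℓ hℓ hℓb P hP σ hσ j := by
    obtain ⟨hℓp, hℓ', a, ha, hincl⟩ := hT ℓ hℓ hℓb
    refine Subtype.ext ?_
    show ((d.g j (T ℓ) : pointRing O (d.L j).O') : (d.L j).O') = _
    rw [← ha, d.g_spec, hincl]
    exact (d.L j).hom_twT_eq_trace h ⟨ℓ, hℓ'⟩ hℓp hP hσ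

/-- **The diamonds at the Taylor–Wiles primes.** -/
theorem SepData.diaRel (hpO : (p : O) ∈ maximalIdeal O)
    (hcyc : ∀ σ, S.cyc σ = ι ((cycP p σ : ℤ_[p]ˣ) : ℤ_[p]))
    (hspan : Submodule.span (ResidueField O) (Set.range S.rb) = ⊤)
    (hdetrb : ∀ σ, (S.rb σ).det = residue O (ι ((cycP p σ : ℤ_[p]ˣ) : ℤ_[p])))
    (T : ℕ → A) (bad : Finset ℕ)
    (hT : ∀ ℓ : ℕ, ℓ.Prime → ℓ ∉ bad → ℓ ≠ p ∧
      ∃ (hℓ : ℓ.Prime ∧ ¬ ℓ ∣ M) (a : C), π a = T ℓ ∧ incl a = twT e ⟨ℓ, hℓ⟩)
    (Good : ∀ (B : Type) [CommRing B] [IsLocalRing B] [Algebra O B], (GQ →* M2 B) → Prop)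
    (hgood : ∀ L : PiecePoint e ι S.rb Q, L.Factors incl π → Good (pointRing O L.O') L.r)
    {r n : ℕ} (D : S.TWSet r n) (ab : Fin r → ResidueField O) (x : Fin r → A)
    (hD : ∀ i, D.qv i ∈ Q) (hα : ∀ i, residue O (α (D.qv i)) = ab i)
    (hab : ∀ i, ab i * ab i - (S.rb (D.φ i)).trace * ab i + (S.rb (D.φ i)).det = 0)
    (hx : ∀ i, haveI : Fact (D.qv i).Prime := ⟨(D.prime i).1⟩
      ∃ (u : (ZMod M)ˣ) (a : C),
        (ZMod.cast (u : ZMod M) : ZMod (D.qv i)) =
          (cycK (D.qv i) (ZMod (D.qv i)) (D.s i) : ZMod (D.qv i)) ∧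
        (∀ q' ∈ Q, q' ≠ D.qv i → (ZMod.cast (u : ZMod M) : ZMod q') = 1) ∧
        π a = x i ∧ incl a = goodDia e ((QuotientGroup.mk u ^ halfExp ((ZMod M)ˣ ⧸ H))⁻¹)) :
    Setup.DiaRel D ab (d.partSep hcyc T bad hT Good hgood).pts
      fun i => (d.partSep hcyc T bad hT Good hgood).ev (x i) := by
  intro i j
  haveI : Fact (D.qv i).Prime := ⟨(D.prime i).1⟩
  obtain ⟨u, a, hu, hu', ha, hincl⟩ := hx i
  have hα' : residue O (α (D.qv i)) ^ 2 - (S.rb (D.φ i)).trace * residue O (α (D.qv i)) +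
      (S.rb (D.φ i)).det = 0 := by rw [hα, sq]; exact hab i
  obtain ⟨b, hb1, hb2, hb3⟩ := (d.L j).dia_rel h hpO hspan hdetrb (hD i)
    (S.P.liesOver _ (D.prime i).1) (D.φ_spec i) (D.s i).2 (D.unramified i) hα' (D.regular i) hu hu'
  refine ⟨b, hb1.trans (hα i), hb2, Subtype.ext ?_⟩
  show (2 * b.1 - (((d.L j).r (D.φ i)).trace).1) * ((d.g j (x i) : pointRing O (d.L j).O') :
    (d.L j).O') = _
  rw [← ha, d.g_spec, hincl]
  exact hb3

/-- **Lifts of points are unramified outside the level and `p`, with tame trace `2`.** -/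
theorem PiecePoint.allowed (h : TWPiece p S.rb Q T0 c0 α e) (L : PiecePoint e ι S.rb Q)
    (hpO : (p : O) ∈ maximalIdeal O) (hSp : S.p = p) (T₁ : Finset ℕ) (hsub : S.T ⊆ T₁)
    (hlev : ∀ q : ℕ, q.Prime → q ∣ M → q ∈ T₁)
    (hsq : ∀ q ∈ S.Sig, ¬ q * q ∣ M) (hQ : ∀ q ∈ S.Sig, q ∉ Q) :
    (∀ q : ℕ, q.Prime → q ∉ T₁ → ∀ A : ValuationSubring Qb, A.LiesOverPrime q →
      ∀ σ ∈ A.inertiaSubgroupIn ℚ, L.r σ = 1) ∧
    ∀ q : ↥S.Sig, (L.r (S.tame q)).trace = 2 :=
  ⟨fun q hq hqT A hA σ hσ => L.r_unramified hq (fun hd => hqT (hlev q hq hd))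
    (fun e' => hqT (hsub (by rw [e', ← hSp]; exact S.p_mem_T))) hA hσ,
   fun q => L.r_trace_tame h hpO (S.prime_Sig q.1 q.2).1 (hSp ▸ (S.prime_Sig q.1 q.2).2)
    (hQ q.1 q.2) (hsq q.1 q.2) (S.P.liesOver _ (S.prime_Sig q.1 q.2).1) (S.tame_mem q)⟩

end FA.RT

end
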