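import Fermat.Agent.RT.TWPoint.Tame
import Fermat.Agent.RT.TWPoint.Line

/-!
# Points of a piece with their lifts

A point of the algebra of a piece over an extension, together with its nebentypus, representation
and lift over the point ring; the values of the good algebra, the traces at Frobenius, inertia
away from `p`, and the relation between the diamonds and the lift at a Taylor–Wiles prime.
-/

set_option autoImplicit false
set_option linter.unusedSectionVars false
set_option linter.style.haveILetI false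
set_option maxHeartbeats 2000000
set_option synthInstance.maxHeartbeats 200000

noncomputable section

open IsLocalRing Matrix FA.HeckeH1 FA.Deform
open FA.JTorsion (cycP cycP_frobenius cycK)
open scoped MatrixGroups

namespace FA.RT

local notation "Qb" => AlgebraicClosure ℚ
local notation "GQ" => AlgebraicClosure ℚ ≃ₐ[ℚ] AlgebraicClosure ℚ
local notation "M2" => Matrix (Fin 2) (Fin 2)

variable {O : Type} [CommRing O] [IsDomain O] [IsDiscreteValuationRing O]
  [IsAdicComplete (maximalIdeal O) O] [CharZero O] [Finite (ResidueField O)]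
  {M : ℕ} [NeZero M] {H : Subgroup (ZMod M)ˣ}

/-- A point of a piece with its lift. -/
structure PiecePoint {p : ℕ} [Fact p.Prime] (e : Module.End O (Hom1 (GamH M H) O))
    (ι : ℤ_[p] →+* O) (rb : GQ →* M2 (ResidueField O)) (Q : Finset ℕ) where
  /-- the extension -/
  O' : Type
  [commRing : CommRing O']
  [isDomain : IsDomain O']
  [dvr : IsDiscreteValuationRing O']
  [complete : IsAdicComplete (maximalIdeal O') O']
  [charZero : CharZero O']
  [algebra : Algebra O O']
  [moduleFinite : Module.Finite O O']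
  [moduleFree : Module.Free O O']
  [localHom : IsLocalHom (algebraMap O O')]
  /-- the values -/
  f : FullAlg e →ₐ[O] O'
  /-- the class -/
  z : Hom1 (GamH M H) O'
  /-- the primes of the nebentypus -/
  Q' : Finset ℕ
  /-- the nebentypus -/
  η : ∀ q : ℕ, MulChar (ZMod q) O'
  /-- the representation -/
  m : GQ →* M2 O'
  /-- the lift -/
  r : GQ →* M2 (pointRing O O')
  pointClass : IsPointClass e f z
  neb : IsNeb f Q Q' η
  rep : PointRep ι f Q' η m
  lift : mapRep (pointRes O O') r = rb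
  cont : IsContRep r
  det : ∀ σ, (r σ).det = algebraMap O _ (ι ((cycP p σ : ℤ_[p]ˣ) : ℤ_[p]))
  trace : ∀ σ, ((r σ).trace).1 = (m σ).trace
  conj : ∃ U : M2 O', IsUnit U ∧ ∀ σ, U * m σ = (r σ).map (pointRing O O').val * U

attribute [instance] PiecePoint.commRing PiecePoint.isDomain PiecePoint.dvr PiecePoint.complete
  PiecePoint.charZero PiecePoint.algebra PiecePoint.moduleFinite PiecePoint.moduleFree
  PiecePoint.localHom

/-- Two points with nested kernels have the same kernel. -/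
theorem eq_zero_of_ker_le {A B B' : Type} [CommRing A] [Algebra O A] [CommRing B] [IsDomain B]
    [Algebra O B] [CommRing B'] [IsDomain B'] [Algebra O B'] [Module.IsTorsionFree O B']
    [Module.Finite O A] (f : A →ₐ[O] B) (g : A →ₐ[O] B') (h : ∀ x, f x = 0 → g x = 0) (x : A)
    (hx : g x = 0) : f x = 0 := by
  haveI : (RingHom.ker f.toRingHom).IsPrime := RingHom.ker_isPrime _
  haveI : (RingHom.ker g.toRingHom).IsPrime := RingHom.ker_isPrime _
  by_contra hne
  have hle : RingHom.ker f.toRingHom ≤ RingHom.ker g.toRingHom := fun y hy => h y hy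
  have hlt := Ideal.comap_lt_comap_of_integral_mem_sdiff (R := O) hle
    (x := x) ⟨hx, hne⟩ (Algebra.IsIntegral.isIntegral x)
  refine (lt_irrefl _ (lt_of_lt_of_le hlt ?_))
  intro c hc
  rw [Ideal.mem_comap, RingHom.mem_ker] at hc ⊢
  rw [show g.toRingHom (algebraMap O A c) = algebraMap O B' c from g.commutes c] at hc
  rw [(FaithfulSMul.algebraMap_injective O B') (hc.trans (map_zero _).symm), map_zero, map_zero]

variable {p : ℕ} [Fact p.Prime] {rb : GQ →* M2 (ResidueField O)} {Q T0 : Finset ℕ} {c0 α : ℕ → O}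
  {e : Module.End O (Hom1 (GamH M H) O)} {ι : ℤ_[p] →+* O} (h : TWPiece p rb Q T0 c0 α e)

include h

/-- **Every point of a piece has a lift.** -/
theorem TWPiece.exists_piecePoint (hp2 : p ≠ 2) (hpO : (p : O) ∈ maximalIdeal O)
    (rb_open : IsOpen (rb.ker : Set GQ))
    (hspan : Submodule.span (ResidueField O) (Set.range rb) = ⊤)
    (hdetrb : ∀ σ, (rb σ).det = residue O (ι ((cycP p σ : ℤ_[p]ˣ) : ℤ_[p])))
    (P : AlgPoint O (FullAlg e)) :
    ∃ L : PiecePoint e ι rb Q, ∀ x, L.f x = 0 ↔ P.hom x = 0 := by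
  haveI : ((GamH M H).subgroupOf (GamH M ⊤)).FiniteIndex := inferInstance
  haveI : Finite (GamH M ⊤ ⧸ (GamH M H).subgroupOf (GamH M ⊤)) :=
    Subgroup.finite_quotient_of_finiteIndex
  obtain ⟨O', i₁, i₂, i₃, i₄, i₅, i₆, i₇, i₈, i₉, i₁₀, f, z, Q', η, m, hz, hη, hm, hker⟩ :=
    h.exists_rep hp2 hpO ι P
  obtain ⟨r, hr, hrc, hrd, hrt, hU⟩ := h.exists_lift rb_open hspan hdetrb hz hη hm
  refine ⟨{ O' := O', f := f, z := z, Q' := Q', η := η, m := m, r := r, pointClass := hz
            neb := hη, rep := hm, lift := hr, cont := hrc, det := hrd, trace := hrt, conj := hU },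
    fun x => ⟨hker x, fun hx => ?_⟩⟩
  haveI : Module.Finite O (Hom1 (GamH M H) O) := hom1_finite_of_noetherian (GamH M H) O
  exact eq_zero_of_ker_le f P.hom hker x hx

namespace PiecePoint

variable (L : PiecePoint e ι rb Q)

/-- The values of the good algebra at a point. -/
def val (hsp : Submodule.span (ResidueField O) (Set.range rb) = ⊤)
    (hop : IsOpen (rb.ker : Set GQ))
    (hdrb : ∀ σ, (rb σ).det = residue O (ι ((cycP p σ : ℤ_[p]ˣ) : ℤ_[p])))
    (hnilP : ∀ hp : p.Prime, ¬ p ∣ M → ∃ cp : O,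
      Nilp e (⟨_, Tpair_mem M H O ⟨p, hp⟩⟩ - algebraMap O (pairAlg M H O) cp)) :
    GoodAlg e →ₐ[O] pointRing O L.O' :=
  (L.f.comp (goodToFull e)).codRestrict (pointRing O L.O') fun x =>
    h.goodAlg_mem hop hsp hdrb L.pointClass L.neb L.rep hnilP x

theorem coe_val {hsp hop hdrb hnilP} (x : GoodAlg e) :
    ((L.val h hsp hop hdrb hnilP : GoodAlg e →ₐ[O] pointRing O L.O') x).1 =
      L.f (goodToFull e x) := rfl

/-- **The twisted elements take the values of the traces.** -/
theorem hom_twT_eq_trace (ℓ : GP M) (hℓp : ℓ.1 ≠ p) {A : ValuationSubring Qb}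
    (hA : A.LiesOverPrime ℓ.1) {σ : GQ} (hσ : A.IsFrobeniusAt σ ℓ.1) :
    L.f (goodToFull e (twT e ℓ)) = ((L.r σ).trace).1 := by
  rw [h.hom_twT L.neb ℓ, L.trace, (L.rep.frob ⟨ℓ.1, ℓ.2.1⟩ ℓ.2.2 hℓp A hA σ hσ).1]

omit h in
/-- The lift is unramified away from the level and `p`. -/
theorem r_unramified {q : ℕ} (hq : q.Prime) (hqM : ¬ q ∣ M) (hqp : q ≠ p)
    {A : ValuationSubring Qb} (hA : A.LiesOverPrime q) {σ : GQ}
    (hσ : σ ∈ A.inertiaSubgroupIn ℚ) : L.r σ = 1 := by
  obtain ⟨U, hU, hUm⟩ := L.conj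
  have h1 := hUm σ
  rw [L.rep.unr q hq hqM hqp A hA σ hσ, mul_one] at h1
  have h3 : (L.r σ).map (pointRing O L.O').val = 1 :=
    hU.mul_left_injective (h1.symm.trans (one_mul U).symm)
  refine Matrix.ext fun i j => Subtype.ext ?_
  rw [show ((L.r σ i j : pointRing O L.O') : L.O') = ((L.r σ).map (pointRing O L.O').val) i j
    from rfl, h3]
  rcases eq_or_ne i j with rfl | hne <;> simp [*]

/-- The trace of inertia at a prime exactly dividing the level or prime to it is `2`. -/
theorem r_trace_tame (hpO : (p : O) ∈ maximalIdeal O) {q : ℕ} (hq : q.Prime) (hqp : q ≠ p)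
    (hqQ : q ∉ Q) (hqM : ¬ q * q ∣ M) {A : ValuationSubring Qb} (hA : A.LiesOverPrime q) {σ : GQ}
    (hσ : σ ∈ A.inertiaSubgroupIn ℚ) : (L.r σ).trace = 2 :=
  Subtype.ext ((L.trace σ).trans
    ((h.trace_tame hpO L.pointClass L.neb L.rep hq hqp hqQ hqM hA hσ).trans rfl))

/-- **The diamond of a Taylor–Wiles prime at the lift.** -/
theorem dia_rel (hpO : (p : O) ∈ maximalIdeal O)
    (hsp : Submodule.span (ResidueField O) (Set.range rb) = ⊤)
    (hdrb : ∀ σ, (rb σ).det = residue O (ι ((cycP p σ : ℤ_[p]ˣ) : ℤ_[p])))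
    {q : ℕ} [Fact q.Prime] (hqQ : q ∈ Q) {A : ValuationSubring Qb} (hA : A.LiesOverPrime q)
    {φ : GQ} (hφ : A.IsFrobeniusAt φ q) {s : GQ} (hs : s ∈ A.inertiaSubgroupIn ℚ)
    (hunr : ∀ σ ∈ A.inertiaSubgroupIn ℚ, rb σ = 1)
    (hα : residue O (α q) ^ 2 - (rb φ).trace * residue O (α q) + (rb φ).det = 0)
    (hreg : (rb φ).trace ^ 2 ≠ 4 * (rb φ).det) {u : (ZMod M)ˣ}
    (huq : (ZMod.cast (u : ZMod M) : ZMod q) = (cycK q (ZMod q) s : ZMod q))
    (hu' : ∀ q' ∈ Q, q' ≠ q → (ZMod.cast (u : ZMod M) : ZMod q') = 1) :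
    ∃ a : pointRing O L.O', pointRes O L.O' a = residue O (α q) ∧
      a * a - (L.r φ).trace * a + (L.r φ).det = 0 ∧
      (2 * a.1 - ((L.r φ).trace).1) *
          L.f (fullD e ((QuotientGroup.mk u ^ halfExp ((ZMod M)ˣ ⧸ H))⁻¹)) =
        ((L.r φ * L.r s).trace).1 - (((L.r φ).trace).1 - a.1) * ((L.r s).trace).1 := by
  obtain ⟨a, ha1, ha2, ha3⟩ := h.exists_line hpO hsp hdrb L.pointClass L.neb L.rep L.lift L.cont
    L.trace L.det hqQ hA hφ hs hunr hα hreg huq hu'
  exact ⟨a, ha1, ha2, ha3⟩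

end PiecePoint

end FA.RT

end
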