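import Fermat.Agent.RT.TWPoint.Rep

/-!
# Points of a piece

The representation of a point is conjugate to a lift over the point ring, where the twisted good
Hecke elements take their values.
-/

set_option autoImplicit false
set_option linter.unusedSectionVars false
set_option linter.style.haveILetI false
set_option maxHeartbeats 2000000
set_option synthInstance.maxHeartbeats 200000

noncomputable section

open IsLocalRing Matrix FA.HeckeH1 FA.Deform
open FA.Twist (galChar galCharAt twistMat)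
open FA.JTorsion (cycP)
open scoped MatrixGroups

namespace FA.RT

local notation "Qb" => AlgebraicClosure ℚ
local notation "GQ" => AlgebraicClosure ℚ ≃ₐ[ℚ] AlgebraicClosure ℚ
local notation "M2" => Matrix (Fin 2) (Fin 2)

theorem isOpen_ker_residue {R : Type} [CommRing R] [IsLocalRing R] {m : GQ →* M2 R}
    (hm : IsContRep m) : IsOpen ((mapRep (residue R) m).ker : Set GQ) := by
  obtain ⟨L, hL, h⟩ := hm 1
  refine Subgroup.isOpen_mono (H₁ := L.fixingSubgroup) (fun σ hσ => ?_)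
    (IntermediateField.fixingSubgroup_isOpen L)
  refine MonoidHom.mem_ker.mpr (Matrix.ext fun i j => ?_)
  have h1 := h σ ((IntermediateField.mem_fixingSubgroup_iff L σ).mp hσ) i j
  rw [pow_one, ← residue_eq_zero_iff, Matrix.sub_apply, map_sub, sub_eq_zero] at h1
  show residue R (m σ i j) = _
  rw [h1]
  rcases eq_or_ne i j with rfl | hne <;> simp [*]

theorem isOpen_ker_mapRep {k k' : Type} [CommRing k] [CommRing k'] (g : k →+* k')
    {r : GQ →* M2 k} (h : IsOpen (r.ker : Set GQ)) : IsOpen ((mapRep g r).ker : Set GQ) :=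
  Subgroup.isOpen_mono (H₁ := r.ker) (fun σ hσ => by
    refine MonoidHom.mem_ker.mpr ?_
    show g.mapMatrix (r σ) = 1
    rw [MonoidHom.mem_ker.mp hσ, map_one]) h

variable {O : Type} [CommRing O] [IsDomain O] [IsDiscreteValuationRing O]
  [IsAdicComplete (maximalIdeal O) O] [CharZero O]
  {M : ℕ} [NeZero M] {H : Subgroup (ZMod M)ˣ}
  {p : ℕ} [Fact p.Prime] {rb : GQ →* M2 (ResidueField O)} {Q T0 : Finset ℕ} {c0 α : ℕ → O}
  {e : Module.End O (Hom1 (GamH M H) O)}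

/-- A good prime as a unit modulo the level. -/
def gpUnit (ℓ : GP M) : (ZMod M)ˣ :=
  ZMod.unitOfCoprime ℓ.1 (ℓ.2.1.coprime_iff_not_dvd.2 ℓ.2.2)

/-- The twisted Hecke element of a good prime. -/
def twT (e : Module.End O (Hom1 (GamH M H) O)) (ℓ : GP M) : GoodAlg e :=
  goodDia e ((QuotientGroup.mk (gpUnit ℓ) ^ halfExp ((ZMod M)ˣ ⧸ H))⁻¹) * goodT e ℓ

variable {O' : Type} [CommRing O'] [IsDomain O'] [IsDiscreteValuationRing O']
  [IsAdicComplete (maximalIdeal O') O'] [CharZero O'] [Algebra O O']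
  [IsLocalHom (algebraMap O O')] [Module.IsTorsionFree O O']
  {f : FullAlg e →ₐ[O] O'} {z : Hom1 (GamH M H) O'} {Q' : Finset ℕ}
  {η : ∀ q : ℕ, MulChar (ZMod q) O'} {ι : ℤ_[p] →+* O} {m : GQ →* M2 O'}

theorem IsNebSq.residual_unit (hη : IsNebSq f Q Q' η) {q : ℕ} (hq : q ∈ Q') {a : ZMod q}
    (ha : IsUnit a) : residue O' (η q a) = 1 := by
  obtain ⟨v, rfl⟩ := ha
  rw [← sub_eq_zero, ← map_one (residue O'), ← map_sub, residue_eq_zero_iff]
  exact hη.residual q hq v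

theorem IsNebSq.residual_inv (hη : IsNebSq f Q Q' η) {q : ℕ} (hq : q ∈ Q') {a : ZMod q}
    (ha : IsUnit a) : residue O' ((η q)⁻¹ a) = 1 := by
  obtain ⟨v, rfl⟩ := ha
  rw [MulChar.inv_apply, Ring.inverse_unit]
  exact hη.residual_unit hq v⁻¹.isUnit

/-- The Galois character of the nebentypus is residually trivial. -/
theorem IsNebSq.residual_galChar (hη : IsNebSq f Q Q' η) (σ : GQ) :
    residue O' (galChar Q' η σ : O') = 1 := by
  rw [galChar, MonoidHom.finsetProd_apply, Units.coe_prod, map_prod]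
  refine Finset.prod_eq_one fun q hq => ?_
  by_cases h : q.Prime
  · haveI : Fact q.Prime := ⟨h⟩
    rw [galCharAt, dif_pos h, MonoidHom.comp_apply, MulChar.coe_toUnitHom]
    exact hη.residual_unit hq (Units.isUnit _)
  · rw [galCharAt, dif_neg h, MonoidHom.one_apply, Units.val_one, map_one]

variable (h : TWPiece p rb Q T0 c0 α e)

include h

theorem TWPiece.isUnit_cast {ℓ : ℕ} (hℓ : ℓ.Prime) (hℓM : ¬ ℓ ∣ M) {q : ℕ} (hq : q ∈ Q) :
    IsUnit (ℓ : ZMod q) := by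
  obtain ⟨hqp, hqM, -⟩ := h.exact q hq
  exact (ZMod.isUnit_iff_coprime ℓ q).2
    ((Nat.coprime_primes hℓ hqp).2 fun e => hℓM (e ▸ hqM))

theorem TWPiece.prod_neb_natCast (hη : IsNeb f Q Q' η) (ℓ : GP M) :
    ∏ q ∈ Q', η q (ℓ.1 : ZMod q) =
      f (fullD e (QuotientGroup.mk (gpUnit ℓ) ^ halfExp ((ZMod M)ˣ ⧸ H))) := by
  rw [← hη.prod]
  refine Finset.prod_congr rfl fun q hq => congrArg (η q) ?_
  show _ = (ZMod.cast ((gpUnit ℓ : (ZMod M)ˣ) : ZMod M) : ZMod q)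
  rw [show ((gpUnit ℓ : (ZMod M)ˣ) : ZMod M) = (ℓ.1 : ZMod M) from rfl,
    ← ZMod.castHom_apply (h := (h.exact q (hη.subset hq)).2.1), map_natCast]

/-- The twisted element takes the twisted value. -/
theorem TWPiece.hom_twT (hη : IsNeb f Q Q' η) (ℓ : GP M) :
    f (goodToFull e (twT e ℓ)) =
      (∏ q ∈ Q', (η q)⁻¹ (ℓ.1 : ZMod q)) * f (fullT e ⟨ℓ.1, ℓ.2.1⟩) := by
  set g : (ZMod M)ˣ ⧸ H := QuotientGroup.mk (gpUnit ℓ) ^ halfExp ((ZMod M)ˣ ⧸ H) with hg
  rw [twT, map_mul, map_mul, goodToFull_goodT]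
  refine congrArg (· * _) ?_
  show f (fullD e g⁻¹) = _
  have h1 : (∏ q ∈ Q', (η q)⁻¹ (ℓ.1 : ZMod q)) * f (fullD e g) = 1 := by
    rw [hg, ← h.prod_neb_natCast hη ℓ, ← Finset.prod_mul_distrib]
    refine Finset.prod_eq_one fun q hq => ?_
    rw [← MulChar.mul_apply, inv_mul_cancel,
      MulChar.one_apply (h.isUnit_cast ℓ.2.1 ℓ.2.2 (hη.subset hq))]
  have h2 : f (fullD e g⁻¹) * f (fullD e g) = 1 := by
    rw [← map_mul, ← map_mul, inv_mul_cancel, map_one, map_one]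
  calc f (fullD e g⁻¹) = f (fullD e g⁻¹) * ((∏ q ∈ Q', (η q)⁻¹ (ℓ.1 : ZMod q)) * f (fullD e g)) := by
        rw [h1, mul_one]
    _ = (∏ q ∈ Q', (η q)⁻¹ (ℓ.1 : ZMod q)) * (f (fullD e g⁻¹) * f (fullD e g)) := by ring
    _ = _ := by rw [h2, mul_one]

variable [Finite (ResidueField O)] [Module.Finite O O'] [Module.Free O O']

/-- **The lift of a point**, for a square root of the nebentypus. -/
theorem TWPiece.exists_lift_sq (rb_open : IsOpen (rb.ker : Set GQ))
    (hspan : Submodule.span (ResidueField O) (Set.range rb) = ⊤)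
    (hdetrb : ∀ σ, (rb σ).det = residue O (ι ((cycP p σ : ℤ_[p]ˣ) : ℤ_[p])))
    (hz : IsPointClass e f z) (hη : IsNebSq f Q Q' η) (hm : PointRep ι f Q' η m) :
    ∃ r : GQ →* M2 (pointRing O O'),
      mapRep (pointRes O O') r = rb ∧ IsContRep r ∧
      (∀ σ, (r σ).det = algebraMap O _ (ι ((cycP p σ : ℤ_[p]ˣ) : ℤ_[p]))) ∧
      (∀ σ, ((r σ).trace).1 = (m σ).trace) ∧
      ∃ U : M2 O', IsUnit U ∧ ∀ σ, U * m σ = (r σ).map (pointRing O O').val * U := by
  refine exists_point (span_map_eq_top _ _ hspan) m hm.cont hm.det fun σ => ?_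
  rw [AddMonoidHom.map_trace (residue O'), AddMonoidHom.map_trace (ResidueField.map (algebraMap O O'))]
  refine trace_eq_of_frobenius (mapRep (residue O') m)
    (mapRep (ResidueField.map (algebraMap O O')) rb) (isOpen_ker_residue hm.cont)
    (isOpen_ker_mapRep _ rb_open) T0 (fun ℓ hℓ hℓT A hA τ hτ => ?_) σ
  have hℓM : ¬ ℓ ∣ M := fun hd => hℓT (h.mem_T0 ℓ hℓ (Or.inl hd))
  have hℓp : ℓ ≠ p := fun hd => hℓT (h.mem_T0 ℓ hℓ (Or.inr hd))
  refine ⟨?_, ?_⟩
  · show ((m τ).map (residue O')).trace =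
      ((rb τ).map (ResidueField.map (algebraMap O O'))).trace
    rw [← AddMonoidHom.map_trace, ← AddMonoidHom.map_trace, (hm.frob ⟨ℓ, hℓ⟩ hℓM hℓp A hA τ hτ).1,
      map_mul, map_prod, Finset.prod_eq_one (fun q hq => hη.residual_inv hq
        (h.isUnit_cast hℓ hℓM (hη.subset hq))), one_mul, ← h.frob ℓ hℓ hℓT A hA τ hτ]
    rw [ResidueField.map_residue, ← sub_eq_zero, ← map_sub, residue_eq_zero_iff]
    exact sub_mem_of_nilp hz (h.nilT ⟨ℓ, hℓ⟩ hℓT)
  · show ((m τ).map (residue O')).det = ((rb τ).map (ResidueField.map (algebraMap O O'))).det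
    rw [← RingHom.mapMatrix_apply, ← RingHom.mapMatrix_apply, ← RingHom.map_det, ← RingHom.map_det,
      hm.det, hdetrb]
    exact (ResidueField.map_residue _ _).symm

/-- **The lift of a point.** -/
theorem TWPiece.exists_lift (rb_open : IsOpen (rb.ker : Set GQ))
    (hspan : Submodule.span (ResidueField O) (Set.range rb) = ⊤)
    (hdetrb : ∀ σ, (rb σ).det = residue O (ι ((cycP p σ : ℤ_[p]ˣ) : ℤ_[p])))
    (hz : IsPointClass e f z) (hη : IsNeb f Q Q' η) (hm : PointRep ι f Q' η m) :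
    ∃ r : GQ →* M2 (pointRing O O'),
      mapRep (pointRes O O') r = rb ∧ IsContRep r ∧
      (∀ σ, (r σ).det = algebraMap O _ (ι ((cycP p σ : ℤ_[p]ˣ) : ℤ_[p]))) ∧
      (∀ σ, ((r σ).trace).1 = (m σ).trace) ∧
      ∃ U : M2 O', IsUnit U ∧ ∀ σ, U * m σ = (r σ).map (pointRing O O').val * U :=
  h.exists_lift_sq rb_open hspan hdetrb hz hη.toIsNebSq hm

/-- A good Hecke value lies in the point ring. -/
theorem TWPiece.fullT_mem (hη : IsNebSq f Q Q' η) (hm : PointRep ι f Q' η m)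
    {r : GQ →* M2 (pointRing O O')} (hrt : ∀ σ, ((r σ).trace).1 = (m σ).trace)
    (ℓ : Nat.Primes) (hℓM : ¬ (ℓ : ℕ) ∣ M) (hℓp : (ℓ : ℕ) ≠ p) :
    f (fullT e ℓ) ∈ pointRing O O' := by
  obtain ⟨A, hA⟩ := FA.Deform.exists_liesOverPrime ℓ.2
  obtain ⟨τ, hτ⟩ := FA.Deform.exists_isFrobeniusAt ℓ.2 hA
  have h1 := (hm.frob ℓ hℓM hℓp A hA τ hτ).1
  have h2 : f (fullT e ℓ) = (∏ q ∈ Q', η q ((ℓ : ℕ) : ZMod q)) * (m τ).trace := by
    rw [h1, ← mul_assoc, ← Finset.prod_mul_distrib, Finset.prod_eq_one (fun q hq => by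
      rw [← MulChar.mul_apply, mul_inv_cancel,
        MulChar.one_apply (h.isUnit_cast ℓ.2 hℓM (hη.subset hq))]), one_mul]
  rw [h2, ← hrt τ]
  refine mul_mem (prod_mem fun q hq => ⟨1, ?_⟩) (r τ).trace.2
  rw [map_one, hη.residual_unit hq (h.isUnit_cast ℓ.2 hℓM (hη.subset hq))]

/-- **The values of the good algebra lie in the point ring.** -/
theorem TWPiece.goodAlg_mem (rb_open : IsOpen (rb.ker : Set GQ))
    (hspan : Submodule.span (ResidueField O) (Set.range rb) = ⊤)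
    (hdetrb : ∀ σ, (rb σ).det = residue O (ι ((cycP p σ : ℤ_[p]ˣ) : ℤ_[p])))
    (hz : IsPointClass e f z) (hη : IsNeb f Q Q' η) (hm : PointRep ι f Q' η m)
    (nilP : ∀ hp : p.Prime, ¬ p ∣ M → ∃ cp : O,
      Nilp e (⟨_, Tpair_mem M H O ⟨p, hp⟩⟩ - algebraMap O (pairAlg M H O) cp))
    (x : GoodAlg e) : f (goodToFull e x) ∈ pointRing O O' := by
  obtain ⟨r, -, -, -, htr, -⟩ := h.exists_lift rb_open hspan hdetrb hz hη hm
  obtain ⟨⟨⟨a, ha'⟩, ha⟩, rfl⟩ := Ideal.Quotient.mk_surjective x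
  rw [goodToFull_mk]
  have hdia : ∀ y, f (fullD e y) ∈ pointRing O O' := fun y => by
    have h1 : f (fullD e y) = (f (fullD e y) - 1) + 1 := (sub_add_cancel _ _).symm
    rw [h1]
    exact add_mem (mem_pointRing_of_mem_maximalIdeal (h.fullD_sub_one_mem hz y)) (one_mem _)
  have hT : ∀ ℓ : GP M, f (fullT e ⟨ℓ.1, ℓ.2.1⟩) ∈ pointRing O O' := fun ℓ => by
    by_cases hℓp : ℓ.1 = p
    · obtain ⟨v, hv⟩ := ℓ
      obtain rfl : v = p := hℓp
      obtain ⟨cp, hcp⟩ := nilP hv.1 hv.2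
      rw [← sub_add_cancel (f (fullT e ⟨v, hv.1⟩)) (algebraMap O O' cp)]
      exact add_mem (mem_pointRing_of_mem_maximalIdeal (sub_mem_of_nilp hz hcp))
        (Subalgebra.algebraMap_mem _ _)
    · obtain ⟨A, hA⟩ := FA.Deform.exists_liesOverPrime ℓ.2.1
      obtain ⟨τ, hτ⟩ := FA.Deform.exists_isFrobeniusAt ℓ.2.1 hA
      have h1 := (hm.frob ⟨ℓ.1, ℓ.2.1⟩ ℓ.2.2 hℓp A hA τ hτ).1
      have h2 : f (fullT e ⟨ℓ.1, ℓ.2.1⟩) = (∏ q ∈ Q', η q (ℓ.1 : ZMod q)) * (m τ).trace := by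
        rw [h1, ← mul_assoc, ← Finset.prod_mul_distrib, Finset.prod_eq_one (fun q hq => by
          rw [← MulChar.mul_apply, mul_inv_cancel,
            MulChar.one_apply (h.isUnit_cast ℓ.2.1 ℓ.2.2 (hη.subset hq))]), one_mul]
      rw [h2, h.prod_neb_natCast hη ℓ, ← htr τ]
      exact mul_mem (hdia _) (r τ).trace.2
  suffices ∀ (y) (hy : y ∈ pairGood M H O), f (Ideal.Quotient.mk (annFull e) y) ∈ pointRing O O' from
    this _ ha
  intro y hy
  induction hy using Algebra.adjoin_induction with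
  | mem u hu =>
    rcases hu with ⟨ℓ, rfl⟩ | ⟨u, rfl⟩
    · exact hT ℓ
    · exact hdia u
  | algebraMap c =>
    rw [show Ideal.Quotient.mk (annFull e) (algebraMap O (pairAlg M H O) c) =
      algebraMap O (FullAlg e) c from rfl, f.commutes]
    exact Subalgebra.algebraMap_mem _ _
  | add u v _ _ hu hv => rw [map_add, map_add]; exact add_mem hu hv
  | mul u v _ _ hu hv => rw [map_mul, map_mul]; exact mul_mem hu hv

end FA.RT
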