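import Fermat.Agent.RT.TWPoint.Basic

/-!
# Representations of points of a piece

Every point of the algebra of a piece becomes, over a finite extension, the eigen system of a
representation with cyclotomic determinant, once the nebentypus is twisted away.
-/

set_option autoImplicit false
set_option linter.unusedSectionVars false
set_option linter.style.haveILetI false
set_option maxHeartbeats 2000000
set_option synthInstance.maxHeartbeats 200000

noncomputable section

open IsLocalRing Matrix FA.HeckeH1 FA.Deform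
open FA.Twist (galChar galCharAt twistMat)
open FA.JTorsion (cycP)
open scoped MatrixGroups

namespace FA.RT

local notation "Qb" => AlgebraicClosure ℚ
local notation "GQ" => AlgebraicClosure ℚ ≃ₐ[ℚ] AlgebraicClosure ℚ
local notation "M2" => Matrix (Fin 2) (Fin 2)

/-- Extension of the values of a family of characters. -/
theorem galChar_ringHomComp {A B : Type} [CommRing A] [CommRing B] (g : A →+* B) (Q : Finset ℕ)
    (η : ∀ q : ℕ, MulChar (ZMod q) A) :
    galChar Q (fun q => (η q).ringHomComp g) = (Units.map g.toMonoidHom).comp (galChar Q η) := by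
  refine MonoidHom.ext fun σ => ?_
  rw [galChar, galChar, MonoidHom.finsetProd_apply, MonoidHom.comp_apply,
    MonoidHom.finsetProd_apply, map_prod]
  refine Finset.prod_congr rfl fun q _ => Units.ext ?_
  by_cases hq : q.Prime
  · haveI : Fact q.Prime := ⟨hq⟩
    rw [galCharAt, dif_pos hq, galCharAt, dif_pos hq]
    rfl
  · rw [galCharAt, dif_neg hq, galCharAt, dif_neg hq]
    simp

theorem ringHomComp_inv_apply {A B : Type} [CommRing A] [CommRing B] (g : A →+* B) {q : ℕ}
    (η : MulChar (ZMod q) A) (a : ZMod q) : (η.ringHomComp g)⁻¹ a = g (η⁻¹ a) := by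
  rw [MulChar.inv_apply, MulChar.inv_apply, MulChar.ringHomComp_apply]

variable {O : Type} [CommRing O] [IsDomain O] [IsDiscreteValuationRing O]
  [IsAdicComplete (maximalIdeal O) O] [CharZero O]
  {M : ℕ} [NeZero M] {H : Subgroup (ZMod M)ˣ}
  {p : ℕ} [Fact p.Prime] {rb : GQ →* M2 (ResidueField O)} {Q T0 : Finset ℕ} {c0 α : ℕ → O}
  {e : Module.End O (Hom1 (GamH M H) O)}

/-- The representation of a point. -/
structure PointRep {O' : Type} [CommRing O'] [IsLocalRing O'] [Algebra O O']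
    (ι : ℤ_[p] →+* O) (f : FullAlg e →ₐ[O] O') (Q' : Finset ℕ)
    (η : ∀ q : ℕ, MulChar (ZMod q) O') (m : GQ →* M2 O') : Prop where
  cont : IsContRep m
  twist_cont : IsContRep (twistMat (galChar Q' η) m)
  frob : ∀ ℓ : Nat.Primes, ¬ (ℓ : ℕ) ∣ M → (ℓ : ℕ) ≠ p → ∀ A : ValuationSubring Qb,
    A.LiesOverPrime ℓ → ∀ σ : GQ, A.IsFrobeniusAt σ ℓ →
      (m σ).trace = (∏ q ∈ Q', (η q)⁻¹ ((ℓ : ℕ) : ZMod q)) * f (fullT e ℓ) ∧
      (twistMat (galChar Q' η) m σ).trace = f (fullT e ℓ) ∧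
      (twistMat (galChar Q' η) m σ).det =
        ((ℓ : ℕ) : O') * ∏ q ∈ Q', η q ((ℓ : ℕ) : ZMod q) ^ 2
  det : ∀ σ, (m σ).det = algebraMap O O' (ι ((cycP p σ : ℤ_[p]ˣ) : ℤ_[p]))
  unr : ∀ ℓ : ℕ, ℓ.Prime → ¬ ℓ ∣ M → ℓ ≠ p → ∀ A : ValuationSubring Qb, A.LiesOverPrime ℓ →
    ∀ σ ∈ A.inertiaSubgroupIn ℚ, m σ = 1

variable [Finite (ResidueField O)] [Finite (GamH M ⊤ ⧸ (GamH M H).subgroupOf (GamH M ⊤))]

set_option maxHeartbeats 4000000 in
/-- **A point with a square root of its nebentypus has a representation.** -/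
theorem TWPiece.exists_rep_of_neb (h : TWPiece p rb Q T0 c0 α e)
    (hpO : (p : O) ∈ maximalIdeal O) (ι : ℤ_[p] →+* O) (P : AlgPoint O (FullAlg e))
    {Q' : Finset ℕ} {η : ∀ q : ℕ, MulChar (ZMod q) P.B} (hη : IsNebSq P.hom Q Q' η) :
    ∃ (O' : Type) (_ : CommRing O') (_ : IsDomain O') (_ : IsDiscreteValuationRing O')
      (_ : IsAdicComplete (maximalIdeal O') O') (_ : Finite (ResidueField O')) (_ : CharZero O')
      (_ : Algebra O O') (_ : Module.Finite O O') (_ : Module.Free O O')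
      (_ : IsLocalHom (algebraMap O O')) (g : P.B →ₐ[O] O') (_ : Function.Injective g)
      (z : Hom1 (GamH M H) O') (m : GQ →* M2 O'),
      IsPointClass e (g.comp P.hom) z ∧
      IsNebSq (g.comp P.hom) Q Q' (fun q => (η q).ringHomComp g.toRingHom) ∧
      PointRep ι (g.comp P.hom) Q' (fun q => (η q).ringHomComp g.toRingHom) m := by
  classical
  haveI : Module.IsTorsionFree O P.B := inferInstance
  obtain ⟨z₀, hz₀⟩ := exists_pointClass e h.idem h.comm P.hom
  have hpB : (p : P.B) ∈ maximalIdeal P.B := by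
    have hle : (maximalIdeal O).map (algebraMap O P.B) ≤ maximalIdeal P.B :=
      ((local_hom_TFAE (algebraMap O P.B)).out 0 2).mp (inferInstance : IsLocalHom (algebraMap O P.B))
    have := hle (Ideal.mem_map_of_mem _ hpO)
    rwa [map_natCast] at this
  let S : Finset ℕ := insert p M.primeFactors
  have hS : ∀ q : ℕ, q.Prime → q ∣ M → q ∈ S := fun q hq hqM =>
    Finset.mem_insert_of_mem (Nat.mem_primeFactors.2 ⟨hq, hqM, NeZero.ne M⟩)
  have hSmem : ∀ ℓ : ℕ, ℓ.Prime → ¬ ℓ ∣ M → ℓ ≠ p → ℓ ∉ S := fun ℓ hℓ hℓM hℓp => by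
    simp [S, Nat.mem_primeFactors, hℓ, hℓM, hℓp]
  let c : ℕ → P.B := fun ℓ => if hℓ : ℓ.Prime then P.hom (fullT e ⟨ℓ, hℓ⟩) else 0
  obtain ⟨-, -, O', i₁, i₂, i₃, i₄, i₅, i₆, i₇, i₈, i₉, hinj, -, m, hm, htw, hfrob, hunr⟩ :=
    FA.Twist.exists_rep_of_nebentypus p P.B hpB M H S (Finset.mem_insert_self _ _) hS Q' η
      (fun q hq => ⟨(h.exact q (hη.subset hq)).1, (h.exact q (hη.subset hq)).2.1,
        (h.exact q (hη.subset hq)).2.2, hη.sq_ne q hq⟩)
      z₀ (hz₀.mem_Par h.par) (fun h0 => hz₀.1 (by rw [h0]; exact zero_mem _))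
      (fun g => by
        rw [← diaHom_mk, hz₀.dia_act, ← fullD_apply]
        exact congrArg (· • z₀) (hη.prod_sq (ulHom M g)).symm) c
      (fun ℓ hℓ hℓS => by
        rw [show c ℓ = P.hom (fullT e ⟨ℓ, hℓ.out⟩) from dif_pos hℓ.out]
        exact hz₀.Tc_act ⟨ℓ, hℓ.out⟩)
  letI alg : Algebra O O' := ((algebraMap P.B O').comp (algebraMap O P.B)).toAlgebra
  haveI : IsScalarTower O P.B O' := IsScalarTower.of_algebraMap_eq' rfl
  haveI : Module.Finite O O' := Module.Finite.trans P.B O'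
  haveI : IsLocalHom (algebraMap O O') :=
    ⟨fun a ha => (isUnit_of_map_unit (algebraMap O P.B) a) (isUnit_of_map_unit (algebraMap P.B O') _ ha)⟩
  have hinjO : Function.Injective (algebraMap O O') :=
    hinj.comp (Module.isTorsionFree_iff_algebraMap_injective.mp inferInstance)
  haveI : Module.IsTorsionFree O O' := Module.isTorsionFree_iff_algebraMap_injective.mpr hinjO
  haveI : Module.Free O O' := inferInstance
  let f : FullAlg e →ₐ[O] O' := (IsScalarTower.toAlgHom O P.B O').comp P.hom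
  obtain ⟨z, hz⟩ := exists_pointClass e h.idem h.comm f
  have hθ : galChar Q' (fun q => (η q).ringHomComp (IsScalarTower.toAlgHom O P.B O').toRingHom) =
      (Units.map (algebraMap P.B O').toMonoidHom).comp (galChar Q' η) :=
    galChar_ringHomComp (algebraMap P.B O') _ _
  refine ⟨O', i₁, i₂, i₃, i₄, i₅, i₆, alg, inferInstance, inferInstance, inferInstance,
    IsScalarTower.toAlgHom O P.B O', hinj, z, m, hz, ?_, ?_⟩
  · refine ⟨hη.subset, fun q hq h1 => hη.sq_ne q hq ?_, fun u => ?_, fun q hq v => ?_⟩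
    · refine MulChar.ext fun v => hinj ?_
      have h2 := congrArg (fun θ : MulChar (ZMod q) O' => θ v) h1
      simp only [MulChar.pow_apply_coe, MulChar.one_apply_coe, MulChar.ringHomComp_apply] at h2
      rw [MulChar.pow_apply_coe, MulChar.one_apply_coe, map_one, map_pow]
      exact h2
    · refine Eq.trans ?_ (congrArg (algebraMap P.B O') (hη.prod_sq u))
      rw [map_prod]
      exact Finset.prod_congr rfl fun q _ => by rw [map_pow]; rfl
    · simp only [MulChar.ringHomComp_apply]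
      show algebraMap P.B O' (η q v) - 1 ∈ _
      rw [← map_one (algebraMap P.B O'), ← map_sub]
      have hle : (maximalIdeal P.B).map (algebraMap P.B O') ≤ maximalIdeal O' :=
        ((local_hom_TFAE (algebraMap P.B O')).out 0 2).mp
          (inferInstance : IsLocalHom (algebraMap P.B O'))
      exact hle (Ideal.mem_map_of_mem _ (hη.residual q hq v))
  · refine ⟨hm, by rw [hθ]; exact htw, fun ℓ hℓM hℓp A hA σ hσ => ?_, fun σ => ?_,
      fun ℓ hℓ hℓM hℓp A hA σ hσ => (hunr ℓ hℓ hℓM hℓp A hA σ hσ).1⟩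
    · obtain ⟨h1, -, h3, h4⟩ := hfrob ℓ ℓ.2 (hSmem ℓ ℓ.2 hℓM hℓp) A hA σ hσ
      have hc : algebraMap P.B O' (c ℓ) = f (fullT e ℓ) := by
        rw [show c (ℓ : ℕ) = P.hom (fullT e ℓ) from dif_pos ℓ.2]
        rfl
      rw [hθ, h1, h3, h4, map_mul, map_prod, map_prod, hc]
      refine ⟨?_, rfl, ?_⟩
      · exact congrArg (· * f (fullT e ℓ))
          (Finset.prod_congr rfl fun q _ => (ringHomComp_inv_apply _ _ _).symm)
      · exact congrArg (_ * ·) (Finset.prod_congr rfl fun q _ => by rw [map_pow]; rfl)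
    · have hle : (maximalIdeal O).map (algebraMap O O') ≤ maximalIdeal O' :=
        ((local_hom_TFAE (algebraMap O O')).out 0 2).mp (inferInstance : IsLocalHom (algebraMap O O'))
      refine det_eq_cycP (p := p) ?_ ((algebraMap O O').comp ι) hm S
        (fun q hq hqS A hA τ hτ => (hfrob q hq hqS A hA τ hτ).2.1) σ
      have := hle (Ideal.mem_map_of_mem _ hpO)
      rwa [map_natCast] at this

/-- **Every point has a representation.** -/
theorem TWPiece.exists_rep (h : TWPiece p rb Q T0 c0 α e) (hp2 : p ≠ 2)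
    (hpO : (p : O) ∈ maximalIdeal O) (ι : ℤ_[p] →+* O) (P : AlgPoint O (FullAlg e)) :
    ∃ (O' : Type) (_ : CommRing O') (_ : IsDomain O') (_ : IsDiscreteValuationRing O')
      (_ : IsAdicComplete (maximalIdeal O') O') (_ : Finite (ResidueField O')) (_ : CharZero O')
      (_ : Algebra O O') (_ : Module.Finite O O') (_ : Module.Free O O')
      (_ : IsLocalHom (algebraMap O O'))
      (f : FullAlg e →ₐ[O] O') (z : Hom1 (GamH M H) O') (Q' : Finset ℕ)
      (η : ∀ q : ℕ, MulChar (ZMod q) O') (m : GQ →* M2 O'),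
      IsPointClass e f z ∧ IsNeb f Q Q' η ∧ PointRep ι f Q' η m ∧
      ∀ x, f x = 0 → P.hom x = 0 := by
  obtain ⟨z₀, hz₀⟩ := exists_pointClass e h.idem h.comm P.hom
  obtain ⟨Q', η, hη⟩ := h.exists_neb hp2 hz₀
  obtain ⟨O', i₁, i₂, i₃, i₄, i₅, i₆, i₇, i₈, i₉, i₁₀, g, hg, z, m, hz, hη', hm⟩ :=
    h.exists_rep_of_neb hpO ι P hη.toIsNebSq
  refine ⟨O', i₁, i₂, i₃, i₄, i₅, i₆, i₇, i₈, i₉, i₁₀, g.comp P.hom, z, Q', _, m, hz,
    ⟨hη', fun u => ?_⟩, hm, fun x hx => hg (hx.trans (map_zero _).symm)⟩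
  refine Eq.trans ?_ (congrArg g (hη.prod u))
  rw [map_prod]
  rfl

end FA.RT
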