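import Fermat.Agent.RT.TWPoint.Line
import Fermat.Agent.RT.FlatPoint
import Fermat.Agent.RT.LiftSetting
import Fermat.Agent.HeckeH1.LevelSet

/-!
# Separating lifts of a piece

The points of the algebra of a piece give lifts of the residual representation which separate the
algebra of good operators, take the twisted Hecke elements to traces of Frobenius elements, and
read the diamonds off inertia at the Taylor–Wiles primes.
-/

set_option autoImplicit false
set_option linter.unusedSectionVars false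
set_option linter.style.haveILetI false
set_option maxHeartbeats 2000000
set_option synthInstance.maxHeartbeats 200000

noncomputable section

open IsLocalRing Matrix FA.HeckeH1 FA.Deform
open FA.Twist (galChar galCharAt twistMat)
open FA.JTorsion (cycP cycK)
open scoped MatrixGroups

namespace FA.RT

local notation "Qb" => AlgebraicClosure ℚ
local notation "GQ" => AlgebraicClosure ℚ ≃ₐ[ℚ] AlgebraicClosure ℚ
local notation "M2" => Matrix (Fin 2) (Fin 2)

variable {O : Type} [CommRing O] [IsDomain O] [IsDiscreteValuationRing O]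
  [IsAdicComplete (maximalIdeal O) O] [CharZero O]
  {M : ℕ} [NeZero M] {H : Subgroup (ZMod M)ˣ}

/-- The good elements away from one prime. -/
def goodAway (e : Module.End O (Hom1 (GamH M H) O)) (p : ℕ) : Subalgebra O (GoodAlg e) :=
  Algebra.adjoin O (Set.range (fun ℓ : {ℓ : GP M // ℓ.1 ≠ p} => goodT e ℓ.1) ∪
    Set.range (goodDia e))

theorem goodT_mem_goodAway (e : Module.End O (Hom1 (GamH M H) O)) {p : ℕ} (ℓ : GP M)
    (h : ℓ.1 ≠ p) : goodT e ℓ ∈ goodAway e p :=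
  Algebra.subset_adjoin (Or.inl ⟨⟨ℓ, h⟩, rfl⟩)

theorem goodDia_mem_goodAway (e : Module.End O (Hom1 (GamH M H) O)) (p : ℕ)
    (x : (ZMod M)ˣ ⧸ H) : goodDia e x ∈ goodAway e p :=
  Algebra.subset_adjoin (Or.inr ⟨x, rfl⟩)

theorem twT_mem_goodAway (e : Module.End O (Hom1 (GamH M H) O)) {p : ℕ} (ℓ : GP M)
    (h : ℓ.1 ≠ p) : twT e ℓ ∈ goodAway e p :=
  mul_mem (goodDia_mem_goodAway e p _) (goodT_mem_goodAway e ℓ h)

theorem coreAlg_le_goodAway (e : Module.End O (Hom1 (GamH M H) O)) {P : Set ℕ} {p : ℕ}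
    (hp : p ∉ P) : coreAlg e P ≤ goodAway e p := by
  refine Algebra.adjoin_le ?_
  rintro _ (⟨ℓ, hℓ, rfl⟩ | ⟨x, rfl⟩)
  · exact goodT_mem_goodAway e ℓ fun h => hp (h ▸ hℓ)
  · exact goodDia_mem_goodAway e p x

/-- The residual value of the Hecke operator at `p` is that of a constant. -/
def NilP (e : Module.End O (Hom1 (GamH M H) O)) (p : ℕ) : Prop :=
  ∀ hp : p.Prime, ¬ p ∣ M → ∃ cp : O,
    Nilp e (⟨_, Tpair_mem M H O ⟨p, hp⟩⟩ - algebraMap O (pairAlg M H O) cp)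

variable {p : ℕ} [Fact p.Prime] {rb : GQ →* M2 (ResidueField O)} {Q T0 : Finset ℕ} {c0 α : ℕ → O}
  {e : Module.End O (Hom1 (GamH M H) O)}

/-- A point of a piece with its lift. -/
structure PiecePt (ι : ℤ_[p] →+* O) (rb : GQ →* M2 (ResidueField O)) (Q : Finset ℕ)
    (e : Module.End O (Hom1 (GamH M H) O)) where
  /-- the coefficients -/
  R : Type
  [commRing : CommRing R]
  [isDomain : IsDomain R]
  [dvr : IsDiscreteValuationRing R]
  [complete : IsAdicComplete (maximalIdeal R) R]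
  [finiteResidue : Finite (ResidueField R)]
  [charZero : CharZero R]
  [algebra : Algebra O R]
  [moduleFinite : Module.Finite O R]
  [moduleFree : Module.Free O R]
  [isLocalHom : IsLocalHom (algebraMap O R)]
  /-- the values -/
  f : FullAlg e →ₐ[O] R
  /-- the class -/
  z : Hom1 (GamH M H) R
  /-- the ramified primes of the nebentypus -/
  Q' : Finset ℕ
  /-- the nebentypus -/
  η : ∀ q : ℕ, MulChar (ZMod q) R
  /-- the representation -/
  m : GQ →* M2 R
  hz : IsPointClass e f z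
  hη : IsNeb f Q Q' η
  hm : PointRep ι f Q' η m
  /-- the lift -/
  r : GQ →* M2 (pointRing O R)
  lift : mapRep (pointRes O R) r = rb
  cont : IsContRep r
  det : ∀ σ, (r σ).det = algebraMap O _ (ι ((cycP p σ : ℤ_[p]ˣ) : ℤ_[p]))
  trace : ∀ σ, ((r σ).trace).1 = (m σ).trace
  conj : ∃ U : M2 R, IsUnit U ∧ ∀ σ, U * m σ = (r σ).map (pointRing O R).val * U

attribute [instance] PiecePt.commRing PiecePt.isDomain PiecePt.dvr PiecePt.complete
  PiecePt.finiteResidue PiecePt.charZero PiecePt.algebra PiecePt.moduleFinite PiecePt.moduleFree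
  PiecePt.isLocalHom

namespace PiecePt

variable {ι : ℤ_[p] →+* O} (D : PiecePt ι rb Q e)

instance isTorsionFree : Module.IsTorsionFree O D.R := inferInstance

/-- The value of the good algebra. -/
def val : GoodAlg e →ₐ[O] D.R := D.f.comp (goodToFull e)

theorem val_apply (x : GoodAlg e) : D.val x = D.f (goodToFull e x) := rfl

variable (h : TWPiece p rb Q T0 c0 α e)

include h in
theorem val_twT (ℓ : GP M) (hℓp : ℓ.1 ≠ p) {A : ValuationSubring Qb} (hA : A.LiesOverPrime ℓ.1)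
    {σ : GQ} (hσ : A.IsFrobeniusAt σ ℓ.1) : D.val (twT e ℓ) = ((D.r σ).trace).1 := by
  rw [D.val_apply, h.hom_twT D.hη ℓ, D.trace,
    (D.hm.frob ⟨ℓ.1, ℓ.2.1⟩ ℓ.2.2 hℓp A hA σ hσ).1]

include h in
theorem val_goodDia_mem (x : (ZMod M)ˣ ⧸ H) : D.val (goodDia e x) ∈ pointRing O D.R := by
  show D.f (fullD e x) ∈ _
  rw [← sub_add_cancel (D.f (fullD e x)) 1]
  exact add_mem (mem_pointRing_of_mem_maximalIdeal (h.fullD_sub_one_mem D.hz x)) (one_mem _)

include h in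
theorem val_goodT_mem (ℓ : GP M) (hℓp : ℓ.1 ≠ p) : D.val (goodT e ℓ) ∈ pointRing O D.R := by
  obtain ⟨A, hA⟩ := FA.Deform.exists_liesOverPrime ℓ.2.1
  obtain ⟨τ, hτ⟩ := FA.Deform.exists_isFrobeniusAt ℓ.2.1 hA
  set g : (ZMod M)ˣ ⧸ H := QuotientGroup.mk (gpUnit ℓ) ^ halfExp ((ZMod M)ˣ ⧸ H) with hg
  have h1 : goodT e ℓ = goodDia e g * twT e ℓ := by
    rw [twT, ← mul_assoc, ← map_mul, ← hg, mul_inv_cancel, map_one, one_mul]
  rw [h1, map_mul, D.val_twT h ℓ hℓp hA hτ]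
  exact mul_mem (D.val_goodDia_mem h g) (D.r τ).trace.2

include h in
theorem val_mem_of_goodAway {x : GoodAlg e} (hx : x ∈ goodAway e p) :
    D.val x ∈ pointRing O D.R := by
  induction hx using Algebra.adjoin_induction with
  | mem y hy =>
    rcases hy with ⟨ℓ, rfl⟩ | ⟨u, rfl⟩
    · exact D.val_goodT_mem h ℓ.1 ℓ.2
    · exact D.val_goodDia_mem h u
  | algebraMap c => rw [D.val.commutes]; exact Subalgebra.algebraMap_mem _ _
  | add u v _ _ hu hv => rw [map_add]; exact add_mem hu hv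
  | mul u v _ _ hu hv => rw [map_mul]; exact mul_mem hu hv

theorem eq_one_of_m {σ : GQ} (h1 : D.m σ = 1) : D.r σ = 1 := by
  obtain ⟨U, hU, hc⟩ := D.conj
  have h2 : (D.r σ).map (pointRing O D.R).val = 1 :=
    hU.mul_right_cancel (by rw [← hc, h1, mul_one, one_mul])
  refine Matrix.ext fun i j => Subtype.ext ?_
  have h3 := congrFun (congrFun h2 i) j
  rcases eq_or_ne i j with rfl | hne
  · simpa using h3
  · simpa [hne] using h3

variable [Finite (ResidueField O)]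

include h in
/-- The twisted system of a point is that of a homomorphism of a Hecke algebra of cusp forms. -/
theorem exists_heckeHom :
    ∃ (N : ℕ) (_ : NeZero N) (S : Finset ℕ) (χ : CuspForm.heckeAlgebra N 2 (↑S : Set ℕ) →+*
        pointRing O D.R),
      (∀ q : ℕ, q.Prime → q ∣ N → q ∈ S ∧ q ∣ M) ∧ p ∈ S ∧
      ∀ (ℓ : ℕ) (hℓ : ℓ.Prime) (hℓN : ¬ ℓ ∣ N) (hℓS : ℓ ∉ (↑S : Set ℕ)),
        ∀ A : ValuationSubring Qb, A.LiesOverPrime ℓ → ∀ τ : GQ, A.IsFrobeniusAt τ ℓ →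
          (D.r τ).trace = χ (CuspForm.heckeAlgebra.T (k := 2) hℓ hℓN hℓS) ∧
          (D.r τ).det = (ℓ : pointRing O D.R) := by
  classical
  let S : Finset ℕ := insert p M.primeFactors
  have hS : ∀ r : ℕ, r.Prime → r ∣ M → r ∈ S := fun r hr hrM =>
    Finset.mem_insert_of_mem (Nat.mem_primeFactors.2 ⟨hr, hrM, NeZero.ne M⟩)
  let c : ℕ → D.R := fun ℓ => if hℓ : ℓ.Prime then D.f (fullT e ⟨ℓ, hℓ⟩) else 0
  obtain ⟨z', hz'P, hz'0, hz'e⟩ := FA.Twist.exists_twisted D.η S D.Q' M H hS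
    (fun r hr => ⟨(h.exact r (D.hη.subset hr)).1, (h.exact r (D.hη.subset hr)).2.1,
      (h.exact r (D.hη.subset hr)).2.2, D.hη.sq_ne r hr⟩)
    D.z (D.hz.mem_Par h.par) (fun h0 => D.hz.1 (by rw [h0]; exact zero_mem _))
    (fun g => by
      rw [← diaHom_mk, D.hz.dia_act, ← fullD_apply]
      exact congrArg (· • D.z) (D.hη.prod_sq (ulHom M g)).symm) c
    (fun ℓ hℓ hℓS => by
      rw [show c ℓ = D.f (fullT e ⟨ℓ, hℓ.out⟩) from dif_pos hℓ.out]
      exact D.hz.Tc_act ⟨ℓ, hℓ.out⟩)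
  haveI hne : NeZero (M * ∏ r ∈ D.Q', r) :=
    ⟨mul_ne_zero (NeZero.ne M) (Finset.prod_ne_zero_iff.2 fun r hr =>
      (h.exact r (D.hη.subset hr)).1.ne_zero)⟩
  have hdvd : ∀ ℓ : ℕ, ℓ.Prime → ℓ ∣ M * ∏ r ∈ D.Q', r → ℓ ∣ M := fun ℓ hℓ hd => by
    rcases (Nat.Prime.dvd_mul hℓ).1 hd with hd | hd
    · exact hd
    · obtain ⟨r, hr, hd⟩ := (Prime.dvd_finsetProd_iff hℓ.prime _).1 hd
      rw [(Nat.prime_dvd_prime_iff_eq hℓ (h.exact r (D.hη.subset hr)).1).1 hd]
      exact (h.exact r (D.hη.subset hr)).2.1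
  have hS' : ∀ q : ℕ, q.Prime → q ∣ M * ∏ r ∈ D.Q', r → q ∈ S :=
    fun q hq hd => hS q hq (hdvd q hq hd)
  obtain ⟨χ, hχ⟩ := FA.Twist.exists_point (M * ∏ r ∈ D.Q', r) S hS' hz'P hz'0
    (fun ℓ => (∏ r ∈ D.Q', (D.η r)⁻¹ (ℓ : ZMod r)) * c ℓ) hz'e
  have hval : ∀ (ℓ : ℕ) (hℓ : ℓ.Prime) (hℓN : ¬ ℓ ∣ M * ∏ r ∈ D.Q', r)
      (hℓS : ℓ ∉ (↑S : Set ℕ)), ∀ A : ValuationSubring Qb, A.LiesOverPrime ℓ →
      ∀ τ : GQ, A.IsFrobeniusAt τ ℓ →
        ((D.r τ).trace).1 = χ (CuspForm.heckeAlgebra.T (k := 2) hℓ hℓN hℓS) := by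
    intro ℓ hℓ hℓN hℓS A hA τ hτ
    have hℓp : ℓ ≠ p := fun hd => hℓS (Finset.mem_coe.2 (hd ▸ Finset.mem_insert_self _ _))
    rw [hχ, D.trace, (D.hm.frob ⟨ℓ, hℓ⟩ (fun hd => hℓS (Finset.mem_coe.2 (hS ℓ hℓ hd))) hℓp A hA τ hτ).1]
    show _ = _ * c ℓ
    rw [show c ℓ = D.f (fullT e ⟨ℓ, hℓ⟩) from dif_pos hℓ]
  have hmem : ∀ x, χ x ∈ pointRing O D.R := by
    rintro ⟨t, ht⟩
    induction ht using Algebra.adjoin_induction with
    | mem y hy =>
      rcases hy with ⟨ℓ, hℓ, hℓN, hℓS, rfl⟩ | ⟨q, hqN, hq, hqS, rfl⟩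
      · obtain ⟨A, hA⟩ := FA.Deform.exists_liesOverPrime hℓ
        obtain ⟨τ, hτ⟩ := FA.Deform.exists_isFrobeniusAt hℓ hA
        have := hval ℓ hℓ hℓN hℓS A hA τ hτ
        show χ (CuspForm.heckeAlgebra.T (k := 2) hℓ hℓN hℓS) ∈ _
        rw [← this]
        exact (D.r τ).trace.2
      · exact absurd (Finset.mem_coe.2 (hS' q hq hqN)) hqS
    | algebraMap n =>
      rw [show (⟨algebraMap ℤ _ n, Subalgebra.algebraMap_mem _ n⟩ :
        CuspForm.heckeAlgebra (M * ∏ r ∈ D.Q', r) 2 (↑S : Set ℕ)) = (n : ℤ) from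
          Subtype.ext (by simp), map_intCast]
      exact intCast_mem _ n
    | add x y hx' hy' hx hy =>
      rw [show (⟨x + y, add_mem hx' hy'⟩ :
        CuspForm.heckeAlgebra (M * ∏ r ∈ D.Q', r) 2 (↑S : Set ℕ)) = ⟨x, hx'⟩ + ⟨y, hy'⟩ from rfl,
        map_add]
      exact add_mem hx hy
    | mul x y hx' hy' hx hy =>
      rw [show (⟨x * y, mul_mem hx' hy'⟩ :
        CuspForm.heckeAlgebra (M * ∏ r ∈ D.Q', r) 2 (↑S : Set ℕ)) = ⟨x, hx'⟩ * ⟨y, hy'⟩ from rfl,
        map_mul]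
      exact mul_mem hx hy
  refine ⟨_, hne, S, χ.codRestrict (pointRing O D.R) hmem, fun q hq hd => ⟨hS' q hq hd, hdvd q hq hd⟩,
    Finset.mem_insert_self _ _, fun ℓ hℓ hℓN hℓS A hA τ hτ =>
      ⟨Subtype.ext (hval ℓ hℓ hℓN hℓS A hA τ hτ), ?_⟩⟩
  have hℓp : ℓ ≠ p := fun hd => hℓS (Finset.mem_coe.2 (hd ▸ Finset.mem_insert_self _ _))
  rw [D.det, FA.JTorsion.cycP_frobenius p hℓ hℓp hA hτ, map_natCast, map_natCast]

include h in
/-- At a level prime to `p` the lift is flat at `p`. -/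
theorem flat (hp2 : p ≠ 2) (hpO : (p : O) ∈ maximalIdeal O)
    (hspan : Submodule.span (ResidueField O) (Set.range rb) = ⊤) (hpM : ¬ p ∣ M) :
    AtFlat p (pointRing O D.R) D.r := by
  obtain ⟨N, hN, S, χ, hNS, -, hfrob⟩ := D.exists_heckeHom h
  refine ⟨D.cont, FA.FlatModel.isFlatAt_of_hecke Fact.out hp2
    (fun hd => hpM (hNS p Fact.out hd).2) (fun q hq hd => (hNS q hq hd).1) ?_
    (FA.FlatModel.natCast_mem_nonZeroDivisors (O := O) Fact.out)
    (FA.FlatModel.finite_quotient_prime_pow (O := O) Fact.out) χ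
    (ofMatrix D.r D.cont) (Pi.basisFun _ (Fin 2))
    (by rw [matrixOf_ofMatrix]; exact span_eq_top_of_lift _ pointRes_algebraMap hspan D.lift) ∅
    fun ℓ hℓ hℓN hℓS _ A hA τ hτ => by
      rw [matrixOf_ofMatrix]; exact hfrob ℓ hℓ hℓN hℓS A hA τ hτ⟩
  exact mem_maximalIdeal_pointRing (natCast_mem_maximalIdeal hpO)

end PiecePt

/-- Lifts separating an algebra of good operators on a piece. -/
structure PieceSep (p : ℕ) (rb : GQ →* M2 (ResidueField O)) (cyc : GQ → O) (Q : Finset ℕ)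
    (α : ℕ → O) {A : Type} [CommRing A] [Algebra O A] (g : A →ₐ[O] GoodAlg e)
    (Good : ∀ (B : Type) [CommRing B] [IsLocalRing B] [Algebra O B], (GQ →* M2 B) → Prop) where
  /-- the lifts -/
  pts : PointSet rb cyc
  /-- the values -/
  ev : A →ₐ[O] ∀ j, pts.B j
  ev_injective : Function.Injective ev
  ev_twT : ∀ (ℓ : GP M) (a : A), g a = twT e ℓ → ℓ.1 ≠ p →
    ∀ P : ValuationSubring Qb, P.LiesOverPrime ℓ.1 → ∀ σ : GQ, P.IsFrobeniusAt σ ℓ.1 →
      ∀ j, ev a j = (pts.r j σ).trace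
  unr : ∀ j, ∀ q : ℕ, q.Prime → ¬ q ∣ M → q ≠ p → ∀ P : ValuationSubring Qb, P.LiesOverPrime q →
    ∀ σ ∈ P.inertiaSubgroupIn ℚ, pts.r j σ = 1
  tame : ∀ j, ∀ q : ℕ, q.Prime → q ≠ p → q ∉ Q → ¬ q * q ∣ M →
    ∀ P : ValuationSubring Qb, P.LiesOverPrime q → ∀ σ ∈ P.inertiaSubgroupIn ℚ,
      (pts.r j σ).trace = 2
  good : ∀ j, Good (pts.B j) (pts.r j)
  line : ∀ j, ∀ q : ℕ, [Fact q.Prime] → q ∈ Q →
    ∀ P : ValuationSubring Qb, P.LiesOverPrime q → ∀ φ : GQ, P.IsFrobeniusAt φ q →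
    ∀ s ∈ P.inertiaSubgroupIn ℚ, (∀ σ ∈ P.inertiaSubgroupIn ℚ, rb σ = 1) →
    residue O (α q) ^ 2 - (rb φ).trace * residue O (α q) + (rb φ).det = 0 →
    (rb φ).trace ^ 2 ≠ 4 * (rb φ).det → ∀ u : (ZMod M)ˣ,
    (ZMod.cast (u : ZMod M) : ZMod q) = (cycK q (ZMod q) s : ZMod q) →
    (∀ q' ∈ Q, q' ≠ q → (ZMod.cast (u : ZMod M) : ZMod q') = 1) →
    ∀ a : A, g a = goodDia e ((QuotientGroup.mk u ^ halfExp ((ZMod M)ˣ ⧸ H))⁻¹) →
    ∃ x : pts.B j, pts.ε j x = residue O (α q) ∧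
      x * x - (pts.r j φ).trace * x + (pts.r j φ).det = 0 ∧
      (2 * x - (pts.r j φ).trace) * ev a j =
        (pts.r j φ * pts.r j s).trace - ((pts.r j φ).trace - x) * (pts.r j s).trace

/-- The good operators of a piece with odd diamond group form a reduced algebra. -/
theorem TWPiece.isReduced (h : TWPiece p rb Q T0 c0 α e) (hp2 : p ≠ 2) :
    IsReduced (GoodAlg e) := by
  refine isReduced_goodAlg e h.par Q h.exact fun u hu => ?_
  have h2 : u ^ 2 ∈ H := h.mem_H _ fun q hq => by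
    rw [Units.val_pow_eq_pow_val, ← ZMod.castHom_apply (h := (h.exact q hq).2.1), map_pow,
      ZMod.castHom_apply]
    exact hu q hq
  refine (QuotientGroup.eq_one_iff u).1 ?_
  have h3 : (QuotientGroup.mk u : (ZMod M)ˣ ⧸ H) ^ 2 = 1 := by
    rw [← QuotientGroup.mk_pow]
    exact (QuotientGroup.eq_one_iff _).2 h2
  exact orderOf_eq_one_iff.1 (Nat.eq_one_of_dvd_coprimes (h.odd_card hp2).coprime_two_left
    (orderOf_dvd_of_pow_eq_one h3) (orderOf_dvd_natCard _))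

variable [Finite (ResidueField O)] {cyc : GQ → O}

/-- **The lifts of the points separate.** -/
theorem TWPiece.exists_pieceSep (h : TWPiece p rb Q T0 c0 α e) (hp2 : p ≠ 2)
    (hpO : (p : O) ∈ maximalIdeal O) (ι : ℤ_[p] →+* O)
    (hcyc : ∀ σ, cyc σ = ι ((cycP p σ : ℤ_[p]ˣ) : ℤ_[p])) (rb_open : IsOpen (rb.ker : Set GQ))
    (hspan : Submodule.span (ResidueField O) (Set.range rb) = ⊤)
    (hdetrb : ∀ σ, (rb σ).det = residue O (cyc σ))
    {A : Type} [CommRing A] [Algebra O A] (g : A →ₐ[O] GoodAlg e) (hg : Function.Injective g)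
    (hgA : (∀ a, g a ∈ goodAway e p) ∨ NilP e p)
    {Good : ∀ (B : Type) [CommRing B] [IsLocalRing B] [Algebra O B], (GQ →* M2 B) → Prop}
    (hGood : ∀ D : PiecePt ι rb Q e, Good (pointRing O D.R) D.r) :
    Nonempty (PieceSep p rb cyc Q α g Good) := by
  classical
  have hdetrb' : ∀ σ, (rb σ).det = residue O (ι ((cycP p σ : ℤ_[p]ˣ) : ℤ_[p])) := fun σ => by
    rw [hdetrb, hcyc]
  by_cases hne : ∃ v, e v ≠ 0
  swap
  · push Not at hne
    have hA0 : ∀ a : A, a = 0 := fun a => hg <| by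
      obtain ⟨b, hb⟩ := Ideal.Quotient.mk_surjective (g a)
      rw [map_zero, ← hb]
      exact Ideal.Quotient.eq_zero_iff_mem.2 fun v => by rw [hne v, map_zero]
    let P : PointSet rb cyc :=
      { J := Empty
        B := fun _ => O
        r := fun j => j.elim
        ε := fun j => j.elim
        ε_algebraMap := fun j => j.elim
        lift := fun j => j.elim
        cont := fun j => j.elim
        det := fun j => j.elim }
    exact ⟨{
      pts := P
      ev := AlgHom.pi fun j : Empty => j.elim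
      ev_injective := fun a b _ => (hA0 a).trans (hA0 b).symm
      ev_twT := fun _ _ _ _ _ _ _ _ j => (j : Empty).elim
      unr := fun j => (j : Empty).elim
      tame := fun j => (j : Empty).elim
      good := fun j => (j : Empty).elim
      line := fun j => (j : Empty).elim }⟩
  haveI := h.isReduced hp2
  obtain ⟨J, hJ, -, P, hP⟩ := exists_points e hne
  have hD : ∀ j, ∃ D : PiecePt ι rb Q e, ∀ x, D.f x = 0 → (P j).hom x = 0 := fun j => by
    obtain ⟨O', i₁, i₂, i₃, i₄, i₅, i₆, i₇, i₈, i₉, i₁₀, f, z, Q', η, m, hz, hη, hm, hker⟩ :=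
      h.exists_rep hp2 hpO ι (P j)
    haveI : Module.IsTorsionFree O O' := inferInstance
    obtain ⟨r, hr, hrc, hrd, hrt, hU⟩ := h.exists_lift rb_open hspan hdetrb' hz hη hm
    exact ⟨⟨O', f, z, Q', η, m, hz, hη, hm, r, hr, hrc, hrd, hrt, hU⟩, hker⟩
  choose D hD using hD
  have hmem : ∀ j a, (D j).val (g a) ∈ pointRing O (D j).R := fun j a => by
    rcases hgA with hgA | hnil
    · exact (D j).val_mem_of_goodAway h (hgA a)
    · exact h.goodAlg_mem rb_open hspan hdetrb' (D j).hz (D j).hη (D j).hm hnil (g a)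
  let P' : PointSet rb cyc :=
    { J := J
      B := fun j => pointRing O (D j).R
      r := fun j => (D j).r
      ε := fun j => pointRes O (D j).R
      ε_algebraMap := fun j => pointRes_algebraMap
      lift := fun j => (D j).lift
      cont := fun j => (D j).cont
      det := fun j σ => by rw [(D j).det, hcyc] }
  let ev : A →ₐ[O] ∀ j, P'.B j :=
    AlgHom.pi fun j => ((D j).val.comp g).codRestrict (pointRing O (D j).R) (hmem j)
  refine ⟨{
    pts := P'
    ev := ev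
    ev_injective := (injective_iff_map_eq_zero ev).2 fun a ha => hg ((hP _ fun j => hD j _ ?_).trans
      (map_zero g).symm)
    ev_twT := fun ℓ a ha hℓp B hB σ hσ j => Subtype.ext ?_
    unr := fun j q hq hqM hqp B hB σ hσ =>
      (D j).eq_one_of_m ((D j).hm.unr q hq hqM hqp B hB σ hσ)
    tame := fun j q hq hqp hqQ hqM B hB σ hσ => Subtype.ext ?_
    good := fun j => hGood (D j)
    line := fun j q hq hqQ B hB φ hφ s hs hunr hα hreg u huq hu' a ha => ?_ }⟩
  · exact congrArg Subtype.val (congrFun ha j)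
  · show (D j).val (g a) = _
    rw [ha]
    exact (D j).val_twT h ℓ hℓp hB hσ
  · show ((D j).r σ).trace.1 = _
    rw [(D j).trace, h.trace_tame hpO (D j).hz (D j).hη (D j).hm hq hqp hqQ hqM hB hσ]
    rfl
  · obtain ⟨x, hx1, hx2, hx3⟩ := h.exists_line hpO hspan hdetrb' (D j).hz (D j).hη (D j).hm
      (D j).lift (D j).cont (D j).trace (D j).det hqQ hB hφ hs hunr hα hreg huq hu'
    refine ⟨x, hx1, hx2, Subtype.ext ?_⟩
    have h4 : (ev a j).1 = (D j).f (fullD e ((QuotientGroup.mk u ^ halfExp ((ZMod M)ˣ ⧸ H))⁻¹)) := by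
      show (D j).val (g a) = _
      rw [ha]
      rfl
    show (2 * x.1 - ((D j).r φ).trace.1) * (ev a j).1 = _
    rw [h4]
    exact hx3

end FA.RT

end
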