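import Fermat.Agent.RT.TWPoint.AtStrict
import Fermat.Agent.RT.CurveResidual
import Fermat.Agent.RT.TresRamified

/-!
# The residual conditions of strictness for a curve bad at `p`

The residual representation of a semistable curve with multiplicative reduction at `p` is of
ordinary type, and in the très ramifiée case it has no flat lift over a point ring.
-/

set_option autoImplicit false
set_option linter.unusedSectionVars false
set_option linter.style.haveILetI false

noncomputable section

open IsLocalRing Matrix WeierstrassCurve FA.EC FA.Frob FA.Deform FA.LocalDef FA.Local FA.JTorsion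
open scoped WeierstrassCurve.Affine

namespace FA.RT

local notation "Qb" => AlgebraicClosure ℚ
local notation "GQ" => AlgebraicClosure ℚ ≃ₐ[ℚ] AlgebraicClosure ℚ
local notation "M2" => Matrix (Fin 2) (Fin 2)

variable {p : ℕ} [hp : Fact p.Prime]

/-- Ordinary type passes to field extensions. -/
theorem isOrdType_mapRep {k k' : Type} [Field k] [Field k'] (g : k →+* k')
    {A : ValuationSubring Qb} {r : GQ →* M2 k} (h : IsOrdType A r) :
    IsOrdType A (mapRep g r) := by
  obtain ⟨l, hl, hD, hI⟩ := h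
  have hmv : ∀ σ (v : Fin 2 → k), mapRep g r σ *ᵥ (g ∘ v) = g ∘ (r σ *ᵥ v) := fun σ v => by
    funext i
    rw [mapRep_eq]
    exact (RingHom.map_mulVec g (r σ) v i).symm
  refine ⟨g ∘ l, fun h0 => hl (funext fun i => g.injective ((congrFun h0 i).trans
    (map_zero g).symm)), fun σ hσ => ?_, fun σ hσ w => ?_⟩
  · obtain ⟨x, hx⟩ := hD σ hσ
    exact ⟨g x, by rw [hmv, hx]; funext i; simp⟩
  · obtain ⟨s₀, hs₀⟩ := hI σ hσ (Pi.single 0 1)
    obtain ⟨s₁, hs₁⟩ := hI σ hσ (Pi.single 1 1)
    have hw : w = w 0 • (g ∘ Pi.single 0 1) + w 1 • (g ∘ Pi.single 1 1) := by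
      funext i
      fin_cases i <;> simp
    refine ⟨w 0 * g s₀ + w 1 * g s₁, ?_⟩
    have e0 : ∀ (v : Fin 2 → k) (s : k), r σ *ᵥ v - v = s • l →
        mapRep g r σ *ᵥ (g ∘ v) - g ∘ v = g s • (g ∘ l) := fun v s hs => by
      rw [hmv]
      funext i
      have := congrArg g (congrFun hs i)
      simpa using this
    rw [hw, mulVec_add, mulVec_smul, mulVec_smul, add_sub_add_comm, ← smul_sub, ← smul_sub,
      e0 _ _ hs₀, e0 _ _ hs₁, smul_smul, smul_smul, ← add_smul, ← hw]

variable (W : WeierstrassCurve ℤ) [(ratCurve W).IsElliptic]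

/-- **The residual representation of a curve bad at `p` is of ordinary type.** -/
theorem isOrdType_mapRep_curveRep (hΔ : W.Δ ≠ 0) (hW : W.IsSemistableModel) (hp2 : p ≠ 2)
    (hbad : (p : ℤ) ∣ W.Δ) {k : Type} [Field k] (j : ZMod p →+* k) (A : ValuationSubring Qb)
    (hA : A.LiesOverPrime p) : IsOrdType A (mapRep j (curveRep p W)) := by
  refine isOrdType_mapRep j ?_
  have hm : MultAt W p A := ⟨hΔ, hp.out, hbad, hW p hp.out hbad, hA⟩
  obtain ⟨z, hz0, hI, hD⟩ := exists_line_at_p hm hp2 natCard_rootsOfUnity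
  let b := (torsBasis (p := p) W).equivFun
  refine ⟨b z, b.map_ne_zero_iff.mpr hz0, fun σ hσ => ?_, fun σ hσ w => ?_⟩
  · obtain ⟨c, hc⟩ := Submodule.mem_span_singleton.mp (hD σ hσ)
    refine ⟨c, ?_⟩
    rw [toMatrix_mulVec, ← hc]
    exact map_smul b c z
  · obtain ⟨y, rfl⟩ := b.surjective w
    obtain ⟨c, hc⟩ := Submodule.mem_span_singleton.mp ((hI σ hσ).2 y)
    refine ⟨c, ?_⟩
    rw [toMatrix_mulVec]
    exact (map_sub b _ _).symm.trans ((congrArg b hc.symm).trans (map_smul b c z))

/-- **No flat lift over a point ring in the très ramifiée case.** -/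
theorem not_atFlat_pointRing_of_tres (hΔ : W.Δ ≠ 0) (hW : W.IsSemistableModel) (hp2 : p ≠ 2)
    (hbad : (p : ℤ) ∣ W.Δ) (hnval : ¬ p ∣ padicValInt p W.Δ)
    {O : Type} [CommRing O] [IsDomain O] [IsDiscreteValuationRing O]
    [IsAdicComplete (maximalIdeal O) O] [Finite (ResidueField O)]
    {O' : Type} [CommRing O'] [IsDomain O'] [IsDiscreteValuationRing O']
    [IsAdicComplete (maximalIdeal O') O'] [Algebra O O']
    [IsLocalHom (algebraMap O O')] [Module.IsTorsionFree O O'] [Module.Finite O O']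
    [Module.Free O O']
    (j : ZMod p →+* ResidueField O) {r : GQ →* M2 (pointRing O O')}
    (hr : mapRep (pointRes O O') r = mapRep j (curveRep p W)) :
    ¬ AtFlat p (pointRing O O') r := by
  obtain ⟨A, hA⟩ := FA.Deform.exists_liesOverPrime hp.out
  exact not_atFlat_of_tres W hΔ hW hp2 hbad hA j hnval r (pointRes O O') pointRes_algebraMap hr

end FA.RT

end
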